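import Mathlib
import Fermat.Statements.S16
import Fermat.Agent.S21.Prim
import Fermat.Agent.S21.Inj
import Fermat.Agent.S21.Parabolic

set_option autoImplicit false

open UpperHalfPlane hiding I
open Complex Function Filter CongruenceSubgroup ModularCurve ModularCurve.Period ModularForm
open scoped Manifold MatrixGroups ModularForm Topology Real ComplexConjugate
open Matrix.SpecialLinearGroup (mapGL)
open P2MW.S_ModularForm_heckeT_slash_eq_self_of_mem_Gamma0.ModularForm.HeckeSlashInvariance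

namespace Fermat.Agent.S16

noncomputable section

/-- Telescoping: the period of `∑ Φ ∘ α x`. -/
theorem sum_comp_smul_sub {N : ℕ} {ι : Type*} [Fintype ι] (Φ : ℍ → ℂ) (per : Gamma0 N → ℂ)
    (hper : ∀ (γ : Gamma0 N) (z : ℍ), Φ ((γ : SL(2, ℤ)) • z) - Φ z = per γ)
    (α : ι → GL (Fin 2) ℝ) (γ : Gamma0 N) (σ : Equiv.Perm ι) (c : ι → Gamma0 N)
    (h : ∀ x, α x * mapGL ℝ (γ : SL(2, ℤ)) = mapGL ℝ (c x : SL(2, ℤ)) * α (σ x)) (z : ℍ) :
    ∑ x, Φ (α x • ((γ : SL(2, ℤ)) • z)) - ∑ x, Φ (α x • z) = ∑ x, per (c x) := by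
  have h1 : ∀ x, Φ (α x • ((γ : SL(2, ℤ)) • z)) = per (c x) + Φ (α (σ x) • z) := by
    intro x
    have e1 : α x • ((γ : SL(2, ℤ)) • z) = (c x : SL(2, ℤ)) • (α (σ x) • z) := by
      show α x • (mapGL ℝ (γ : SL(2, ℤ)) • z) = mapGL ℝ (c x : SL(2, ℤ)) • (α (σ x) • z)
      rw [← mul_smul, h x, mul_smul]
    rw [e1, ← hper (c x) (α (σ x) • z)]
    ring
  simp only [h1, Finset.sum_add_distrib]
  rw [Equiv.sum_comp σ (fun x => Φ (α x • z))]
  ring

theorem hasDerivAt_comp_heckeMatrix {f F : ℍ → ℂ}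
    (hF : ∀ τ : ℍ, HasDerivAt (F ∘ ofComplex) (f τ) τ) {p : ℕ} (hp : p ≠ 0) (j : ℕ) (τ : ℍ) :
    HasDerivAt ((fun w : ℍ => F (heckeMatrix p j • w)) ∘ ofComplex)
      ((f ∣[(2 : ℤ)] heckeMatrix p j) τ) τ := by
  have hp' : (p : ℂ) ≠ 0 := by exact_mod_cast hp
  set m : ℂ → ℂ := fun w => (w + j) / p with hm
  have hmτ : m τ = ((heckeMatrix p j • τ : ℍ) : ℂ) := (coe_heckeMatrix_smul hp j τ).symm
  have hmd : HasDerivAt m ((p : ℂ)⁻¹) τ := by
    have := ((hasDerivAt_id (τ : ℂ)).add_const (j : ℂ)).div_const (p : ℂ)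
    simpa [one_div] using this
  have hcomp : HasDerivAt ((F ∘ ofComplex) ∘ m) (f (heckeMatrix p j • τ) * (p : ℂ)⁻¹) τ := by
    have := hF (heckeMatrix p j • τ)
    rw [← hmτ] at this
    exact this.comp (τ : ℂ) hmd
  rw [slash_heckeMatrix_apply 2 hp, mul_comm]
  refine hcomp.congr_of_eventuallyEq ?_
  filter_upwards [isOpen_upperHalfPlaneSet.mem_nhds τ.im_pos] with w hw
  have h1 : ofComplex w = ⟨w, hw⟩ := ofComplex_apply_of_im_pos hw
  have h2 : m w = ((heckeMatrix p j • (⟨w, hw⟩ : ℍ) : ℍ) : ℂ) :=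
    (coe_heckeMatrix_smul hp j ⟨w, hw⟩).symm
  simp only [comp_apply, h1, h2, ofComplex_apply]

theorem hasDerivAt_comp_heckeDiagMatrix {f F : ℍ → ℂ}
    (hF : ∀ τ : ℍ, HasDerivAt (F ∘ ofComplex) (f τ) τ) {p : ℕ} (hp : p ≠ 0) (τ : ℍ) :
    HasDerivAt ((fun w : ℍ => F (heckeDiagMatrix p • w)) ∘ ofComplex)
      ((f ∣[(2 : ℤ)] heckeDiagMatrix p) τ) τ := by
  set m : ℂ → ℂ := fun w => (p : ℂ) * w with hm
  have hmτ : m τ = ((heckeDiagMatrix p • τ : ℍ) : ℂ) := (coe_heckeDiagMatrix_smul hp τ).symm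
  have hmd : HasDerivAt m (p : ℂ) τ := by
    have := (hasDerivAt_id (τ : ℂ)).const_mul (p : ℂ)
    simpa using this
  have hcomp : HasDerivAt ((F ∘ ofComplex) ∘ m) (f (heckeDiagMatrix p • τ) * (p : ℂ)) τ := by
    have := hF (heckeDiagMatrix p • τ)
    rw [← hmτ] at this
    exact this.comp (τ : ℂ) hmd
  rw [slash_heckeDiagMatrix_apply 2 hp, mul_comm]
  have : (p : ℂ) ^ ((2 : ℤ) - 1) = p := by norm_num
  rw [this]
  refine hcomp.congr_of_eventuallyEq ?_
  filter_upwards [isOpen_upperHalfPlaneSet.mem_nhds τ.im_pos] with w hw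
  have h1 : ofComplex w = ⟨w, hw⟩ := ofComplex_apply_of_im_pos hw
  have h2 : m w = ((heckeDiagMatrix p • (⟨w, hw⟩ : ℍ) : ℍ) : ℂ) :=
    (coe_heckeDiagMatrix_smul hp ⟨w, hw⟩).symm
  simp only [comp_apply, h1, h2, ofComplex_apply]

theorem tendsto_heckeMatrix_smul {p : ℕ} (hp : p ≠ 0) (j : ℕ) :
    Tendsto (fun w : ℍ => heckeMatrix p j • w) atImInfty atImInfty := by
  rw [atImInfty, tendsto_comap_iff]
  have hp' : (0 : ℝ) < p := by exact_mod_cast Nat.pos_of_ne_zero hp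
  have : (UpperHalfPlane.im ∘ fun w : ℍ => heckeMatrix p j • w) = fun w : ℍ => w.im / p := by
    ext w
    have h := congrArg Complex.im (coe_heckeMatrix_smul hp j w)
    simp only [comp_apply]
    rw [← UpperHalfPlane.coe_im, h]
    have : ((w : ℂ) + j) / p = (((w : ℂ) + j)) / ((p : ℝ) : ℂ) := by simp
    rw [this, Complex.div_ofReal_im]
    simp
  rw [this]
  exact (tendsto_comap (f := UpperHalfPlane.im)).atTop_div_const hp'

theorem tendsto_heckeDiagMatrix_smul {p : ℕ} (hp : p ≠ 0) :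
    Tendsto (fun w : ℍ => heckeDiagMatrix p • w) atImInfty atImInfty := by
  rw [atImInfty, tendsto_comap_iff]
  have hp' : (0 : ℝ) < p := by exact_mod_cast Nat.pos_of_ne_zero hp
  have : (UpperHalfPlane.im ∘ fun w : ℍ => heckeDiagMatrix p • w) = fun w : ℍ => p * w.im := by
    ext w
    have h := congrArg Complex.im (coe_heckeDiagMatrix_smul hp w)
    simp only [comp_apply]
    rw [← UpperHalfPlane.coe_im, h]
    have : (p : ℂ) * (w : ℂ) = ((p : ℝ) : ℂ) * (w : ℂ) := by simp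
    rw [this, Complex.im_ofReal_mul]
    simp
  rw [this]
  exact (tendsto_comap (f := UpperHalfPlane.im)).const_mul_atTop hp'

/-- Uniqueness of the primitive vanishing at `i∞`. -/
theorem prim_eq_of {N : ℕ} [NeZero N] (f : CuspForm (Gamma0 N) 2) {G : ℍ → ℂ}
    (hG : ∀ τ : ℍ, HasDerivAt (G ∘ ofComplex) (f τ) τ) (hG0 : Tendsto G atImInfty (𝓝 0)) :
    S21.prim N f = G := by
  have hF := S21.prim_spec N f
  obtain ⟨c, hc⟩ := S21.exists_const_of_hasDerivAt_zero (G := fun z => S21.prim N f z - G z)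
    (fun τ => by
      have h2 := (hF.1 τ).sub (hG τ)
      rw [sub_self] at h2
      exact h2)
  have h1 : Tendsto (fun z : ℍ => S21.prim N f z - G z) atImInfty (𝓝 (0 - 0)) := hF.2.1.sub hG0
  have h2 : (fun z : ℍ => S21.prim N f z - G z) = fun _ => c := funext hc
  rw [h2, sub_zero] at h1
  have h3 : c = 0 := tendsto_nhds_unique tendsto_const_nhds h1
  funext z
  have := hc z
  rw [h3] at this
  exact sub_eq_zero.mp this

theorem prim_sum_of {N : ℕ} [NeZero N] {ι : Type*} [Fintype ι] (α : ι → GL (Fin 2) ℝ)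
    (f Tf : CuspForm (Gamma0 N) 2)
    (hd : ∀ x (τ : ℍ), HasDerivAt ((fun w : ℍ => S21.prim N f (α x • w)) ∘ ofComplex)
      (((⇑f) ∣[(2 : ℤ)] α x) τ) τ)
    (ht : ∀ x, Tendsto (fun w : ℍ => α x • w) atImInfty atImInfty)
    (hT : ⇑Tf = ∑ x, (⇑f) ∣[(2 : ℤ)] α x) (z : ℍ) :
    S21.prim N Tf z = ∑ x, S21.prim N f (α x • z) := by
  have := prim_eq_of Tf (G := fun z => ∑ x, S21.prim N f (α x • z)) (fun τ => by
    have h1 := HasDerivAt.fun_sum (u := Finset.univ) (fun x _ => hd x τ)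
    rw [hT, Finset.sum_apply]
    refine h1.congr_of_eventuallyEq (Eventually.of_forall fun w => ?_)
    simp) (by
    have h1 := tendsto_finsetSum (Finset.univ : Finset ι)
      (fun x _ => (S21.prim_spec N f).2.1.comp (ht x))
    simpa using h1)
  rw [this]

/-- The matrix `diag(-1, 1)`. -/
def Jmat : GL (Fin 2) ℝ :=
  Matrix.GeneralLinearGroup.mkOfDetNeZero !![-1, 0; 0, 1] (by simp [Matrix.det_fin_two_of])

@[simp] theorem val_Jmat : (Jmat : Matrix (Fin 2) (Fin 2) ℝ) = !![-1, 0; 0, 1] := rfl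

theorem Jmat_mul_mapGL (γ : SL(2, ℤ)) :
    Jmat * mapGL ℝ γ = mapGL ℝ (jConjSL γ) * Jmat := by
  ext i j
  fin_cases i <;> fin_cases j <;>
    simp [Matrix.mul_apply, Fin.sum_univ_two, jConjMat]

/-- The period formula for an operator whose primitive is a sum of translates. -/
theorem period_formula {N : ℕ} [NeZero N] {ι : Type*} [Fintype ι] (α : ι → GL (Fin 2) ℝ)
    (f Tf : CuspForm (Gamma0 N) 2)
    (hT : ∀ z, S21.prim N Tf z = ∑ x, S21.prim N f (α x • z))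
    (γ : Gamma0 N) (σ : Equiv.Perm ι) (c : ι → Gamma0 N)
    (h : ∀ x, α x * mapGL ℝ (γ : SL(2, ℤ)) = mapGL ℝ (c x : SL(2, ℤ)) * α (σ x)) :
    periodMap N Tf (Additive.ofMul γ) = ∑ x, periodMap N f (Additive.ofMul (c x)) := by
  rw [S21.periodMap_eq_prim Tf γ UpperHalfPlane.I, hT, hT]
  exact sum_comp_smul_sub (S21.prim N f) (fun γ => periodMap N f (Additive.ofMul γ))
    (fun γ z => (S21.periodMap_eq_prim f γ z).symm) α γ σ c h UpperHalfPlane.I

theorem period_formula_conj {N : ℕ} [NeZero N] {ι : Type*} [Fintype ι] (α : ι → GL (Fin 2) ℝ)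
    (f Tf : CuspForm (Gamma0 N) 2)
    (hT : ∀ z, S21.prim N Tf z = ∑ x, S21.prim N f (α x • z))
    (τ : Equiv.Perm ι) (t : ι → Gamma0 N)
    (hτ : ∀ x, Jmat * α x = mapGL ℝ (t x : SL(2, ℤ)) * α (τ x) * Jmat)
    (γ : Gamma0 N) (σ : Equiv.Perm ι) (c : ι → Gamma0 N)
    (h : ∀ x, α x * mapGL ℝ (γ : SL(2, ℤ)) = mapGL ℝ (c x : SL(2, ℤ)) * α (σ x)) :
    periodMap N Tf (Additive.ofMul (jConjGamma0 N γ)) =
      ∑ x, periodMap N f (Additive.ofMul (jConjGamma0 N (c x))) := by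
  have key : ∀ x, α (τ x) * mapGL ℝ ((jConjGamma0 N γ : Gamma0 N) : SL(2, ℤ)) =
      mapGL ℝ ((((t x)⁻¹ * jConjGamma0 N (c x) * t (σ x) : Gamma0 N)) : SL(2, ℤ)) *
        α (τ (σ x)) := by
    intro x
    have e1 : Jmat * (α x * mapGL ℝ (γ : SL(2, ℤ))) =
        Jmat * (mapGL ℝ (c x : SL(2, ℤ)) * α (σ x)) := by rw [h x]
    rw [← mul_assoc, hτ x, mul_assoc, Jmat_mul_mapGL, ← mul_assoc Jmat, Jmat_mul_mapGL,
      mul_assoc (mapGL ℝ (jConjSL (c x : SL(2, ℤ)))), hτ (σ x)] at e1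
    have e2 : mapGL ℝ (t x : SL(2, ℤ)) * (α (τ x) * mapGL ℝ (jConjSL (γ : SL(2, ℤ)))) =
        mapGL ℝ (jConjSL (c x : SL(2, ℤ))) * mapGL ℝ (t (σ x) : SL(2, ℤ)) * α (τ (σ x)) := by
      apply mul_right_cancel (b := Jmat)
      simpa only [mul_assoc] using e1
    simp only [jConjGamma0_coe, Subgroup.coe_mul, Subgroup.coe_inv, map_mul, map_inv]
    rw [mul_assoc, mul_assoc, eq_inv_mul_iff_mul_eq, e2, mul_assoc]
  have h1 := period_formula α f Tf hT (jConjGamma0 N γ) ((τ.symm.trans σ).trans τ)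
    (fun y => (t (τ.symm y))⁻¹ * jConjGamma0 N (c (τ.symm y)) * t (σ (τ.symm y)))
    (fun y => by
      have := key (τ.symm y)
      simpa using this)
  rw [h1, ← Equiv.sum_comp τ]
  simp only [Equiv.symm_apply_apply, ofMul_mul, ofMul_inv, map_add, map_neg,
    Finset.sum_add_distrib, Finset.sum_neg_distrib]
  rw [Equiv.sum_comp σ (fun x => periodMap N f (Additive.ofMul (t x)))]
  ring

/-- The Hecke formula for `periodHomPair`. -/
theorem pair_formula {N : ℕ} [NeZero N] {ι : Type*} [Fintype ι] (α : ι → GL (Fin 2) ℝ)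
    (f Tf g Tg : CuspForm (Gamma0 N) 2)
    (hTf : ∀ z, S21.prim N Tf z = ∑ x, S21.prim N f (α x • z))
    (hTg : ∀ z, S21.prim N Tg z = ∑ x, S21.prim N g (α x • z))
    (τ : Equiv.Perm ι) (t : ι → Gamma0 N)
    (hτ : ∀ x, Jmat * α x = mapGL ℝ (t x : SL(2, ℤ)) * α (τ x) * Jmat)
    (γ : Gamma0 N) (σ : Equiv.Perm ι) (c : ι → Gamma0 N)
    (h : ∀ x, α x * mapGL ℝ (γ : SL(2, ℤ)) = mapGL ℝ (c x : SL(2, ℤ)) * α (σ x)) :
    periodHomPair N (Tf, Tg) (Additive.ofMul γ) =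
      ∑ x, periodHomPair N (f, g) (Additive.ofMul (c x)) := by
  simp only [S21.periodHomPair_eq, LinearMap.coprod_apply, LinearMap.comp_apply,
    LinearMap.add_apply, LinearMap.sub_apply, LinearMap.id_apply, S21.periodMapLin_apply,
    AddMonoidHom.add_apply, AddMonoidHom.sub_apply, charInvolution_apply, toMul_ofMul]
  rw [period_formula α f Tf hTf γ σ c h, period_formula α g Tg hTg γ σ c h,
    period_formula_conj α f Tf hTf τ t hτ γ σ c h, period_formula_conj α g Tg hTg τ t hτ γ σ c h]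
  simp only [Finset.sum_add_distrib, Finset.sum_sub_distrib]

theorem prim_heckeU {N q : ℕ} [NeZero N] [NeZero q] (hqN : q ∣ N) (f : CuspForm (Gamma0 N) 2)
    (z : ℍ) :
    S21.prim N (CuspForm.heckeULin 2 hqN f) z =
      ∑ x : ZMod q, S21.prim N f (heckeMatrix q x.val • z) :=
  prim_sum_of (fun x : ZMod q => heckeMatrix q x.val) f _
    (fun x τ => hasDerivAt_comp_heckeMatrix (S21.prim_spec N f).1 (NeZero.ne q) _ τ)
    (fun x => tendsto_heckeMatrix_smul (NeZero.ne q) _)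
    (by rw [CuspForm.coe_heckeULin_apply, heckeU_eq_sum_zmod]) z

theorem prim_heckeT {N q : ℕ} [NeZero N] [NeZero q] (hq : q.Prime) (hqN : ¬ q ∣ N)
    (f : CuspForm (Gamma0 N) 2) (z : ℍ) :
    S21.prim N (CuspForm.heckeTLin 2 hq hqN f) z =
      ∑ x : OnePoint (ZMod q), S21.prim N f (heckeRep q x • z) :=
  prim_sum_of (fun x : OnePoint (ZMod q) => heckeRep q x) f _
    (fun x τ => by
      induction x using OnePoint.rec with
      | infty => exact hasDerivAt_comp_heckeDiagMatrix (S21.prim_spec N f).1 (NeZero.ne q) τ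
      | coe j => exact hasDerivAt_comp_heckeMatrix (S21.prim_spec N f).1 (NeZero.ne q) _ τ)
    (fun x => by
      induction x using OnePoint.rec with
      | infty => exact tendsto_heckeDiagMatrix_smul (NeZero.ne q)
      | coe j => exact tendsto_heckeMatrix_smul (NeZero.ne q) _)
    (by rw [CuspForm.coe_heckeTLin_apply, heckeT_eq_sum_onePoint]) z

theorem exists_Jmat_heckeMatrix (N : ℕ) {q : ℕ} [NeZero q] (x : ZMod q) :
    ∃ t : Gamma0 N, Jmat * heckeMatrix q x.val =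
      mapGL ℝ (t : SL(2, ℤ)) * heckeMatrix q (-x).val * Jmat := by
  obtain ⟨e, he⟩ : (q : ℤ) ∣ (x.val : ℤ) + ((-x).val : ℤ) := by
    rw [← ZMod.intCast_zmod_eq_zero_iff_dvd]
    push_cast
    rw [ZMod.natCast_zmod_val, ZMod.natCast_zmod_val]
    ring
  set t0 : SL(2, ℤ) := ⟨!![1, -e; 0, 1], by simp [Matrix.det_fin_two_of]⟩ with ht0
  have h00 : t0 0 0 = 1 := rfl
  have h01 : t0 0 1 = -e := rfl
  have h10 : t0 1 0 = 0 := rfl
  have h11 : t0 1 1 = 1 := rfl
  refine ⟨⟨t0, ?_⟩, ?_⟩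
  · rw [Gamma0_mem, h10]
    simp
  · have he' := congrArg (Int.cast : ℤ → ℝ) he
    push_cast at he'
    ext i j
    fin_cases i <;> fin_cases j <;>
      simp [Matrix.mul_apply, Fin.sum_univ_two, NeZero.ne q, h00, h01, h10, h11,
        -ZMod.natCast_val]
    linear_combination -he'

theorem Jmat_heckeDiagMatrix (q : ℕ) :
    Jmat * heckeDiagMatrix q = heckeDiagMatrix q * Jmat := by
  rcases eq_or_ne q 0 with rfl | hq
  · simp
  ext i j
  fin_cases i <;> fin_cases j <;>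
    simp [Matrix.mul_apply, Fin.sum_univ_two, hq]

/-- Hecke formula for `U_q`. -/
theorem periodHomPair_heckeU {N q : ℕ} [NeZero N] [NeZero q] (hqN : q ∣ N)
    (f g : CuspForm (Gamma0 N) 2) (γ : Gamma0 N) (σ : Equiv.Perm (ZMod q))
    (c : ZMod q → Gamma0 N)
    (h : ∀ x : ZMod q, heckeMatrix q x.val * mapGL ℝ (γ : SL(2, ℤ)) =
      mapGL ℝ (c x : SL(2, ℤ)) * heckeMatrix q (σ x).val) :
    periodHomPair N (CuspForm.heckeULin 2 hqN f, CuspForm.heckeULin 2 hqN g) (Additive.ofMul γ) =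
      ∑ x, periodHomPair N (f, g) (Additive.ofMul (c x)) := by
  choose t ht using exists_Jmat_heckeMatrix N (q := q)
  exact pair_formula (fun x : ZMod q => heckeMatrix q x.val) f _ g _ (prim_heckeU hqN f)
    (prim_heckeU hqN g) (Equiv.neg (ZMod q)) t ht γ σ c h

/-- Hecke formula for `T_q`. -/
theorem periodHomPair_heckeT {N q : ℕ} [NeZero N] [NeZero q] (hq : q.Prime) (hqN : ¬ q ∣ N)
    (f g : CuspForm (Gamma0 N) 2) (γ : Gamma0 N) (σ : Equiv.Perm (OnePoint (ZMod q)))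
    (c : OnePoint (ZMod q) → Gamma0 N)
    (h : ∀ x : OnePoint (ZMod q), heckeRep q x * mapGL ℝ (γ : SL(2, ℤ)) =
      mapGL ℝ (c x : SL(2, ℤ)) * heckeRep q (σ x)) :
    periodHomPair N (CuspForm.heckeTLin 2 hq hqN f, CuspForm.heckeTLin 2 hq hqN g)
      (Additive.ofMul γ) = ∑ x, periodHomPair N (f, g) (Additive.ofMul (c x)) := by
  choose t ht using exists_Jmat_heckeMatrix N (q := q)
  refine pair_formula (fun x : OnePoint (ZMod q) => heckeRep q x) f _ g _ (prim_heckeT hq hqN f)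
    (prim_heckeT hq hqN g) (Equiv.optionCongr (Equiv.neg (ZMod q)))
    (fun x => x.elim 1 t) (fun x => ?_) γ σ c h
  induction x using OnePoint.rec with
  | infty =>
    have : Jmat * heckeDiagMatrix q = mapGL ℝ ((1 : Gamma0 N) : SL(2, ℤ)) * heckeDiagMatrix q * Jmat := by
      rw [Jmat_heckeDiagMatrix]; simp
    exact this
  | coe j => exact ht j

end

end Fermat.Agent.S16
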