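import Mathlib

set_option autoImplicit false

namespace Fermat.Agent.S16.CohLift

section Lifts

variable {X : Type*} [Finite X] (n : ℕ)

theorem exists_lift_two (σ : X → X) (hσ : ∀ x, σ (σ x) = x) (a0 : X → ZMod n)
    (h : ∀ x, a0 x + a0 (σ x) = 0) (hfix : ∀ x, σ x = x → a0 x = 0) :
    ∃ a : X → ℤ, (∀ x, a x + a (σ x) = 0) ∧ ∀ x, ((a x : ℤ) : ZMod n) = a0 x := by
  classical
  obtain ⟨L, hL⟩ : ∃ L : ZMod n → ℤ, ∀ y, ((L y : ℤ) : ZMod n) = y :=
    ⟨fun y => (ZMod.intCast_surjective y).choose, fun y => (ZMod.intCast_surjective y).choose_spec⟩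
  obtain ⟨m, ⟨e⟩⟩ := Finite.exists_equiv_fin X
  let r : X → ℕ := fun x => (e x : ℕ)
  have hr : ∀ x y, r x = r y → x = y := fun x y hxy => e.injective (Fin.ext hxy)
  refine ⟨fun x => if r x < r (σ x) then L (a0 x) else if r (σ x) < r x then - L (a0 (σ x)) else 0,
    fun x => ?_, fun x => ?_⟩
  · simp only [hσ]
    split_ifs <;> omega
  · simp only
    split_ifs with h1 h2
    · exact hL _
    · push_cast
      rw [hL]
      exact (eq_neg_of_add_eq_zero_left (h x)).symm
    · have : σ x = x := hr _ _ (by omega)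
      rw [hfix x this]
      simp

theorem exists_lift_three (τ : X → X) (hτ : ∀ x, τ (τ (τ x)) = x) (b0 : X → ZMod n)
    (h : ∀ x, b0 x + b0 (τ x) + b0 (τ (τ x)) = 0) (hfix : ∀ x, τ x = x → b0 x = 0) :
    ∃ b : X → ℤ, (∀ x, b x + b (τ x) + b (τ (τ x)) = 0) ∧ ∀ x, ((b x : ℤ) : ZMod n) = b0 x := by
  classical
  obtain ⟨L, hL⟩ : ∃ L : ZMod n → ℤ, ∀ y, ((L y : ℤ) : ZMod n) = y :=
    ⟨fun y => (ZMod.intCast_surjective y).choose, fun y => (ZMod.intCast_surjective y).choose_spec⟩
  obtain ⟨m, ⟨e⟩⟩ := Finite.exists_equiv_fin X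
  let r : X → ℕ := fun x => (e x : ℕ)
  have hr : ∀ x y, r x = r y → x = y := fun x y hxy => e.injective (Fin.ext hxy)
  refine ⟨fun x => if τ x = x then 0 else
      if r x < r (τ x) ∧ r x < r (τ (τ x)) then - L (b0 (τ x)) - L (b0 (τ (τ x))) else L (b0 x),
    fun x => ?_, fun x => ?_⟩
  · by_cases hx : τ x = x
    · simp [hx]
    · have h2 : τ (τ x) ≠ τ x := fun hh => hx (by
        have := congrArg (fun z => τ (τ z)) hh
        simpa only [hτ] using this)
      have h3 : x ≠ τ (τ x) := fun hh => hx (by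
        have := congrArg τ hh
        rw [hτ] at this
        exact this)
      have r1 : r x ≠ r (τ x) := fun hh => hx (hr _ _ hh).symm
      have r2 : r (τ x) ≠ r (τ (τ x)) := fun hh => h2 (hr _ _ hh).symm
      have r3 : r x ≠ r (τ (τ x)) := fun hh => h3 (hr _ _ hh)
      simp only [hτ, if_neg hx, if_neg h2, if_neg h3]
      split_ifs <;> omega
  · simp only
    split_ifs with h1 h2
    · rw [hfix x h1]; simp
    · push_cast
      rw [hL, hL]
      linear_combination - h x
    · exact hL _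

end Lifts

end Fermat.Agent.S16.CohLift
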