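import Fermat.Agent.S20.CombCusps

set_option autoImplicit false

open CongruenceSubgroup ModularGroup
open scoped MatrixGroups

namespace Fermat.Agent.S16.CohLift

theorem mk_eq_base_iff (N : ℕ) (g : SL(2, ℤ)) :
    (QuotientGroup.mk g : SL(2, ℤ) ⧸ Gamma0 N) = ((1 : SL(2, ℤ)) : SL(2, ℤ) ⧸ Gamma0 N) ↔
      ((g 1 0 : ℤ) : ZMod N) = 0 := by
  rw [Fermat.Agent.S20.mk_eq_mk_iff]
  simp

theorem T_pow_smul_mk (N : ℕ) (i : ℕ) (g : SL(2, ℤ)) :
    (T ^ i : SL(2, ℤ)) • (QuotientGroup.mk g : SL(2, ℤ) ⧸ Gamma0 N) = QuotientGroup.mk (T ^ (i : ℤ) * g) := by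
  rw [MulAction.Quotient.smul_mk, smul_eq_mul, zpow_natCast]

theorem T_pow_smul_base (N : ℕ) (i : ℕ) :
    (T ^ i : SL(2, ℤ)) • (((1 : SL(2, ℤ)) : SL(2, ℤ) ⧸ Gamma0 N)) = ((1 : SL(2, ℤ)) : SL(2, ℤ) ⧸ Gamma0 N) := by
  rw [T_pow_smul_mk, mk_eq_base_iff, Fermat.Agent.S20.T_zpow_mul_apply_one_zero]
  simp

theorem S_smul_base_ne (N : ℕ) (hN : 1 < N) :
    (S : SL(2, ℤ)) • (((1 : SL(2, ℤ)) : SL(2, ℤ) ⧸ Gamma0 N)) ≠ ((1 : SL(2, ℤ)) : SL(2, ℤ) ⧸ Gamma0 N) := by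
  rw [MulAction.Quotient.smul_mk, smul_eq_mul, mul_one, Ne, mk_eq_base_iff]
  haveI : Fact (1 < N) := ⟨hN⟩
  simp [ModularGroup.S]

theorem sum_T_orbit {M : Type*} [AddCommGroup M] (p : ℕ) [Fact p.Prime]
    [Fintype (SL(2, ℤ) ⧸ Gamma0 p)]
    (v : (SL(2, ℤ) ⧸ Gamma0 p) → M) (hsum : ∑ x, v x = 0)
    (h0 : v ((1 : SL(2, ℤ)) : SL(2, ℤ) ⧸ Gamma0 p) = 0) (x : SL(2, ℤ) ⧸ Gamma0 p) :
    ∑ i ∈ Finset.range p, v ((T ^ i : SL(2, ℤ)) • x) = 0 := by
  classical
  set x₀ : SL(2, ℤ) ⧸ Gamma0 p := ((1 : SL(2, ℤ)) : SL(2, ℤ) ⧸ Gamma0 p) with hx₀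
  by_cases hx : x = x₀
  · subst hx
    refine Finset.sum_eq_zero fun i _ => ?_
    rw [hx₀, T_pow_smul_base, ← hx₀, h0]
  · induction x using QuotientGroup.induction_on with
    | H g =>
    have hg : ((g 1 0 : ℤ) : ZMod p) ≠ 0 := fun h => hx ((mk_eq_base_iff p g).2 h)
    have key : ∑ i ∈ Finset.range p, v ((T ^ i : SL(2, ℤ)) • (QuotientGroup.mk g : SL(2, ℤ) ⧸ Gamma0 p))
        = ∑ y ∈ Finset.univ.erase x₀, v y := by
      refine Finset.sum_nbij (fun i => (T ^ i : SL(2, ℤ)) • (QuotientGroup.mk g : SL(2, ℤ) ⧸ Gamma0 p))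
        ?_ ?_ ?_ (fun _ _ => rfl)
      · intro i _
        simp only [Finset.mem_erase, Finset.mem_univ, and_true]
        rw [T_pow_smul_mk, hx₀, Ne, mk_eq_base_iff, Fermat.Agent.S20.T_zpow_mul_apply_one_zero]
        exact hg
      · intro i hi j hj hij
        simp only [Finset.coe_range, Set.mem_Iio] at hi hj
        simp only [T_pow_smul_mk] at hij
        rw [Fermat.Agent.S20.mk_eq_mk_iff, Fermat.Agent.S20.T_zpow_mul_apply_one_zero,
          Fermat.Agent.S20.T_zpow_mul_apply_one_zero, Fermat.Agent.S20.T_zpow_mul_apply_zero_zero,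
          Fermat.Agent.S20.T_zpow_mul_apply_zero_zero] at hij
        push_cast at hij
        have h1 : ((i : ZMod p) - (j : ZMod p)) * (((g 1 0 : ℤ) : ZMod p) * ((g 1 0 : ℤ) : ZMod p)) = 0 := by
          linear_combination hij
        have h2 : (i : ZMod p) = (j : ZMod p) := by
          rcases mul_eq_zero.1 h1 with h | h
          · exact sub_eq_zero.1 h
          · exact absurd (mul_self_eq_zero.1 h) hg
        rw [ZMod.natCast_eq_natCast_iff'] at h2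
        rwa [Nat.mod_eq_of_lt hi, Nat.mod_eq_of_lt hj] at h2
      · intro y hy
        simp only [Finset.coe_erase, Finset.coe_univ, Set.mem_sdiff, Set.mem_univ, true_and,
          Set.mem_singleton_iff] at hy
        induction y using QuotientGroup.induction_on with
        | H h =>
        have hh : ((h 1 0 : ℤ) : ZMod p) ≠ 0 := fun h' => hy ((mk_eq_base_iff p h).2 h')
        set w : ZMod p := (((g 1 0 : ℤ) : ZMod p) * ((h 0 0 : ℤ) : ZMod p)
          - ((g 0 0 : ℤ) : ZMod p) * ((h 1 0 : ℤ) : ZMod p))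
            / (((g 1 0 : ℤ) : ZMod p) * ((h 1 0 : ℤ) : ZMod p)) with hw
        refine ⟨w.val, ?_, ?_⟩
        · simp only [Finset.coe_range, Set.mem_Iio]
          exact ZMod.val_lt w
        · simp only [T_pow_smul_mk]
          rw [Fermat.Agent.S20.mk_eq_mk_iff, Fermat.Agent.S20.T_zpow_mul_apply_one_zero,
            Fermat.Agent.S20.T_zpow_mul_apply_zero_zero]
          push_cast
          rw [ZMod.natCast_zmod_val, hw]
          field_simp
          ring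
    rw [key, Finset.sum_erase_eq_sub (Finset.mem_univ x₀), hsum, h0, sub_zero]

end Fermat.Agent.S16.CohLift
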