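import Fermat.Agent.S16.CohLiftDim
import Fermat.Agent.S16.CohLiftComb
import Fermat.Agent.S16.CohLiftOrbit

set_option autoImplicit false

open Module CongruenceSubgroup ModularGroup
open scoped MatrixGroups
open Fermat.Agent.S21.Up
open ModularCurve ModularCurve.Period

namespace Fermat.Agent.S16

namespace CohLift

section PhiA

variable {G : Type*} [Group G] (Γ : Subgroup G) {A : Type*} [AddCommGroup A]

/-- the Shapiro cocycle of a homomorphism `Γ → A`. -/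
noncomputable def PhiA (φ : Additive Γ →+ A) (g : G) (x : G ⧸ Γ) : A :=
  φ (Additive.ofMul (gam Γ g x))

lemma PhiA_mul (φ : Additive Γ →+ A) (g h : G) (x : G ⧸ Γ) :
    PhiA Γ φ (g * h) x = PhiA Γ φ g (h • x) + PhiA Γ φ h x := by
  simp only [PhiA, gam_mul, ofMul_mul, map_add]

lemma PhiA_one (φ : Additive Γ →+ A) (x : G ⧸ Γ) : PhiA Γ φ 1 x = 0 := by
  have := PhiA_mul Γ φ 1 1 x
  rw [mul_one, one_smul] at this
  simpa using this

lemma PhiA_inv (φ : Additive Γ →+ A) (g : G) (x : G ⧸ Γ) :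
    PhiA Γ φ g⁻¹ x = - PhiA Γ φ g (g⁻¹ • x) := by
  have := PhiA_mul Γ φ g g⁻¹ x
  rw [mul_inv_cancel, PhiA_one] at this
  exact eq_neg_of_add_eq_zero_right this.symm

lemma PhiA_mem_base (φ : Additive Γ →+ A) (γ : Γ) :
    PhiA Γ φ (γ : G) ((1 : G) : G ⧸ Γ) = φ (Additive.ofMul γ) := by
  have hfix : (γ : G) • ((1 : G) : G ⧸ Γ) = ((1 : G) : G ⧸ Γ) := by
    rw [MulAction.Quotient.smul_coe, smul_eq_mul, mul_one, QuotientGroup.eq]
    simpa using γ.2
  have hout : (Quotient.out ((1 : G) : G ⧸ Γ) : G) ∈ Γ := by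
    have := QuotientGroup.out_eq' ((1 : G) : G ⧸ Γ)
    rw [QuotientGroup.eq] at this
    simpa using Γ.inv_mem this
  set a : Γ := ⟨_, hout⟩ with ha
  have : gam Γ (γ : G) ((1 : G) : G ⧸ Γ) = a⁻¹ * γ * a := by
    apply Subtype.ext
    rw [gam_of_fixed Γ _ _ hfix]
    rfl
  simp only [PhiA, this, ofMul_mul, ofMul_inv, map_add, map_neg]
  abel

end PhiA

section Good

variable {G : Type*} [Group G] {X : Type*} [MulAction G X] (n : ℕ)

/-- `c g` is integral and reduces to `cA g` mod `n`. -/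
def Good (c : G → (X → ℂ)) (cA : G → X → ZMod n) (g : G) : Prop :=
  ∃ m : X → ℤ, (∀ x, c g x = (m x : ℂ)) ∧ ∀ x, ((m x : ℤ) : ZMod n) = cA g x

variable {n}

lemma Good.mul {c : G → (X → ℂ)} {cA : G → X → ZMod n} (hc : IsCoc c)
    (hA : ∀ g h x, cA (g * h) x = cA g (h • x) + cA h x) {g h : G}
    (hg : Good n c cA g) (hh : Good n c cA h) : Good n c cA (g * h) := by
  obtain ⟨m, hm1, hm2⟩ := hg
  obtain ⟨m', hm1', hm2'⟩ := hh
  refine ⟨fun x => m (h • x) + m' x, fun x => ?_, fun x => ?_⟩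
  · rw [hc g h]
    simp [S21.Up.R_apply, hm1, hm1']
  · push_cast
    rw [hm2, hm2', hA]

lemma Good.one {c : G → (X → ℂ)} {cA : G → X → ZMod n} (hc : IsCoc c)
    (hA : ∀ g h x, cA (g * h) x = cA g (h • x) + cA h x) : Good n c cA 1 := by
  refine ⟨fun _ => 0, fun x => ?_, fun x => ?_⟩
  · rw [hc.one]; simp
  · have := hA 1 1 x
    rw [mul_one, one_smul] at this
    have h0 : cA 1 x = 0 := by simpa using this
    simp [h0]

lemma Good.inv {c : G → (X → ℂ)} {cA : G → X → ZMod n} (hc : IsCoc c)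
    (hA : ∀ g h x, cA (g * h) x = cA g (h • x) + cA h x) {g : G}
    (hg : Good n c cA g) : Good n c cA g⁻¹ := by
  obtain ⟨m, hm1, hm2⟩ := hg
  obtain ⟨m0, hm01, hm02⟩ := Good.one (n := n) hc hA
  refine ⟨fun x => - m (g⁻¹ • x), fun x => ?_, fun x => ?_⟩
  · have h := congrFun (hc g g⁻¹) x
    rw [mul_inv_cancel, hc.one] at h
    simp only [Pi.zero_apply, Pi.add_apply, S21.Up.R_apply, hm1] at h
    push_cast
    linear_combination -h
  · have h := hA g g⁻¹ x
    have h1 : cA 1 x = 0 := by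
      have := hA 1 1 x
      rw [mul_one, one_smul] at this
      simpa using this
    rw [mul_inv_cancel, h1, ← hm2] at h
    push_cast
    linear_combination h

lemma Good.all {c : G → (X → ℂ)} {cA : G → X → ZMod n} (hc : IsCoc c)
    (hA : ∀ g h x, cA (g * h) x = cA g (h • x) + cA h x) {s t : G}
    (hgen : Subgroup.closure {s, t} = ⊤)
    (hs : Good n c cA s) (hst : Good n c cA (s * t)) (g : G) : Good n c cA g := by
  have ht : Good n c cA t := by
    have := Good.mul hc hA (Good.inv hc hA hs) hst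
    rwa [inv_mul_cancel_left] at this
  have hg : g ∈ Subgroup.closure {s, t} := by rw [hgen]; trivial
  induction hg using Subgroup.closure_induction with
  | mem x hx =>
    rcases hx with rfl | hx
    · exact hs
    · rw [Set.mem_singleton_iff] at hx
      subst hx
      exact ht
  | one => exact Good.one hc hA
  | mul x y _ _ hx hy => exact Good.mul hc hA hx hy
  | inv x _ hx => exact Good.inv hc hA hx

end Good

section Pair

theorem exists_pair (p : ℕ) [Fact p.Prime] (n : ℕ) [NeZero n]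
    (φ : Additive (Gamma0 p) →+ ZMod n)
    (hpar : IsParabolicHom (Gamma0 p) φ)
    (hell : ∀ γ : Gamma0 p, γ ^ 12 = 1 → φ (Additive.ofMul γ) = 0) :
    ∃ a b : (SL(2, ℤ) ⧸ Gamma0 p) → ℤ,
      (∀ x, a x + a (S • x) = 0) ∧
      (∀ x, b x + b ((S * T) • x) + b ((S * T) • (S * T) • x) = 0) ∧
      (∀ x, ((a x : ℤ) : ZMod n) = PhiA (Gamma0 p) φ S x) ∧
      (∀ x, ((b x : ℤ) : ZMod n) = PhiA (Gamma0 p) φ (S * T) x) ∧
      b ((1 : SL(2, ℤ)) : SL(2, ℤ) ⧸ Gamma0 p) - a ((1 : SL(2, ℤ)) : SL(2, ℤ) ⧸ Gamma0 p) = 0 := by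
  classical
  have hp : p.Prime := Fact.out
  have : NeZero p := ⟨hp.ne_zero⟩
  set x₀ : SL(2, ℤ) ⧸ Gamma0 p := ((1 : SL(2, ℤ)) : SL(2, ℤ) ⧸ Gamma0 p) with hx₀
  -- vanishing of the cocycle at `-1`
  have hneg : ∀ x, PhiA (Gamma0 p) φ (-1) x = 0 := by
    intro x
    unfold PhiA
    apply hpar
    rw [gam_of_fixed (Gamma0 p) _ _ (neg_one_smul_quot p x), trace_conj]
    simp
  have hconj12 : ∀ (z : SL(2, ℤ)) (x : SL(2, ℤ) ⧸ Gamma0 p), z ^ 12 = 1 → z • x = x →
      PhiA (Gamma0 p) φ z x = 0 := by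
    intro z x hz hfix
    unfold PhiA
    apply hell
    apply Subtype.ext
    rw [Subgroup.coe_pow, gam_of_fixed (Gamma0 p) _ _ hfix]
    have := conj_pow (a := (Quotient.out x : SL(2, ℤ))⁻¹) (b := z) (i := 12)
    rw [inv_inv] at this
    rw [this, hz]
    simp
  have hS12 : (S : SL(2, ℤ)) ^ 12 = 1 := by decide
  have hU12 : (S * T : SL(2, ℤ)) ^ 12 = 1 := by decide
  -- the two functions mod n
  obtain ⟨a, ha, ha0⟩ := exists_lift_two n (fun x : SL(2, ℤ) ⧸ Gamma0 p => S • x) (hs_quot p)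
    (PhiA (Gamma0 p) φ S) (fun x => by
      have := PhiA_mul (Gamma0 p) φ S S x
      rw [SS_eq, hneg] at this
      rw [add_comm]; exact this.symm) (fun x hx => hconj12 S x hS12 hx)
  obtain ⟨b, hb, hb0⟩ := exists_lift_three n (fun x : SL(2, ℤ) ⧸ Gamma0 p => (S * T) • x)
    (hu_quot p)
    (PhiA (Gamma0 p) φ (S * T)) (fun x => by
      have h1 := PhiA_mul (Gamma0 p) φ ((S * T) * (S * T)) (S * T) x
      have h2 := PhiA_mul (Gamma0 p) φ (S * T) (S * T) ((S * T) • x)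
      rw [STcube_eq, hneg] at h1
      rw [h2] at h1
      rw [h1]; abel) (fun x hx => hconj12 (S * T) x hU12 hx)
  have hTx₀ : (T : SL(2, ℤ)) • x₀ = x₀ := by
    have := T_pow_smul_base p 1
    rwa [pow_one] at this
  have hSx₀ : (S : SL(2, ℤ)) • x₀ ≠ x₀ := S_smul_base_ne p hp.one_lt
  -- `T ∈ Γ₀(p)` and `φ T = 0`
  have hTmem : (T : SL(2, ℤ)) ∈ Gamma0 p := by
    rw [Gamma0_mem]; simp [ModularGroup.T]
  have hφT : PhiA (Gamma0 p) φ T x₀ = 0 := by
    have := PhiA_mem_base (Gamma0 p) φ ⟨T, hTmem⟩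
    rw [hx₀]
    refine this.trans ?_
    apply hpar
    simp [ModularGroup.T, Matrix.trace_fin_two]
  have hv0 : ((b x₀ - a x₀ : ℤ) : ZMod n) = 0 := by
    have h := PhiA_mul (Gamma0 p) φ S T x₀
    rw [hTx₀, hφT, add_zero] at h
    push_cast
    rw [ha0, hb0, h, sub_self]
  obtain ⟨w, hw⟩ : (n : ℤ) ∣ b x₀ - a x₀ := (ZMod.intCast_zmod_eq_zero_iff_dvd _ _).1 hv0
  refine ⟨fun x => a x + (if x = x₀ then (n : ℤ) * w else 0) - (if x = S • x₀ then (n : ℤ) * w else 0),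
    b, fun x => ?_, hb, fun x => ?_, hb0, ?_⟩
  · have h1 : (S • x = x₀) ↔ (x = S • x₀) := by
      constructor
      · intro h; rw [← h, hs_quot]
      · intro h; rw [h, hs_quot]
    have h2 : (S • x = S • x₀) ↔ x = x₀ := by
      constructor
      · intro h; exact MulAction.injective _ h
      · intro h; rw [h]
    simp only [h1, h2]
    have := ha x
    linarith
  · push_cast
    rw [ha0]
    split_ifs <;> simp
  · simp only [if_true]
    rw [if_neg (Ne.symm hSx₀)]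
    linarith

end Pair

end CohLift

open CohLift

theorem exists_integral_lift (p : ℕ) [Fact p.Prime] (n : ℕ) [NeZero n] (hn : n ∣ p - 1)
    (φ : Additive (CongruenceSubgroup.Gamma0 p) →+ ZMod n)
    (hpar : ModularCurve.Period.IsParabolicHom (CongruenceSubgroup.Gamma0 p) φ)
    (hell : ∀ γ : CongruenceSubgroup.Gamma0 p, γ ^ 12 = 1 → φ (Additive.ofMul γ) = 0) :
    ∃ ψ ∈ ModularCurve.Period.parabolicHoms ℂ (CongruenceSubgroup.Gamma0 p) ℂ,
      ∀ γ, ∃ m : ℤ, ψ γ = (m : ℂ) ∧ (m : ZMod n) = φ γ := by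
  classical
  have hp : p.Prime := Fact.out
  have : NeZero p := ⟨hp.ne_zero⟩
  letI : Fintype (SL(2, ℤ) ⧸ Gamma0 p) := Fintype.ofFinite _
  obtain ⟨a, b, ha, hb, ha0, hb0, hab⟩ := exists_pair p n φ hpar hell
  set x₀ : SL(2, ℤ) ⧸ Gamma0 p := ((1 : SL(2, ℤ)) : SL(2, ℤ) ⧸ Gamma0 p) with hx₀
  have hTx₀ : (T : SL(2, ℤ)) • x₀ = x₀ := by
    have := T_pow_smul_base p 1
    rwa [pow_one] at this
  have hsa : ∑ x, a x = 0 := by
    have h1 : ∑ x, a (S • x) = ∑ x, a x := Equiv.sum_comp (MulAction.toPerm (S : SL(2, ℤ))) a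
    have h2 : ∑ x, (a x + a (S • x)) = 0 := Finset.sum_eq_zero (fun x _ => ha x)
    rw [Finset.sum_add_distrib, h1] at h2
    linarith
  have hsb : ∑ x, b x = 0 := by
    have h1 : ∑ x, b ((S * T) • x) = ∑ x, b x :=
      Equiv.sum_comp (MulAction.toPerm (S * T : SL(2, ℤ))) b
    have h1' : ∑ x, b ((S * T) • (S * T) • x) = ∑ x, b x := by
      rw [← h1]
      exact Equiv.sum_comp (MulAction.toPerm (S * T : SL(2, ℤ))) (fun x => b ((S * T) • x))
    have h2 : ∑ x, (b x + b ((S * T) • x) + b ((S * T) • (S * T) • x)) = 0 :=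
      Finset.sum_eq_zero (fun x _ => hb x)
    rw [Finset.sum_add_distrib, Finset.sum_add_distrib, h1, h1'] at h2
    linarith
  have hsv : ∑ x, (b x - a (T • x)) = 0 := by
    have h1 : ∑ x, a (T • x) = ∑ x, a x := Equiv.sum_comp (MulAction.toPerm (T : SL(2, ℤ))) a
    rw [Finset.sum_sub_distrib, h1, hsa, hsb, sub_zero]
  have horb := sum_T_orbit p (fun x => b x - a (T • x)) hsv (by
    show b x₀ - a (T • x₀) = 0
    rw [hTx₀]; exact hab)
  -- the pair lies in `spE`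
  have hq : ((fun x => (a x : ℂ)), (fun x => (b x : ℂ))) ∈
      spE (X := SL(2, ℤ) ⧸ Gamma0 p) S T p := by
    refine ⟨⟨?_, ?_⟩, ?_⟩
    · show _ ∈ spA _
      rw [mem_spA]
      ext x
      simp only [Pi.add_apply, S21.Up.R_apply, Pi.zero_apply]
      exact_mod_cast ha x
    · show _ ∈ spB _
      rw [mem_spB]
      ext x
      simp only [Pi.add_apply, S21.Up.R_apply, Pi.zero_apply]
      exact_mod_cast hb x
    · show theta T _ ∈ LinearMap.ker _
      rw [LinearMap.mem_ker, theta_apply]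
      ext x
      rw [NT_apply]
      simp only [Pi.sub_apply, S21.Up.R_apply, Pi.zero_apply]
      exact_mod_cast horb x
  obtain ⟨⟨ψ, vv⟩, hψ⟩ := Psi_surjOn_Gamma0 p _ hq
  have hψ1 : Phi (Gamma0 p) ψ.1 S + (R S vv.1 - vv.1) = fun x => (a x : ℂ) :=
    congrArg Prod.fst hψ
  have hψ2 : Phi (Gamma0 p) ψ.1 (S * T) + (R (S * T) vv.1 - vv.1) = fun x => (b x : ℂ) :=
    congrArg Prod.snd hψ
  have hc : IsCoc (fun g : SL(2, ℤ) => Phi (Gamma0 p) ψ.1 g + (R g vv.1 - vv.1)) :=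
    (isCoc_Phi (Gamma0 p) ψ.1).add (isCoc_cob vv.1)
  have hall := Good.all (n := n) hc (PhiA_mul (Gamma0 p) φ) SpecialLinearGroup.SL2Z_generators
    ⟨a, fun x => congrFun hψ1 x, ha0⟩ ⟨b, fun x => congrFun hψ2 x, hb0⟩
  refine ⟨ψ.1, ψ.2, fun γ => ?_⟩
  obtain ⟨m, hm1, hm2⟩ := hall ((Additive.toMul γ : Gamma0 p) : SL(2, ℤ))
  refine ⟨m x₀, ?_, ?_⟩
  · rw [← hm1 x₀]
    have hfix : ((Additive.toMul γ : Gamma0 p) : SL(2, ℤ)) • x₀ = x₀ := by
      rw [hx₀, MulAction.Quotient.smul_coe, smul_eq_mul, mul_one, QuotientGroup.eq]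
      simpa using (Additive.toMul γ : Gamma0 p).2
    simp only [Pi.add_apply, Pi.sub_apply, S21.Up.R_apply, hfix, sub_self, add_zero]
    rw [hx₀, Phi_mem_base]
    rfl
  · rw [hm2 x₀, hx₀, PhiA_mem_base]
    rfl

end Fermat.Agent.S16
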