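import Fermat.Agent.S16.CohMain
import Fermat.Agent.S16.CohLift

set_option autoImplicit false

open CongruenceSubgroup ModularCurve ModularCurve.Period

namespace Fermat.Agent.S16

/-- The lower bound (L): every abstract Hecke polynomial acting as zero on `S₂(Γ₀(p))` has
Eisenstein value divisible by the Eisenstein numerator. -/
theorem eis_dvd (p : ℕ) [Fact p.Prime] (P : ModularCurve.HeckeAlg)
    (hP : CuspForm.heckeEvalForms p 2 P = 0) :
    ((ModularCurve.eisensteinNumerator p : ℕ) : ℤ) ∣
      MvPolynomial.eval (ModularCurve.eisensteinSystem p) P :=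
  eis_dvd_of_lift (exists_integral_lift p (eisensteinNumerator p) (eisensteinNumerator_dvd p)
    (phi p) (isParabolicHom_phi p) (phi_eq_zero_of_pow p)) P hP

end Fermat.Agent.S16
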