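import Mathlib

/-! # S16, part 0: the index of the image of an evaluation ideal (pure algebra) -/

set_option autoImplicit false

namespace Fermat.Agent.S16

/-- Let `π : ℤ[X_s] → A` be surjective and `ε` the evaluation at `a`.  The index of the image
of `ker ε` in `A` is the non-negative generator of `ε (ker π)`. -/
theorem natCard_quot_map_ker {σ A : Type*} [CommRing A] (π : MvPolynomial σ ℤ →+* A)
    (hπ : Function.Surjective π) (a : σ → ℤ) (n : ℕ)
    (hL : ∀ P, π P = 0 → (n : ℤ) ∣ MvPolynomial.aeval a P)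
    (hU : ∀ M : ℤ, (∀ P, π P = 0 → M ∣ MvPolynomial.aeval a P) → M ∣ n) :
    Nat.card (A ⧸ Ideal.map π (RingHom.ker (MvPolynomial.aeval (R := ℤ) a))) = n := by
  set ε : MvPolynomial σ ℤ →+* ℤ := (MvPolynomial.aeval (R := ℤ) a).toRingHom with hε
  have hεs : Function.Surjective ε := fun z => ⟨MvPolynomial.C z, by simp [hε]⟩
  have hker : RingHom.ker (MvPolynomial.aeval (R := ℤ) a) = RingHom.ker ε := rfl
  rw [hker]
  set I := RingHom.ker ε with hI
  set K := RingHom.ker π with hK
  set J : Ideal ℤ := Ideal.map ε K with hJ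
  -- the two quotient maps out of the polynomial ring
  set f₁ : MvPolynomial σ ℤ →+* A ⧸ Ideal.map π I := (Ideal.Quotient.mk _).comp π with hf₁
  set f₂ : MvPolynomial σ ℤ →+* ℤ ⧸ J := (Ideal.Quotient.mk _).comp ε with hf₂
  have hs₁ : Function.Surjective f₁ := Ideal.Quotient.mk_surjective.comp hπ
  have hs₂ : Function.Surjective f₂ := Ideal.Quotient.mk_surjective.comp hεs
  have hk₁ : RingHom.ker f₁ = I ⊔ K := by
    rw [hf₁, ← RingHom.comap_ker, Ideal.mk_ker, Ideal.comap_map_of_surjective _ hπ]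
    rfl
  have hk₂ : RingHom.ker f₂ = I ⊔ K := by
    rw [hf₂, ← RingHom.comap_ker, Ideal.mk_ker, hJ, Ideal.comap_map_of_surjective _ hεs, sup_comm]
    rfl
  have e : (A ⧸ Ideal.map π I) ≃+* (ℤ ⧸ J) :=
    (RingHom.quotientKerEquivOfSurjective hs₁).symm.trans
      ((Ideal.quotEquivOfEq (hk₁.trans hk₂.symm)).trans
        (RingHom.quotientKerEquivOfSurjective hs₂))
  rw [Nat.card_congr e.toEquiv]
  obtain ⟨m, hm⟩ : ∃ m : ℤ, J = Ideal.span {m} :=
    ⟨_, (Submodule.IsPrincipal.span_singleton_generator J).symm⟩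
  have h1 : (n : ℤ) ∣ m := by
    have hmJ : m ∈ J := by rw [hm]; exact Ideal.mem_span_singleton_self m
    obtain ⟨P, hP, rfl⟩ := (Ideal.mem_map_iff_of_surjective ε hεs).mp hmJ
    exact hL P hP
  have h2 : m ∣ n := by
    refine hU m fun P hP => ?_
    have : ε P ∈ J := Ideal.mem_map_of_mem ε hP
    rw [hm, Ideal.mem_span_singleton] at this
    exact this
  rw [hm, Nat.card_congr (Int.quotientSpanEquivZMod m).toEquiv, Nat.card_zmod]
  have := Int.natAbs_dvd_natAbs.mpr h1
  have h3 := Int.natAbs_dvd_natAbs.mpr h2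
  rw [Int.natAbs_natCast] at this h3
  exact Nat.dvd_antisymm h3 this

end Fermat.Agent.S16
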