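import Fermat.Agent.S16.E2Level

/-! # Hecke recursions for the coefficients of `sigmaZ` and `deltaZ p` -/

set_option autoImplicit false

namespace Fermat.Agent.S16

open PowerSeries
open scoped ArithmeticFunction.sigma

noncomputable section

/-- the Hecke recursion for `σ₁` -/
theorem sigma_one_mul_prime {l : ℕ} (hl : l.Prime) (n : ℕ) :
    σ 1 (n * l) + (if l ∣ n then l * σ 1 (n / l) else 0) = (1 + l) * σ 1 n := by
  rcases Nat.eq_zero_or_pos n with rfl | hn
  · simp
  obtain ⟨e, m, hm, rfl⟩ := Nat.exists_eq_pow_mul_and_not_dvd hn.ne' l hl.ne_one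
  have hcop : ∀ i, Nat.Coprime (l ^ i) m := fun i =>
    Nat.Coprime.pow_left i ((Nat.Prime.coprime_iff_not_dvd hl).mpr hm)
  have hmul : ∀ i, σ 1 (l ^ i * m) = σ 1 (l ^ i) * σ 1 m := fun i =>
    ArithmeticFunction.isMultiplicative_sigma.map_mul_of_coprime (hcop i)
  have h1 : l ^ e * m * l = l ^ (e + 1) * m := by ring
  rw [h1, hmul, hmul]
  cases e with
  | zero =>
    have : ¬ l ∣ l ^ 0 * m := by simpa using hm
    rw [if_neg this]
    simp only [ArithmeticFunction.sigma_one_apply_prime_pow hl]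
    simp [Finset.sum_range_succ]
  | succ e =>
    have hd : l ∣ l ^ (e + 1) * m := Dvd.dvd.mul_right (dvd_pow_self l (by omega)) m
    have h2 : l ^ (e + 1) * m / l = l ^ e * m := by
      rw [pow_succ, mul_assoc, mul_comm l m, ← mul_assoc]
      exact Nat.mul_div_cancel _ hl.pos
    rw [if_pos hd, h2, hmul]
    simp only [ArithmeticFunction.sigma_one_apply_prime_pow hl]
    rw [Finset.sum_range_succ _ (e + 1 + 1), Finset.sum_range_succ _ (e + 1)]
    ring

theorem coeff_sigmaZ_mul_prime {l : ℕ} (hl : l.Prime) (n : ℕ) :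
    sigmaZ.coeff (n * l) + (if l ∣ n then (l : ℤ) * sigmaZ.coeff (n / l) else 0) =
      (1 + l) * sigmaZ.coeff n := by
  have h := sigma_one_mul_prime hl n
  simp only [coeff_sigmaZ']
  split_ifs at h ⊢ <;> exact_mod_cast h

theorem coeff_deltaZ' (N n : ℕ) : (deltaZ N).coeff n =
    sigmaZ.coeff n - if N ∣ n then (N : ℤ) * sigmaZ.coeff (n / N) else 0 := by
  rw [deltaZ, map_sub, coeff_C_mul, coeff_psV]
  split_ifs <;> simp

theorem coeff_one_deltaZ {N : ℕ} (hN : N ≠ 1) : (deltaZ N).coeff 1 = 1 := by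
  rw [coeff_deltaZ', if_neg (by simpa using hN), coeff_sigmaZ]
  simp

theorem coeff_deltaZ_mul_self {p : ℕ} (hp : p.Prime) (n : ℕ) :
    (deltaZ p).coeff (n * p) = (deltaZ p).coeff n := by
  have h := coeff_sigmaZ_mul_prime hp n
  rw [coeff_deltaZ', coeff_deltaZ', if_pos (Dvd.intro_left n rfl), Nat.mul_div_cancel _ hp.pos]
  linarith

theorem coeff_deltaZ_mul_prime {p l : ℕ} (hp : p.Prime) (hl : l.Prime) (hlp : l ≠ p) (n : ℕ) :
    (deltaZ p).coeff (n * l) + (if l ∣ n then (l : ℤ) * (deltaZ p).coeff (n / l) else 0) =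
      (1 + l) * (deltaZ p).coeff n := by
  have hcop : Nat.Coprime p l := (Nat.coprime_primes hp hl).mpr hlp.symm
  have h := coeff_sigmaZ_mul_prime hl n
  simp only [coeff_deltaZ']
  by_cases hpn : p ∣ n
  · obtain ⟨n', rfl⟩ := hpn
    have h' := coeff_sigmaZ_mul_prime hl n'
    have e1 : p ∣ p * n' * l := Dvd.dvd.mul_right (Dvd.intro _ rfl) l
    have e2 : p * n' * l / p = n' * l := by
      rw [mul_assoc]; exact Nat.mul_div_cancel_left _ hp.pos
    have e3 : p * n' / p = n' := Nat.mul_div_cancel_left _ hp.pos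
    have e4 : l ∣ p * n' ↔ l ∣ n' := hcop.symm.dvd_mul_left
    rw [if_pos e1, e2, if_pos (Dvd.intro _ rfl), e3]
    by_cases hln : l ∣ n'
    · obtain ⟨n'', rfl⟩ := hln
      have e5 : p * (l * n'') / l = p * n'' := by
        rw [mul_left_comm]; exact Nat.mul_div_cancel_left _ hl.pos
      have e6 : l * n'' / l = n'' := Nat.mul_div_cancel_left _ hl.pos
      have e7 : p * n'' / p = n'' := Nat.mul_div_cancel_left _ hp.pos
      rw [if_pos (e4.mpr (Dvd.intro _ rfl)), e5] at h ⊢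
      rw [if_pos (Dvd.intro _ rfl), e6] at h'
      rw [if_pos (Dvd.intro _ rfl), e7]
      linear_combination h - (p : ℤ) * h'
    · rw [if_neg (fun hh => hln (e4.mp hh))] at h ⊢
      rw [if_neg hln] at h'
      linear_combination h - (p : ℤ) * h'
  · have e1 : ¬ p ∣ n * l := fun hh => hpn (hcop.dvd_of_dvd_mul_right hh)
    rw [if_neg e1, if_neg hpn]
    by_cases hln : l ∣ n
    · have e2 : ¬ p ∣ n / l := fun hh => hpn (hh.trans (Nat.div_dvd_of_dvd hln))
      rw [if_pos hln] at h ⊢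
      rw [if_neg e2]
      linear_combination h
    · rw [if_neg hln] at h ⊢
      linear_combination h

theorem psU_deltaZ_self {p : ℕ} (hp : p.Prime) : psU p (deltaZ p) = deltaZ p := by
  ext n
  rw [coeff_psU, coeff_deltaZ_mul_self hp]

theorem psU_deltaZ_prime {p l : ℕ} (hp : p.Prime) (hl : l.Prime) (hlp : l ≠ p) :
    psU l (deltaZ p) + C (l : ℤ) * psV l (deltaZ p) = C (1 + (l : ℤ)) * deltaZ p := by
  ext n
  rw [map_add, coeff_C_mul, coeff_C_mul, coeff_psU, coeff_psV, ← coeff_deltaZ_mul_prime hp hl hlp]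
  split_ifs <;> simp

/-- for `p` prime, the `n`-th coefficient of `deltaZ p` is the sum of the divisors of `n` prime
to `p`. -/
theorem coeff_deltaZ_prime {p : ℕ} (hp : p.Prime) (n : ℕ) :
    (deltaZ p).coeff n = ∑ d ∈ n.divisors with ¬ p ∣ d, (d : ℤ) := by
  rw [coeff_deltaZ]
  have h1 := Finset.sum_filter_add_sum_filter_not n.divisors (fun d => p ∣ d) (fun d => (d : ℤ))
  rw [← h1]
  suffices h : (∑ d ∈ n.divisors with p ∣ d, (d : ℤ)) =
      if p ∣ n then (p : ℤ) * ∑ d ∈ (n / p).divisors, (d : ℤ) else 0 by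
    rw [h]; ring
  split_ifs with hpn
  · obtain ⟨m, rfl⟩ := hpn
    rw [Nat.mul_div_cancel_left _ hp.pos, Finset.mul_sum]
    symm
    refine Finset.sum_bij (fun d _ => p * d) ?_ ?_ ?_ ?_
    · intro d hd
      rw [Nat.mem_divisors] at hd
      rw [Finset.mem_filter, Nat.mem_divisors]
      exact ⟨⟨Nat.mul_dvd_mul_left p hd.1, mul_ne_zero hp.ne_zero hd.2⟩, Dvd.intro _ rfl⟩
    · intro a _ b _ hab
      exact Nat.eq_of_mul_eq_mul_left hp.pos hab
    · intro d hd
      rw [Finset.mem_filter, Nat.mem_divisors] at hd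
      obtain ⟨⟨h1, h2⟩, e, rfl⟩ := hd
      refine ⟨e, ?_, rfl⟩
      rw [Nat.mem_divisors]
      exact ⟨Nat.dvd_of_mul_dvd_mul_left hp.pos h1, right_ne_zero_of_mul h2⟩
    · intro d _
      push_cast
      ring
  · apply Finset.sum_eq_zero
    intro d hd
    rw [Finset.mem_filter, Nat.mem_divisors] at hd
    exact absurd (hd.2.trans hd.1.1) hpn

end

end Fermat.Agent.S16
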