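import Mathlib

/-! # Abstract lemmas for PART 0 of S16 -/

set_option autoImplicit false

namespace Fermat.Agent.S16

/-- Vanishing by the Hecke recursion: `c (k ℓ) t = c k (τ_ℓ t) - [ℓ ∣ k] e_ℓ c (k / ℓ) t`. -/
theorem rec_vanish {𝕋 A : Type*} [AddCommGroup A] (c : ℕ → 𝕋 → A) (τ : Nat.Primes → 𝕋 → 𝕋)
    (e : Nat.Primes → ℤ)
    (hrec : ∀ (ℓ : Nat.Primes) (k : ℕ) (t : 𝕋), c (k * ℓ) t =
      c k (τ ℓ t) - if (ℓ : ℕ) ∣ k then e ℓ • c (k / ℓ) t else 0)
    (h1 : ∀ t, c 1 t = 0) : ∀ k, 1 ≤ k → ∀ t, c k t = 0 := by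
  intro k
  induction k using Nat.strong_induction_on with
  | _ k ih =>
    intro hk t
    rcases Nat.eq_or_lt_of_le hk with rfl | hk1
    · exact h1 t
    have hne : k ≠ 1 := by omega
    set ℓ : Nat.Primes := ⟨k.minFac, Nat.minFac_prime hne⟩ with hℓ
    have hℓ2 : 2 ≤ (ℓ : ℕ) := ℓ.2.two_le
    obtain ⟨k', hk'⟩ : (ℓ : ℕ) ∣ k := Nat.minFac_dvd k
    have hk'pos : 1 ≤ k' := by
      rcases Nat.eq_zero_or_pos k' with h0 | h0
      · rw [h0, mul_zero] at hk'; omega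
      · exact h0
    have hk'lt : k' < k := by
      rw [hk']
      nlinarith
    rw [hk', mul_comm, hrec, ih k' hk'lt hk'pos]
    split_ifs with hd
    · have h2 : 1 ≤ k' / ℓ := Nat.div_pos (Nat.le_of_dvd hk'pos hd) ℓ.2.pos
      have h3 : k' / ℓ < k := lt_of_le_of_lt (Nat.div_le_self _ _) hk'lt
      rw [ih _ h3 h2]
      simp
    · simp

/-- An injective map between finite free `ℤ`-modules, the source having at least the rank of the
target, has torsion cokernel. -/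
theorem exists_smul_mem_range {A B : Type*} [AddCommGroup A] [AddCommGroup B]
    [Module.Finite ℤ B] (Φ : A →ₗ[ℤ] B) (hΦ : Function.Injective Φ)
    (hr : Module.finrank ℤ B ≤ Module.finrank ℤ A) (b : B) :
    ∃ d : ℤ, d ≠ 0 ∧ ∃ a : A, Φ a = d • b := by
  have h1 := Submodule.finrank_quotient_add_finrank (LinearMap.range Φ)
  rw [LinearMap.finrank_range_of_inj hΦ] at h1
  have h0 : Module.finrank ℤ (B ⧸ LinearMap.range Φ) = 0 := by omega
  rw [Module.finrank_eq_zero_iff_isTorsion] at h0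
  obtain ⟨d, hd⟩ := @h0 (Submodule.Quotient.mk b)
  have hd' : ((d : ℤ) • b) ∈ LinearMap.range Φ := by
    rw [← Submodule.Quotient.mk_eq_zero, Submodule.Quotient.mk_smul]
    exact hd
  obtain ⟨a, ha⟩ := hd'
  exact ⟨d, nonZeroDivisors.coe_ne_zero d, a, ha⟩

end Fermat.Agent.S16
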