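import Mathlib
import Fermat.Statements.S16
import Fermat.Agent.S16.Part0Abs
import Fermat.Agent.S49.Lattice
import Fermat.Agent.S23

/-! # The `a₁`-pairing between the Hecke algebra and the integral lattice is perfect -/

set_option autoImplicit false

open CongruenceSubgroup ModularFormClass CuspForm

namespace Fermat.Agent.S16

noncomputable section

variable (N : ℕ) [NeZero N]

/-- the Hecke algebra -/
abbrev TT : Type := ↥(heckeAlgebra N 2 ∅)

/-- the lattice of integral cusp forms -/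
abbrev LL : Type := ↥(intLattice N 2)

/-- `ℓ` if `ℓ ∤ N`, `0` otherwise. -/
def eps (ℓ : Nat.Primes) : ℤ := if (ℓ : ℕ) ∣ N then 0 else (ℓ : ℕ)

variable {N}

/-- The Hecke recursion for `q`-coefficients. -/
theorem qCoeff_rec (ℓ : Nat.Primes) (g : CuspForm (Gamma0 N) 2) (k : ℕ) :
    qCoeff g (k * ℓ) = qCoeff ((heckeFormsGen N 2 ℓ).1 g) k -
      if (ℓ : ℕ) ∣ k then (eps N ℓ : ℂ) * qCoeff g (k / ℓ) else 0 := by
  by_cases h : (ℓ : ℕ) ∣ N
  · rw [heckeFormsGen_of_dvd h, eps, if_pos h]
    have := S49.qCoeff_heckeULin ℓ.2.ne_zero h g k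
    simp only [heckeAlgebra.U]
    rw [this]
    simp
  · rw [heckeFormsGen_of_not_dvd h, eps, if_neg h]
    have := S49.qCoeff_heckeTLin ℓ.2 h g k
    simp only [heckeAlgebra.T]
    rw [this]
    split_ifs <;> simp

/-- If all `a₁(t g)` lie in a subgroup `M` of `ℂ` then so do all `a_k(t g)`, `k ≥ 1`. -/
theorem qCoeff_mem_of_one (M : AddSubgroup ℂ) (g : CuspForm (Gamma0 N) 2)
    (h : ∀ t : TT N, qCoeff (t.1 g) 1 ∈ M) (k : ℕ) (hk : 1 ≤ k) (t : TT N) :
    qCoeff (t.1 g) k ∈ M := by
  have := rec_vanish (𝕋 := TT N) (A := ℂ ⧸ M)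
    (fun k t => QuotientAddGroup.mk (qCoeff (t.1 g) k))
    (fun ℓ t => heckeFormsGen N 2 ℓ * t) (eps N) (fun ℓ k t => by
      show ((qCoeff (t.1 g) (k * ℓ) : ℂ) : ℂ ⧸ M) =
        ((qCoeff ((heckeFormsGen N 2 ℓ).1 (t.1 g)) k : ℂ) : ℂ ⧸ M) -
          if (ℓ : ℕ) ∣ k then eps N ℓ • ((qCoeff (t.1 g) (k / ℓ) : ℂ) : ℂ ⧸ M) else 0
      rw [qCoeff_rec ℓ (t.1 g) k, QuotientAddGroup.mk_sub]
      congr 1
      split_ifs
      · rw [← QuotientAddGroup.mk_zsmul]
        simp
      · rfl)
    (fun t => (QuotientAddGroup.eq_zero_iff _).mpr (h t)) k hk t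
  exact (QuotientAddGroup.eq_zero_iff _).mp this

theorem eq_zero_of_qCoeff_one (g : CuspForm (Gamma0 N) 2)
    (h : ∀ t : TT N, qCoeff (t.1 g) 1 = 0) : g = 0 := by
  apply S49.eq_zero_of_qCoeff
  intro n
  rcases Nat.eq_zero_or_pos n with rfl | hn
  · exact S49.qCoeff_zero_index g
  · have := qCoeff_mem_of_one (⊥ : AddSubgroup ℂ) g (fun t => by simpa using h t) n hn 1
    simpa using this

/-- the `k`-th coefficient as an integer -/
def coeffZ (k : ℕ) : LL N →ₗ[ℤ] ℤ where
  toFun f := ((S49.mem_intLattice_iff f.1).mp f.2 k).choose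
  map_add' f g := by
    have h1 := ((S49.mem_intLattice_iff (f + g).1).mp (f + g).2 k).choose_spec
    have h2 := ((S49.mem_intLattice_iff f.1).mp f.2 k).choose_spec
    have h3 := ((S49.mem_intLattice_iff g.1).mp g.2 k).choose_spec
    apply Int.cast_injective (α := ℂ)
    push_cast
    rw [← h1, ← h2, ← h3]
    exact S49.qCoeff_add f.1 g.1 k
  map_smul' c f := by
    have h1 := ((S49.mem_intLattice_iff (c • f).1).mp (c • f).2 k).choose_spec
    have h2 := ((S49.mem_intLattice_iff f.1).mp f.2 k).choose_spec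
    apply Int.cast_injective (α := ℂ)
    simp only [RingHom.id_apply, smul_eq_mul]
    push_cast
    rw [← h1, ← h2]
    have : ((c • f : LL N) : CuspForm (Gamma0 N) 2) = (c : ℂ) • f.1 := by
      rw [Int.cast_smul_eq_zsmul]; rfl
    rw [this]
    exact S49.qCoeff_smul (c : ℂ) f.1 k

omit [NeZero N] in
theorem coeffZ_spec (k : ℕ) (f : LL N) : ((coeffZ k f : ℤ) : ℂ) = qCoeff f.1 k :=
  ((S49.mem_intLattice_iff f.1).mp f.2 k).choose_spec.symm

/-- the `a₁`-pairing -/
def pairT : TT N →ₗ[ℤ] (LL N →ₗ[ℤ] ℤ) where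
  toFun t := (coeffZ 1).comp (latticeActionHom N ∅ t)
  map_add' s t := by
    ext f
    simp [map_add]
  map_smul' c t := by
    ext f
    simp

theorem pairT_spec (t : TT N) (f : LL N) : ((pairT t f : ℤ) : ℂ) = qCoeff (t.1 f.1) 1 :=
  coeffZ_spec 1 _

theorem pairT_flip_injective : Function.Injective (pairT (N := N)).flip := by
  rw [injective_iff_map_eq_zero]
  intro f hf
  apply Subtype.ext
  apply eq_zero_of_qCoeff_one
  intro t
  rw [← pairT_spec]
  have := LinearMap.congr_fun hf t
  simp only [LinearMap.flip_apply, LinearMap.zero_apply] at this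
  rw [this]
  simp

theorem pairT_injective : Function.Injective (pairT (N := N)) := by
  rw [injective_iff_map_eq_zero]
  intro t ht
  apply latticeRestrict_injective N ∅ (S23.result N)
  refine LinearMap.ext fun f => ?_
  show latticeRestrict N ∅ t.2 f = 0
  apply pairT_flip_injective
  ext s
  simp only [LinearMap.flip_apply, map_zero, LinearMap.zero_apply]
  have h1 : pairT s (latticeRestrict N ∅ t.2 f) = pairT t (latticeActionHom N ∅ s f) := by
    apply Int.cast_injective (α := ℂ)
    rw [pairT_spec, pairT_spec]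
    show qCoeff (s.1 (t.1 f.1)) 1 = qCoeff (t.1 (s.1 f.1)) 1
    have : s.1 * t.1 = t.1 * s.1 := congrArg Subtype.val (mul_comm s t)
    have h2 := LinearMap.congr_fun this f.1
    simp only [Module.End.mul_apply] at h2
    rw [h2]
  rw [h1, ht]
  simp

instance finite_LL : Module.Finite ℤ (LL N) := intLattice.moduleFinite N

instance free_LL : Module.Free ℤ (LL N) := intLattice.moduleFree N

instance finite_TT : Module.Finite ℤ (TT N) :=
  Module.Finite.of_injective pairT pairT_injective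

instance free_TT : Module.Free ℤ (TT N) := Module.free_of_finite_type_torsion_free'

theorem finrank_TT_le : Module.finrank ℤ (TT N) ≤ Module.finrank ℤ (LL N) := by
  have h := LinearMap.finrank_le_finrank_of_injective (pairT_injective (N := N))
  rwa [Module.finrank_linearMap, Module.finrank_self, mul_one] at h

/-- Perfectness of the `a₁`-pairing: every linear form on the Hecke algebra is `t ↦ a₁(t f)` for
an integral cusp form `f`. -/
theorem exists_pairT_eq (lam : TT N →ₗ[ℤ] ℤ) : ∃ f : LL N, ∀ t, pairT t f = lam t := by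
  obtain ⟨d, hd, f, hf⟩ := exists_smul_mem_range (pairT (N := N)).flip pairT_flip_injective
    (by rw [Module.finrank_linearMap, Module.finrank_self, mul_one]; exact finrank_TT_le) lam
  have hf' : ∀ t, pairT t f = d * lam t := fun t => by
    have := LinearMap.congr_fun hf t
    simpa using this
  have hdC : (d : ℂ) ≠ 0 := by exact_mod_cast hd
  -- all coefficients of `f` are divisible by `d`
  have hdiv : ∀ k, ∃ c : ℤ, qCoeff f.1 k = d * c := by
    intro k
    rcases Nat.eq_zero_or_pos k with rfl | hk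
    · exact ⟨0, by rw [S49.qCoeff_zero_index]; simp⟩
    · have := qCoeff_mem_of_one (AddSubgroup.zmultiples (d : ℂ)) f.1 (fun t => by
        rw [← pairT_spec, hf', AddSubgroup.mem_zmultiples_iff]
        exact ⟨lam t, by push_cast; simp [mul_comm]⟩) k hk 1
      obtain ⟨c, hc⟩ := AddSubgroup.mem_zmultiples_iff.mp this
      refine ⟨c, ?_⟩
      have h1 : ((1 : TT N).1 f.1) = f.1 := rfl
      rw [h1] at hc
      rw [← hc]
      simp [mul_comm]
  have hmem : ((d : ℂ)⁻¹ • f.1) ∈ intLattice N 2 := by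
    rw [S49.mem_intLattice_iff]
    intro k
    obtain ⟨c, hc⟩ := hdiv k
    exact ⟨c, by rw [S49.qCoeff_smul, hc]; field_simp⟩
  refine ⟨⟨_, hmem⟩, fun t => ?_⟩
  have h2 : d • (⟨_, hmem⟩ : LL N) = f := by
    apply Subtype.ext
    show d • ((d : ℂ)⁻¹ • f.1) = f.1
    rw [← Int.cast_smul_eq_zsmul ℂ, smul_smul, mul_inv_cancel₀ hdC, one_smul]
  have h3 : d * pairT t (⟨_, hmem⟩ : LL N) = d * lam t := by
    rw [← hf', ← smul_eq_mul, ← map_smul, h2]
  exact mul_left_cancel₀ hd h3

end

end Fermat.Agent.S16
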