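import Mathlib
import Fermat.Statements.S16
import Fermat.Agent.S16.Part0Dual
import Fermat.Agent.S16.Part0Surj
import Fermat.Agent.S16.E2Rec

/-! # An integral cusp form congruent to the Eisenstein series -/

set_option autoImplicit false

open CongruenceSubgroup ModularFormClass CuspForm ModularCurve

namespace Fermat.Agent.S16

noncomputable section

variable {N : ℕ} [NeZero N]

/-- the action of the Hecke algebra on the lattice -/
abbrev actL (t : TT N) (f : LL N) : LL N := latticeActionHom N ∅ t f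

theorem coeffZ_rec (ℓ : Nat.Primes) (f : LL N) (t : TT N) (k : ℕ) :
    coeffZ (k * ℓ) (actL t f) = coeffZ k (actL (heckeFormsGen N 2 ℓ * t) f) -
      if (ℓ : ℕ) ∣ k then eps N ℓ * coeffZ (k / ℓ) (actL t f) else 0 := by
  apply Int.cast_injective (α := ℂ)
  have h := qCoeff_rec ℓ (actL t f).1 k
  push_cast
  rw [coeffZ_spec, coeffZ_spec, h]
  congr 1
  split_ifs
  · rw [coeffZ_spec]
  · rfl

/-- the integral `q`-expansion of an element of the lattice -/
def qZ (f : LL N) : PowerSeries ℤ := PowerSeries.mk fun k => coeffZ k f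

omit [NeZero N] in
theorem isQ_qZ (f : LL N) : IsQ N 2 (qZ f) := by
  refine ⟨CuspForm.toModularFormₗ f.1, ?_⟩
  ext k
  have : (⇑(CuspForm.toModularFormₗ f.1) : UpperHalfPlane → ℂ) = ⇑f.1 := rfl
  rw [this]
  simp only [qZ, PowerSeries.coeff_map, PowerSeries.coeff_mk, eq_intCast]
  rw [coeffZ_spec]
  rfl

theorem exists_isQ_congr (p : ℕ) [Fact p.Prime] (M : ℕ) (_hM0 : M ≠ 0)
    (hM : ∀ P : ModularCurve.HeckeAlg, CuspForm.heckeEvalForms p 2 P = 0 →
      (M : ℤ) ∣ MvPolynomial.eval (ModularCurve.eisensteinSystem p) P) :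
    ∃ φ ψ : PowerSeries ℤ, IsQ p 2 φ ∧ deltaZ p - φ = PowerSeries.C (M : ℤ) * ψ := by
  have hp : p.Prime := Fact.out
  have : NeZero p := ⟨hp.ne_zero⟩
  -- the Eisenstein character modulo `M`
  set ε : HeckeAlg →+* ZMod M :=
    (Int.castRingHom (ZMod M)).comp (MvPolynomial.eval (eisensteinSystem p)) with hε
  have hker : RingHom.ker (heckeEvalForms p 2) ≤ RingHom.ker ε := by
    intro P hP
    rw [RingHom.mem_ker] at hP ⊢
    rw [hε, RingHom.comp_apply, eq_intCast, ZMod.intCast_zmod_eq_zero_iff_dvd]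
    exact hM P hP
  set θ : TT p →+* ZMod M :=
    RingHom.liftOfSurjective (heckeEvalForms p 2) (heckeEvalForms_surjective p 2) ⟨ε, hker⟩
    with hθ
  have hθε : ∀ P, θ (heckeEvalForms p 2 P) = ε P := fun P =>
    RingHom.liftOfRightInverse_comp_apply _ _ _ ⟨ε, hker⟩ P
  have hθgen : ∀ ℓ : Nat.Primes, θ (heckeFormsGen p 2 ℓ) = ((eisensteinSystem p ℓ : ℤ) : ZMod M) := by
    intro ℓ
    rw [← heckeEvalForms_heckeGen, hθε, hε, heckeGen]
    simp
  -- lift to a linear form
  obtain ⟨lam, hlam⟩ := Module.projective_lifting_property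
    ((Int.castAddHom (ZMod M)).toIntLinearMap) (θ.toAddMonoidHom.toIntLinearMap)
    (ZMod.intCast_surjective)
  have hlam' : ∀ t, ((lam t : ℤ) : ZMod M) = θ t := fun t => LinearMap.congr_fun hlam t
  obtain ⟨f, hf⟩ := exists_pairT_eq lam
  -- the congruence
  have key := rec_vanish (𝕋 := TT p) (A := ZMod M)
    (fun k t => ((coeffZ k (actL t f) : ℤ) : ZMod M) - (((deltaZ p).coeff k : ℤ) : ZMod M) * θ t)
    (fun ℓ t => heckeFormsGen p 2 ℓ * t) (eps p) (fun ℓ k t => by
      show ((coeffZ (k * ℓ) (actL t f) : ℤ) : ZMod M) -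
          (((deltaZ p).coeff (k * ℓ) : ℤ) : ZMod M) * θ t =
        (((coeffZ k (actL (heckeFormsGen p 2 ℓ * t) f) : ℤ) : ZMod M) -
          (((deltaZ p).coeff k : ℤ) : ZMod M) * θ (heckeFormsGen p 2 ℓ * t)) -
        if (ℓ : ℕ) ∣ k then eps p ℓ • (((coeffZ (k / ℓ) (actL t f) : ℤ) : ZMod M) -
          (((deltaZ p).coeff (k / ℓ) : ℤ) : ZMod M) * θ t) else 0
      rw [coeffZ_rec, map_mul, hθgen]
      by_cases hℓ : (ℓ : ℕ) ∣ p
      · have hℓp : (ℓ : ℕ) = p := (Nat.prime_dvd_prime_iff_eq ℓ.2 hp).mp hℓ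
        rw [eisensteinSystem_of_dvd hℓ, eps, if_pos hℓ, hℓp, coeff_deltaZ_mul_self hp]
        simp
      · have hℓp : (ℓ : ℕ) ≠ p := fun h => hℓ (h ▸ dvd_rfl)
        have h1 := congrArg (Int.cast : ℤ → ZMod M) (coeff_deltaZ_mul_prime hp ℓ.2 hℓp k)
        rw [eisensteinSystem_of_not_dvd hℓ, eps, if_neg hℓ]
        split_ifs at h1 ⊢ with hd
        · push_cast at h1 ⊢
          rw [zsmul_eq_mul]
          push_cast
          linear_combination (-θ t) * h1
        · push_cast at h1 ⊢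
          linear_combination (-θ t) * h1)
    (fun t => by
      show ((coeffZ 1 (actL t f) : ℤ) : ZMod M) - (((deltaZ p).coeff 1 : ℤ) : ZMod M) * θ t = 0
      have h1 : coeffZ 1 (actL t f) = lam t := hf t
      rw [h1, hlam', coeff_one_deltaZ hp.ne_one]
      simp)
  have hdvd : ∀ k, (M : ℤ) ∣ (deltaZ p).coeff k - coeffZ k f := by
    intro k
    rcases Nat.eq_zero_or_pos k with rfl | hk
    · have h0 : coeffZ 0 f = 0 := by
        apply Int.cast_injective (α := ℂ)
        rw [coeffZ_spec, S49.qCoeff_zero_index]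
        simp
      rw [coeff_zero_deltaZ, h0]
      simp
    · have h1 := key k hk 1
      have h2 : actL (1 : TT p) f = f := by simp [actL]
      simp only [h2, map_one, mul_one] at h1
      rw [← ZMod.intCast_zmod_eq_zero_iff_dvd]
      push_cast
      linear_combination -h1
  choose c hc using hdvd
  refine ⟨qZ f, PowerSeries.mk c, isQ_qZ f, ?_⟩
  ext k
  rw [map_sub, PowerSeries.coeff_C_mul, PowerSeries.coeff_mk, ← hc k, qZ, PowerSeries.coeff_mk]

end

end Fermat.Agent.S16
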