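import Mathlib
import Fermat.Prelude.Thm_ModularForm_sturm_bound_Gamma0
import Fermat.Prelude.Thm_CongruenceSubgroup_one_mem_strictPeriods_Gamma0
import Fermat.Prelude.Def_ModularForm_HeckeOperatorForms
import Fermat.Prelude.Thm_ModularFormClass_qCoeff_heckeT
import Fermat.Prelude.Thm_ModularFormClass_qCoeff_heckeU
import Fermat.Agent.S24.QExp

/-! # Integral power series which are `q`-expansions of modular forms on `Γ₀(N)` -/

set_option autoImplicit false

namespace Fermat.Agent.S16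

open CongruenceSubgroup UpperHalfPlane ModularForm
open scoped MatrixGroups ModularForm Manifold

noncomputable section

/-- coercion of integral power series to complex ones -/
abbrev toC : PowerSeries ℤ →+* PowerSeries ℂ := PowerSeries.map (Int.castRingHom ℂ)

theorem toC_injective : Function.Injective toC :=
  PowerSeries.map_injective _ Int.cast_injective

/-- `φ` is the `q`-expansion of a modular form of weight `k` on `Γ₀(N)`. -/
def IsQ (N : ℕ) (k : ℤ) (φ : PowerSeries ℤ) : Prop :=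
  ∃ F : ModularForm (Gamma0 N) k, qExpansion 1 F = toC φ

variable {N : ℕ} {k k' : ℤ} {φ ψ : PowerSeries ℤ}

theorem IsQ.zero : IsQ N k 0 := ⟨0, by simp [qExpansion_zero]⟩

theorem IsQ.one : IsQ N 0 1 := ⟨1, by rw [ModularForm.qExpansion_one]; simp⟩

theorem IsQ.add (h : IsQ N k φ) (h' : IsQ N k ψ) : IsQ N k (φ + ψ) := by
  obtain ⟨F, hF⟩ := h
  obtain ⟨G, hG⟩ := h'
  refine ⟨F + G, ?_⟩
  rw [FunLike.coe_add, ModularForm.qExpansion_add one_pos (one_mem_strictPeriods_Gamma0 N) F G,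
    hF, hG, map_add]

theorem IsQ.sub (h : IsQ N k φ) (h' : IsQ N k ψ) : IsQ N k (φ - ψ) := by
  obtain ⟨F, hF⟩ := h
  obtain ⟨G, hG⟩ := h'
  refine ⟨F - G, ?_⟩
  rw [FunLike.coe_sub, ModularForm.qExpansion_sub one_pos (one_mem_strictPeriods_Gamma0 N) F G,
    hF, hG, map_sub]

theorem IsQ.mul (h : IsQ N k φ) (h' : IsQ N k' ψ) : IsQ N (k + k') (φ * ψ) := by
  obtain ⟨F, hF⟩ := h
  obtain ⟨G, hG⟩ := h'
  refine ⟨F.mul G, ?_⟩
  rw [ModularForm.qExpansion_mul one_pos (one_mem_strictPeriods_Gamma0 N) F G,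
    hF, hG, map_mul]

theorem IsQ.pow (h : IsQ N k φ) (n : ℕ) : IsQ N (n * k) (φ ^ n) := by
  obtain ⟨F, hF⟩ := h
  refine ⟨F.pow n, ?_⟩
  rw [ModularForm.qExpansion_pow one_pos (one_mem_strictPeriods_Gamma0 N) F n, hF, map_pow]

theorem IsQ.C_mul (h : IsQ N k φ) (c : ℤ) : IsQ N k (PowerSeries.C c * φ) := by
  obtain ⟨F, hF⟩ := h
  refine ⟨(c : ℂ) • F, ?_⟩
  rw [FunLike.coe_smul, ModularForm.qExpansion_smul one_pos (one_mem_strictPeriods_Gamma0 N), hF]
  ext n
  rw [map_mul, PowerSeries.map_C, PowerSeries.coeff_smul, PowerSeries.coeff_C_mul]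
  simp

/-- division by a nonzero integer -/
theorem IsQ.of_C_mul {c : ℤ} (hc : c ≠ 0) (h : IsQ N k (PowerSeries.C c * φ)) : IsQ N k φ := by
  obtain ⟨F, hF⟩ := h
  refine ⟨(c : ℂ)⁻¹ • F, ?_⟩
  rw [FunLike.coe_smul, ModularForm.qExpansion_smul one_pos (one_mem_strictPeriods_Gamma0 N), hF]
  have hc' : (c : ℂ) ≠ 0 := by exact_mod_cast hc
  ext n
  rw [map_mul, PowerSeries.map_C, PowerSeries.coeff_smul, PowerSeries.coeff_C_mul]
  simp [hc']

theorem IsQ.congr_weight (h : IsQ N k φ) (hk : k = k') : IsQ N k' φ := hk ▸ h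

/-- a level one form, seen as a form on `Γ₀(N)`. -/
def ofLevelOne (N : ℕ) [NeZero N] {k : ℤ} (f : ModularForm 𝒮ℒ k) : ModularForm (Gamma0 N) k where
  toFun := f
  slash_action_eq' := by
    rintro _ ⟨γ, -, rfl⟩
    exact SlashInvariantFormClass.slash_action_eq f _ ⟨γ, rfl⟩
  holo' := ModularFormClass.holo f
  bdd_at_cusps' := fun hc => ModularFormClass.bdd_at_cusps f
    ((Subgroup.IsArithmetic.isCusp_iff_isCusp_SL2Z _).mp hc)

@[simp] theorem coe_ofLevelOne (N : ℕ) [NeZero N] {k : ℤ} (f : ModularForm 𝒮ℒ k) :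
    ⇑(ofLevelOne N f) = ⇑f := rfl

theorem IsQ.of_levelOne [NeZero N] (f : ModularForm 𝒮ℒ k) (h : qExpansion 1 f = toC φ) : IsQ N k φ :=
  ⟨ofLevelOne N f, h⟩

/-! ### formal operators -/

/-- the formal operator `U_r` -/
def psU (r : ℕ) (φ : PowerSeries ℤ) : PowerSeries ℤ := PowerSeries.mk fun n => φ.coeff (n * r)

/-- the formal operator `V_r` -/
def psV (r : ℕ) (φ : PowerSeries ℤ) : PowerSeries ℤ :=
  PowerSeries.mk fun n => if r ∣ n then φ.coeff (n / r) else 0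

@[simp] theorem coeff_psU (r : ℕ) (φ : PowerSeries ℤ) (n : ℕ) :
    (psU r φ).coeff n = φ.coeff (n * r) := by simp [psU]

@[simp] theorem coeff_psV (r : ℕ) (φ : PowerSeries ℤ) (n : ℕ) :
    (psV r φ).coeff n = if r ∣ n then φ.coeff (n / r) else 0 := by simp [psV]

theorem IsQ.heckeT {w r : ℕ} (h : IsQ N ((w : ℤ) + 1) φ) (hr : r.Prime) (hrN : ¬ r ∣ N) :
    IsQ N ((w : ℤ) + 1) (psU r φ + PowerSeries.C ((r : ℤ) ^ w) * psV r φ) := by
  obtain ⟨F, hF⟩ := h
  refine ⟨ModularForm.heckeTLin _ hr hrN F, ?_⟩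
  ext n
  have h1 := ModularFormClass.qCoeff_heckeT F (one_mem_strictPeriods_Gamma0 N) hr.ne_zero n
  rw [ModularForm.coe_heckeTLin_apply]
  unfold ModularFormClass.qCoeff at h1
  rw [h1, ModularForm.coeffHeckeT_apply, hF, map_add, map_mul, PowerSeries.map_C, map_add,
    PowerSeries.coeff_C_mul]
  simp only [PowerSeries.coeff_map, coeff_psU, coeff_psV, add_sub_cancel_right, zpow_natCast]
  split_ifs <;> simp

theorem IsQ.heckeU [NeZero N] {r : ℕ} (h : IsQ N k φ) (hr : r ≠ 0) (hrN : r ∣ N) :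
    IsQ N k (psU r φ) := by
  obtain ⟨F, hF⟩ := h
  refine ⟨ModularForm.heckeULin _ hrN F, ?_⟩
  ext n
  have h1 := ModularFormClass.qCoeff_heckeU F (one_mem_strictPeriods_Gamma0 N) hr n
  rw [ModularForm.coe_heckeULin_apply]
  unfold ModularFormClass.qCoeff at h1
  rw [h1, ModularForm.coeffHeckeU_apply, hF]
  simp

/-! ### `Δ` and `E₄` -/

/-- the integral `q`-expansion of `Δ` -/
def DeltaZ : PowerSeries ℤ := PowerSeries.X * ModularCurve.dedekindEtaUnit

theorem isQ_DeltaZ [NeZero N] : IsQ N 12 DeltaZ := by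
  refine IsQ.of_levelOne (CuspForm.toModularFormₗ CuspForm.discriminant) ?_
  have : (⇑(CuspForm.toModularFormₗ CuspForm.discriminant) : ℍ → ℂ) = ModularForm.discriminant := by
    ext z; rfl
  rw [this, Fermat.Agent.S24.qExpansion_discriminant, DeltaZ, map_mul, PowerSeries.map_X]

theorem isQ_E4 [NeZero N] : IsQ N 4 ModularCurve.eisenstein4 :=
  IsQ.of_levelOne E₄ Fermat.Agent.S24.qExpansion_E4

theorem coeff_zero_DeltaZ : DeltaZ.coeff 0 = 0 := by simp [DeltaZ]

theorem coeff_one_DeltaZ : DeltaZ.coeff 1 = 1 := by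
  rw [DeltaZ, show (1 : ℕ) = 0 + 1 from rfl, PowerSeries.coeff_succ_X_mul,
    PowerSeries.coeff_zero_eq_constantCoeff_apply, ModularCurve.constantCoeff_dedekindEtaUnit]

end

end Fermat.Agent.S16
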