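import Mathlib
import Fermat.Agent.S16.IsQ
import Fermat.Agent.Common.E4Level

/-! # The weight two Eisenstein series of level `N` in the `IsQ` language

`N E₂(N z) - E₂(z)` is a modular form of weight `2` on `Γ₀(N)` with `q`-expansion
`(N - 1) + 24 ∑ (σ(n) - N σ(n/N)) qⁿ`. -/

set_option autoImplicit false

namespace Fermat.Agent.S16

open CongruenceSubgroup UpperHalfPlane ModularForm EisensteinSeries Fermat.Agent.Common
open Matrix.SpecialLinearGroup
open scoped MatrixGroups ModularForm Manifold ArithmeticFunction.sigma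

noncomputable section

lemma coe_upperTriangularGL_smul {a b d : ℝ} (had : 0 < a * d) (τ : ℍ) :
    ((upperTriangularGL a b d had.ne' • τ : ℍ) : ℂ) = ((a : ℂ) * τ + b) / d := by
  rw [UpperHalfPlane.coe_smul_of_det_pos (by rw [det_upperTriangularGL]; exact had)]
  simp [UpperHalfPlane.num, UpperHalfPlane.denom]

/-- the cocycle `D2` is compatible with upper triangular matrices. -/
lemma D2_slash_upperTriangularGL (γ γ' : SL(2, ℤ)) {a b d : ℝ} (had : 0 < a * d)
    (h10 : ((γ' 1 0 : ℤ) : ℝ) * a = (γ 1 0 : ℤ))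
    (h11 : ((γ' 1 0 : ℤ) : ℝ) * b + (γ' 1 1 : ℤ) * d = (γ 1 1 : ℤ)) :
    D2 γ' ∣[(2 : ℤ)] upperTriangularGL a b d had.ne' = D2 γ := by
  ext z
  have hd : (d : ℂ) ≠ 0 := by
    have : d ≠ 0 := right_ne_zero_of_mul had.ne'
    exact_mod_cast this
  have h10c : ((γ' 1 0 : ℤ) : ℂ) * a = (γ 1 0 : ℤ) := by exact_mod_cast h10
  have h11c : ((γ' 1 0 : ℤ) : ℂ) * b + (γ' 1 1 : ℤ) * d = (γ 1 1 : ℤ) := by exact_mod_cast h11
  have hden : denom γ z ≠ 0 := denom_ne_zero _ z
  have hden' : denom γ' (upperTriangularGL a b d had.ne' • z : ℍ) ≠ 0 := denom_ne_zero _ _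
  have e1 : denom γ z = ((γ 1 0 : ℤ) : ℂ) * z + (γ 1 1 : ℤ) := by
    simp [denom]
  have e2 : denom γ' (upperTriangularGL a b d had.ne' • z : ℍ) =
      ((γ' 1 0 : ℤ) : ℂ) * (((a : ℂ) * z + b) / d) + (γ' 1 1 : ℤ) := by
    rw [← coe_upperTriangularGL_smul had]
    simp [denom]
  have e3 : denom γ' (upperTriangularGL a b d had.ne' • z : ℍ) * d = denom γ z := by
    rw [e1, e2, ← h10c, ← h11c]
    field_simp
    ring
  rw [slash_upperTriangularGL_apply 2 had]
  change _ * ((2 * Real.pi * Complex.I * ((γ' 1 0 : ℤ) : ℂ)) /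
    denom γ' (upperTriangularGL a b d had.ne' • z : ℍ)) =
    (2 * Real.pi * Complex.I * ((γ 1 0 : ℤ) : ℂ)) / denom γ z
  rw [← e3, ← h10c]
  have hx : denom γ' (upperTriangularGL a b d had.ne' • z : ℍ) * d ≠ 0 := mul_ne_zero hden' hd
  norm_num
  field_simp

/-- the function `N E₂(N z) - E₂(z)` -/
def eisFun (N : ℕ) : ℍ → ℂ := E2 ∣[(2 : ℤ)] heckeDiagMatrix N - E2

lemma eisFun_slash (N : ℕ) [NeZero N] (γ γ' : SL(2, ℤ)) {a b d : ℝ} (had : 0 < a * d)
    (h : heckeDiagMatrix N * mapGL ℝ γ = mapGL ℝ γ' * upperTriangularGL a b d had.ne') :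
    eisFun N ∣[(2 : ℤ)] γ = E2 ∣[(2 : ℤ)] upperTriangularGL a b d had.ne' - E2 := by
  have h10 : ((γ' 1 0 : ℤ) : ℝ) * a = (γ 1 0 : ℤ) := by
    have := congrArg (fun g : GL (Fin 2) ℝ => g 1 0) h
    simp only [Units.val_mul, Matrix.mul_apply, Fin.sum_univ_two, val_heckeDiagMatrix (NeZero.ne N),
      val_upperTriangularGL, mapGL_apply', Matrix.of_apply, Matrix.cons_val', Matrix.cons_val_zero,
      Matrix.cons_val_one, Matrix.cons_val_fin_one] at this
    linarith
  have h11 : ((γ' 1 0 : ℤ) : ℝ) * b + (γ' 1 1 : ℤ) * d = (γ 1 1 : ℤ) := by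
    have := congrArg (fun g : GL (Fin 2) ℝ => g 1 1) h
    simp only [Units.val_mul, Matrix.mul_apply, Fin.sum_univ_two, val_heckeDiagMatrix (NeZero.ne N),
      val_upperTriangularGL, mapGL_apply', Matrix.of_apply, Matrix.cons_val', Matrix.cons_val_zero,
      Matrix.cons_val_one, Matrix.cons_val_fin_one] at this
    linarith
  have e1 : (E2 ∣[(2 : ℤ)] heckeDiagMatrix N) ∣[(2 : ℤ)] mapGL ℝ γ =
      E2 ∣[(2 : ℤ)] upperTriangularGL a b d had.ne' - (1 / (2 * riemannZeta 2)) • D2 γ := by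
    rw [← SlashAction.slash_mul, h, SlashAction.slash_mul]
    have : E2 ∣[(2 : ℤ)] mapGL ℝ γ' = E2 - (1 / (2 * riemannZeta 2)) • D2 γ' := E2_slash_action γ'
    rw [this, sub_eq_add_neg, SlashAction.add_slash, SlashAction.neg_slash,
      ← D2_slash_upperTriangularGL γ γ' had h10 h11, ← sub_eq_add_neg]
    congr 1
    ext z
    rw [slash_upperTriangularGL_apply 2 had, Pi.smul_apply, Pi.smul_apply,
      slash_upperTriangularGL_apply 2 had]
    simp only [smul_eq_mul]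
    ring
  have e2 : E2 ∣[(2 : ℤ)] mapGL ℝ γ = E2 - (1 / (2 * riemannZeta 2)) • D2 γ := E2_slash_action γ
  change (E2 ∣[(2 : ℤ)] heckeDiagMatrix N - E2) ∣[(2 : ℤ)] mapGL ℝ γ = _
  rw [sub_eq_add_neg, SlashAction.add_slash, SlashAction.neg_slash, e1, e2]
  abel

lemma heckeDiagMatrix_eq_upper (N : ℕ) [NeZero N] (h : ((N : ℝ) * 1) ≠ 0) :
    heckeDiagMatrix N = upperTriangularGL N 0 1 h := by
  rw [heckeDiagMatrix, dif_neg (NeZero.ne N)]

/-- `N E₂(N z) - E₂(z)` as a modular form of weight `2` on `Γ₀(N)`. -/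
def eisForm (N : ℕ) [NeZero N] : ModularForm (Gamma0 N) 2 where
  toFun := eisFun N
  slash_action_eq' := by
    rintro _ ⟨γ, hγ, rfl⟩
    obtain ⟨γ', h⟩ := heckeDiag_mul_Gamma0 N γ hγ
    have hpos : (0 : ℝ) < (N : ℝ) * 1 := by
      rw [mul_one]; exact_mod_cast Nat.pos_of_ne_zero (NeZero.ne N)
    have h2 := heckeDiagMatrix_eq_upper N hpos.ne'
    have h3 : heckeDiagMatrix N * mapGL ℝ γ = mapGL ℝ γ' * upperTriangularGL N 0 1 hpos.ne' := by
      rw [← h2]; exact h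
    have := eisFun_slash N γ γ' hpos h3
    rw [← h2] at this
    exact this
  holo' := (E2_mdifferentiable.slash 2 _).sub E2_mdifferentiable
  bdd_at_cusps' := by
    intro c hc
    rw [OnePoint.isBoundedAt_iff_forall_SL2Z ((Subgroup.IsArithmetic.isCusp_iff_isCusp_SL2Z _).mp hc)]
    intro γ _
    obtain ⟨γ', a, b, d, ha, hd, -, -, h⟩ := hermite N γ
    have har : (0 : ℝ) < a := by exact_mod_cast ha
    have hdr : (0 : ℝ) < d := by exact_mod_cast hd
    have hpos : (0 : ℝ) < (a : ℝ) * d := mul_pos har hdr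
    rw [eisFun_slash N γ γ' hpos (h hpos.ne')]
    rw [sub_eq_add_neg]
    exact Filter.BoundedAtFilter.add (isBoundedAtImInfty_E2.slash 2 (by simp))
      (Filter.BoundedAtFilter.neg isBoundedAtImInfty_E2)

@[simp] lemma coe_eisForm (N : ℕ) [NeZero N] : ⇑(eisForm N) = eisFun N := rfl

local notation "𝕢" => Function.Periodic.qParam

lemma hasSum_E2 (τ : ℍ) :
    HasSum (fun m : ℕ ↦ (if m = 0 then 1 else -24 * σ 1 m : ℂ) • 𝕢 1 τ ^ m) (E2 τ) := by
  simpa only [Function.Periodic.qParam, Complex.ofReal_one, div_one] using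
    hasSum_qExpansion_E2 (z := τ)

/-- the integral `q`-expansion `(N - 1) + 24 ∑ (σ(n) - N σ(n/N)) qⁿ` -/
def eisZ (N : ℕ) : PowerSeries ℤ := PowerSeries.mk fun n =>
  if n = 0 then (N : ℤ) - 1 else 24 * ((σ 1 n : ℤ) - if N ∣ n then (N : ℤ) * σ 1 (n / N) else 0)

theorem coeff_eisZ (N n : ℕ) : (eisZ N).coeff n =
    if n = 0 then (N : ℤ) - 1 else
      24 * ((σ 1 n : ℤ) - if N ∣ n then (N : ℤ) * σ 1 (n / N) else 0) := by
  simp [eisZ]

theorem qExpansion_eisForm (N : ℕ) [NeZero N] : qExpansion 1 (eisForm N) = toC (eisZ N) := by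
  have hNpos : 0 < N := Nat.pos_of_ne_zero (NeZero.ne N)
  ext n
  refine (ModularFormClass.qExpansion_coeff_unique (f := eisForm N)
    (c := fun n => (toC (eisZ N)).coeff n) one_pos
    (one_mem_strictPeriods_Gamma0 N) (fun τ => ?_) n).symm
  have h1 := hasSum_E2 (heckeDiagMatrix N • τ)
  have h2 := hasSum_E2 τ
  have hinj : Function.Injective (fun m : ℕ => N * m) := fun a b hab =>
    Nat.eq_of_mul_eq_mul_left hNpos hab
  have h3 : HasSum (fun n : ℕ => (if N ∣ n then (if n / N = 0 then 1 else -24 * σ 1 (n / N) : ℂ)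
      else 0) • 𝕢 1 τ ^ n) (E2 (heckeDiagMatrix N • τ)) := by
    refine (hinj.hasSum_iff ?_).mp ?_
    · intro x hx
      have : ¬ N ∣ x := fun ⟨m, hm⟩ => hx ⟨m, hm.symm⟩
      simp [this]
    · convert h1 using 2 with m
      simp only [Function.comp_apply, dvd_mul_right, if_true, Nat.mul_div_cancel_left _ hNpos,
        smul_eq_mul, qParam_heckeDiag, ← pow_mul]
  have h4 := (h3.mul_left (N : ℂ)).sub h2
  have h5 : eisForm N τ = (N : ℂ) * E2 (heckeDiagMatrix N • τ) - E2 τ := by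
    rw [coe_eisForm, eisFun, Pi.sub_apply, slash_heckeDiagMatrix_apply 2 (NeZero.ne N)]
    norm_num
  rw [h5]
  refine h4.congr_fun ?_
  intro m
  rw [PowerSeries.coeff_map, coeff_eisZ]
  by_cases hm : m = 0
  · subst hm
    simp
  · by_cases hd : N ∣ m
    · have : m / N ≠ 0 := by
        obtain ⟨e, rfl⟩ := hd
        rw [Nat.mul_div_cancel_left _ hNpos]
        rintro rfl
        exact hm (by simp)
      simp [hm, hd, this]
      ring
    · simp [hm, hd]

theorem isQ_eisZ (N : ℕ) [NeZero N] : IsQ N 2 (eisZ N) := ⟨eisForm N, qExpansion_eisForm N⟩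

end

end Fermat.Agent.S16
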