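import Fermat.Agent.S16.IsQ2
import Fermat.Agent.S16.Eis

/-! # The weight two Eisenstein series `N E₂(N z) - E₂(z)` on `Γ₀(N)`  (WP [E2]) -/

set_option autoImplicit false

namespace Fermat.Agent.S16

open CongruenceSubgroup UpperHalfPlane ModularForm PowerSeries
open scoped MatrixGroups ModularForm Manifold

noncomputable section

/-- `∑_{n ≥ 1} σ₁(n) qⁿ` -/
def sigmaZ : PowerSeries ℤ := PowerSeries.mk fun n => ∑ d ∈ n.divisors, (d : ℤ)

/-- `D₁(q) - N D₁(q^N)`; for `N = p` prime its `n`-th coefficient is the sum of the divisors of `n`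
prime to `p`. -/
def deltaZ (N : ℕ) : PowerSeries ℤ := sigmaZ - C (N : ℤ) * psV N sigmaZ

theorem coeff_sigmaZ (n : ℕ) : sigmaZ.coeff n = ∑ d ∈ n.divisors, (d : ℤ) := by
  simp [sigmaZ]

theorem coeff_sigmaZ' (n : ℕ) : sigmaZ.coeff n = (ArithmeticFunction.sigma 1 n : ℤ) := by
  rw [coeff_sigmaZ, ArithmeticFunction.sigma_one_apply]
  push_cast
  rfl

theorem coeff_deltaZ (N n : ℕ) : (deltaZ N).coeff n =
    (∑ d ∈ n.divisors, (d : ℤ)) - if N ∣ n then (N : ℤ) * ∑ d ∈ (n / N).divisors, (d : ℤ) else 0 := by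
  rw [deltaZ, map_sub, coeff_C_mul, coeff_psV, coeff_sigmaZ]
  split_ifs
  · rw [coeff_sigmaZ]
  · simp

theorem coeff_zero_deltaZ (N : ℕ) : (deltaZ N).coeff 0 = 0 := by
  rw [coeff_deltaZ]; simp

theorem eisZ_eq (N : ℕ) : eisZ N = C ((N : ℤ) - 1) + C 24 * deltaZ N := by
  ext n
  rw [coeff_eisZ, map_add, coeff_C_mul, coeff_C, deltaZ, map_sub, coeff_C_mul, coeff_psV,
    coeff_sigmaZ']
  by_cases hn : n = 0
  · subst hn
    simp [coeff_sigmaZ']
  · rw [if_neg hn, if_neg hn, zero_add]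
    split_ifs
    · rw [coeff_sigmaZ']
    · simp

/-- `N E₂(N z) - E₂(z) = (N - 1) + 24 (D₁(q) - N D₁(q^N))` is a modular form of weight two on
`Γ₀(N)`. -/
theorem isQ_E2Level (N : ℕ) [NeZero N] : IsQ N 2 (C ((N : ℤ) - 1) + C 24 * deltaZ N) := by
  rw [← eisZ_eq]
  exact isQ_eisZ N

end

end Fermat.Agent.S16
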