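import Fermat.Agent.S16.Trace
import Fermat.Agent.S16.E2Level

/-! # (D): for `p ≡ 7 mod 8` no weight two form on `Γ₀(p)` is an odd constant modulo `8`  (WP [D])

Proof.  `A := 1 + 12 a'`, `a' := deltaZ 3 = q + …`, `IsQ 3 2 A` (`isQ_E2Level 3`, `IsQ.of_C_mul`).
`2^ρ ‖ p + 1`, `I := 2^ρ` (`ρ ≥ 3`).  By `TR_pow` + `IsQ.mono` the series
`Θ := ∑_{s ≤ I} C(I,s) (-p u A)^(I-s) (p^s G^s + p (-1)^s U_p((U_p G)^s))` is `IsQ 3 (2 I)`.
By the binomial theorem and the projection formula `psU_psV_mul`,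
`Θ = p^I (G - u A)^I + p U_p((U_p G + p u V_p A)^I)`.
`G - u A = 4 (2 ψ - 3 u a')`, `U_p G + p u V_p A = 4 (3 p u V_p a' + 2 (u (p+1)/8 + U_p ψ))`, so by
`dvd_sub_pow_of_dvd_sub`, `Θ = 4^I ((3 p u)^I (p + 1) a'^I + 2^(ρ+1) (…))`, hence
`Θ / (4^I 2^ρ) ≡ a'^I mod 2` has order `I` modulo `2`, contradicting `sturm_mod` (`N = 3`, index `4`,
`k = 2 I`, padding form `E₄`): `12 I ≤ 8 I`. -/

set_option autoImplicit false

namespace Fermat.Agent.S16

open CongruenceSubgroup PowerSeries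

noncomputable section

theorem IsQ.sum {N : ℕ} {k : ℤ} {ι : Type*} (s : Finset ι) (f : ι → PowerSeries ℤ)
    (h : ∀ i ∈ s, IsQ N k (f i)) : IsQ N k (∑ i ∈ s, f i) := by
  classical
  induction s using Finset.induction_on with
  | empty => simpa using IsQ.zero
  | insert a s ha ih =>
    rw [Finset.sum_insert ha]
    exact (h a (by simp)).add (ih fun i hi => h i (by simp [hi]))

/-- the binomial identity behind `Θ` -/
theorem theta_identity {p : ℕ} (hp : p ≠ 0) (I : ℕ) (G B : PowerSeries ℤ) :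
    ∑ s ∈ Finset.range (I + 1), C ((I.choose s : ℕ) : ℤ) * B ^ (I - s) *
        (C ((p : ℤ) ^ s) * G ^ s + C ((p : ℤ) * (-1) ^ s) * psU p ((psU p G) ^ s)) =
      (C (p : ℤ) * G + B) ^ I + C (p : ℤ) * psU p ((-psU p G + psV p B) ^ I) := by
  rw [add_pow, add_pow, psU_sum, Finset.mul_sum, ← Finset.sum_add_distrib]
  refine Finset.sum_congr rfl fun s _ => ?_
  have h1 : ((I.choose s : ℕ) : PowerSeries ℤ) = C ((I.choose s : ℕ) : ℤ) := by
    simp
  have h2 : (-psU p G) ^ s = C ((-1 : ℤ) ^ s) * (psU p G) ^ s := by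
    rw [neg_pow, map_pow, map_neg, map_one]
  have h3 : psU p (C ((-1 : ℤ) ^ s) * psU p G ^ s * psV p (B ^ (I - s)) * C ((I.choose s : ℕ) : ℤ)) =
      C ((I.choose s : ℕ) : ℤ) * (C ((-1 : ℤ) ^ s) * (psU p (psU p G ^ s) * B ^ (I - s))) := by
    rw [mul_comm _ (C ((I.choose s : ℕ) : ℤ)), psU_C_mul, mul_assoc (C _) _ (psV p _),
      psU_C_mul, psU_mul_psV hp]
  rw [h1, h2, ← psV_pow hp, h3, mul_pow, ← map_pow, map_mul]
  ring

theorem pow_two_pow_eq (ρ : ℕ) (x y : PowerSeries ℤ) :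
    ∃ z, (x + C 2 * y) ^ (2 ^ ρ) = x ^ (2 ^ ρ) + C ((2 : ℤ) ^ (ρ + 1)) * z := by
  have h : ((2 : ℕ) : PowerSeries ℤ) ∣ (x + C 2 * y) - x := ⟨y, by simp⟩
  obtain ⟨z, hz⟩ := dvd_sub_pow_of_dvd_sub h ρ
  refine ⟨z, ?_⟩
  have h2 : (C ((2 : ℤ) ^ (ρ + 1)) : PowerSeries ℤ) = ((2 : ℕ) : PowerSeries ℤ) ^ (ρ + 1) := by
    simp
  rw [h2, ← hz]
  ring

theorem coeff_deltaZ_aux (N n : ℕ) : (deltaZ N).coeff n =
    (∑ d ∈ n.divisors, (d : ℤ)) - N * (if N ∣ n then ∑ d ∈ (n / N).divisors, (d : ℤ) else 0) := by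
  rw [deltaZ, map_sub, coeff_C_mul, coeff_psV, sigmaZ, coeff_mk]
  split_ifs <;> simp

theorem order_red_deltaZ_three : (red 2 (deltaZ 3)).order = 1 := by
  have : ((1 : ℕ) : ℕ∞) = 1 := rfl
  rw [← this, PowerSeries.order_eq_nat]
  constructor
  · rw [PowerSeries.coeff_map, coeff_deltaZ_aux]
    simp
  · intro i hi
    have : i = 0 := by omega
    subst this
    rw [PowerSeries.coeff_map, coeff_deltaZ_aux]
    simp

theorem order_red_E4 (ℓ : ℕ) [Fact ℓ.Prime] : (red ℓ ModularCurve.eisenstein4).order = 0 := by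
  apply PowerSeries.order_zero_of_unit
  rw [PowerSeries.isUnit_iff_constantCoeff, ← PowerSeries.coeff_zero_eq_constantCoeff_apply,
    PowerSeries.coeff_map, PowerSeries.coeff_zero_eq_constantCoeff_apply,
    ModularCurve.constantCoeff_eisenstein4]
  simp

theorem caseD (p : ℕ) [Fact p.Prime] (hp : p % 8 = 7) {G ψ : PowerSeries ℤ} (hG : IsQ p 2 G)
    {u : ℤ} (hu : Odd u) (hGψ : G = C u + C 8 * ψ) : False := by
  have hp' : p.Prime := Fact.out
  have hp0 : p ≠ 0 := hp'.ne_zero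
  haveI : Fact (Nat.Prime 2) := ⟨by norm_num⟩
  obtain ⟨ρ, c, hc, hpc⟩ := Nat.exists_eq_two_pow_mul_odd (n := p + 1) (by omega)
  obtain ⟨c8, hc8⟩ : ∃ c8 : ℤ, (p : ℤ) + 1 = 8 * c8 := ⟨((p + 1) / 8 : ℕ), by omega⟩
  have hρ : 3 ≤ ρ := by
    by_contra h
    push Not at h
    obtain ⟨d, rfl⟩ := hc
    interval_cases ρ <;> omega
  set I := 2 ^ ρ with hI
  have hI_pos : 0 < I := by positivity
  have h4I : 4 ∣ 2 * I := by
    obtain ⟨j, rfl⟩ : ∃ j, ρ = j + 3 := ⟨ρ - 3, by omega⟩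
    exact ⟨2 ^ j * 4, by rw [hI]; ring⟩
  set a' := deltaZ 3 with ha'
  set A : PowerSeries ℤ := 1 + C 12 * a' with hA_def
  have hA : IsQ 3 2 A := by
    have h := isQ_E2Level 3
    apply IsQ.of_C_mul (c := 2) (by norm_num)
    have e : C 2 * A = C (((3 : ℕ) : ℤ) - 1) + C 24 * deltaZ 3 := by
      rw [hA_def, show (((3 : ℕ) : ℤ) - 1) = 2 by norm_num, show (24 : ℤ) = 2 * 12 by norm_num,
        map_mul]
      ring
    rw [e]
    exact h
  set B : PowerSeries ℤ := C (-(p : ℤ) * u) * A with hB_def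
  have hB : IsQ 3 2 B := hA.C_mul _
  have hΘ : IsQ 3 (2 * (I : ℤ)) (∑ s ∈ Finset.range (I + 1), C ((I.choose s : ℕ) : ℤ) * B ^ (I - s) *
        (C ((p : ℤ) ^ s) * G ^ s + C ((p : ℤ) * (-1) ^ s) * psU p ((psU p G) ^ s))) := by
    apply IsQ.sum
    intro s hs
    have hs' : s ≤ I := by
      have := Finset.mem_range.mp hs
      omega
    have h1 : IsQ 3 (2 * (s : ℤ)) _ := (TR_pow p hG s).mono (one_dvd 3)
    have h3 := ((hB.pow (I - s)).mul h1).C_mul ((I.choose s : ℕ) : ℤ)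
    rw [mul_assoc]
    exact h3.congr_weight (by push_cast [Nat.cast_sub hs']; ring)
  rw [theta_identity hp0] at hΘ
  have e1 : C (p : ℤ) * G + B = C (4 * (p : ℤ)) * (C (-3 * u) * a' + C 2 * ψ) := by
    rw [hGψ, hB_def, hA_def]
    simp only [map_mul, map_neg, map_ofNat]
    ring
  have e2 : -psU p G + psV p B =
      C 4 * (C (-3 * (p : ℤ) * u) * psV p a' + C 2 * (C (-u * c8) - psU p ψ)) := by
    rw [hGψ, hB_def, hA_def, psU_add, psU_C hp0, psU_C_mul, psV_C_mul, psV_add, psV_one hp0,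
      psV_C_mul]
    have hC : (C (p : ℤ) : PowerSeries ℤ) + 1 = 8 * C c8 := by
      have := congrArg (C : ℤ → PowerSeries ℤ) hc8
      simpa only [map_add, map_mul, map_one, map_ofNat] using this
    simp only [map_mul, map_neg, map_ofNat]
    linear_combination (-(C u : PowerSeries ℤ)) * hC
  obtain ⟨z₁, hz₁⟩ := pow_two_pow_eq ρ (C (-3 * u) * a') ψ
  obtain ⟨z₂, hz₂⟩ := pow_two_pow_eq ρ (C (-3 * (p : ℤ) * u) * psV p a') (C (-u * c8) - psU p ψ)
  rw [← hI] at hz₁ hz₂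
  obtain ⟨e, he⟩ : ∃ e : ℤ, e = (-3 * (p : ℤ) * u) ^ I * c := ⟨_, rfl⟩
  obtain ⟨Z, hZ⟩ : ∃ Z : PowerSeries ℤ, Z = C ((p : ℤ) ^ I) * z₁ + C (p : ℤ) * psU p z₂ := ⟨_, rfl⟩
  have e3 : (C (p : ℤ) * G + B) ^ I + C (p : ℤ) * psU p ((-psU p G + psV p B) ^ I) =
      C ((4 : ℤ) ^ I * 2 ^ ρ) * (C e * a' ^ I + C 2 * Z) := by
    rw [e1, e2, mul_pow, mul_pow, hz₁, hz₂]
    have h6 : psU p (C 4 ^ I * ((C (-3 * (p : ℤ) * u) * psV p a') ^ I + C ((2 : ℤ) ^ (ρ + 1)) * z₂)) =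
        C ((4 : ℤ) ^ I) * (C ((-3 * (p : ℤ) * u) ^ I) * a' ^ I +
          C ((2 : ℤ) ^ (ρ + 1)) * psU p z₂) := by
      rw [← map_pow, psU_C_mul, psU_add, psU_C_mul, mul_pow, ← map_pow, ← psV_pow hp0, psU_C_mul,
        psU_psV hp0]
    rw [h6, he, hZ]
    have hC : (C (p : ℤ) : PowerSeries ℤ) + 1 = 2 ^ ρ * C (c : ℤ) := by
      have h5 : (p : ℤ) + 1 = 2 ^ ρ * c := by
        have h7 : p + 1 = 2 ^ ρ * c := by rw [← hI]; exact hpc
        exact_mod_cast h7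
      have := congrArg (C : ℤ → PowerSeries ℤ) h5
      simpa only [map_add, map_mul, map_one, map_ofNat, map_pow] using this
    simp only [map_mul, map_neg, map_ofNat, map_pow]
    linear_combination ((4 : PowerSeries ℤ) ^ I * (-3 * C (p : ℤ) * C u) ^ I * a' ^ I) * hC
  rw [e3] at hΘ
  have hΘ' : IsQ 3 (((2 * I : ℕ)) : ℤ) (C e * a' ^ I + C 2 * Z) :=
    (hΘ.of_C_mul (by positivity)).congr_weight (by push_cast; ring)
  have he_odd : Odd e := by
    rw [he]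
    apply Odd.mul
    · apply Odd.pow
      apply Odd.mul
      · apply Odd.mul
        · exact ⟨-2, by norm_num⟩
        · have : Odd p := hp'.odd_of_ne_two (by omega)
          exact_mod_cast this
      · exact hu
    · exact_mod_cast hc
  have hord : (red 2 (C e * a' ^ I + C 2 * Z)).order = (I : ℕ) := by
    obtain ⟨d, hd⟩ := he_odd
    have h1 : red 2 (C e * a' ^ I + C 2 * Z) = (red 2 a') ^ I := by
      rw [map_add, map_mul, map_mul, map_pow, PowerSeries.map_C, PowerSeries.map_C]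
      have h2 : (Int.castRingHom (ZMod 2)) 2 = 0 := by
        rw [eq_intCast]; rfl
      have h3 : (Int.castRingHom (ZMod 2)) e = 1 := by
        rw [hd, map_add, map_mul, h2]; simp
      rw [h2, h3]
      simp
    rw [h1, PowerSeries.order_pow, order_red_deltaZ_three]
    simp
  have := sturm_mod (N := 3) 2 (k := 2 * I) (w := 4) hΘ' isQ_E4 h4I (by norm_num)
    (order_red_E4 2) hord
  rw [index_Gamma0_three] at this
  omega

end

end Fermat.Agent.S16
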