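import Fermat.Agent.S16.CaseB
import Fermat.Agent.S16.CaseD
import Fermat.Prelude.Def_ModularCurve_ModularUnit

/-! # (U): the upper bound `m ∣ n`  (WP [U])

`H := (p - 1) + 24 (δ - φ) = (p-1) + 24 m ψ` is `IsQ p 2`.  For a prime `ℓ` let `a = v_ℓ(p-1)`; if
`ℓ^(a+t) ∣ 24 m` then `H / ℓ^a = u' + ℓ^t (…)` with `ℓ ∤ u'`; this is impossible for
`(ℓ ≥ 5, t = 1)` (`not_const_mod_prime`), `(ℓ = 3, t = 2)` (`not_const_mod_nine`),
`(ℓ = 2, t = 3, p ≡ 7 mod 8)` (`caseD`).  Moreover `24 m ∣ (p-1) p^11 (p+1)` (`caseB`).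
Comparing valuations: `m ∣ (p-1)/gcd(p-1,12)`. -/

set_option autoImplicit false
set_option linter.style.haveILetI false

namespace Fermat.Agent.S16

open CongruenceSubgroup PowerSeries

noncomputable section

/-- If no weight two form is congruent to an `ℓ`-unit constant modulo `ℓ^t`, then the constant term
of a form which is constant modulo `W` is almost as divisible by `ℓ` as `W`. -/
theorem pow_dvd_const {N : ℕ} (ℓ : ℕ) (hℓ : ℓ ≠ 0) (t : ℕ)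
    (hno : ∀ (H' ψ' : PowerSeries ℤ) (u' : ℤ), IsQ N 2 H' → ¬ (ℓ : ℤ) ∣ u' →
      H' = C u' + C ((ℓ : ℤ) ^ t) * ψ' → False)
    {H ψ : PowerSeries ℤ} {U W : ℤ} (hH : IsQ N 2 H) (hHψ : H = C U + C W * ψ) (j : ℕ)
    (hW : (ℓ : ℤ) ^ (j + t) ∣ W) : (ℓ : ℤ) ^ (j + 1) ∣ U := by
  have hℓ' : (ℓ : ℤ) ≠ 0 := by exact_mod_cast hℓ
  induction j with
  | zero =>
    obtain ⟨w, rfl⟩ := hW
    by_contra h
    refine hno H (C w * ψ) U hH (by simpa using h) ?_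
    rw [hHψ, zero_add, map_mul, mul_assoc]
  | succ j ih =>
    obtain ⟨u', rfl⟩ := ih (dvd_trans (pow_dvd_pow _ (by omega)) hW)
    obtain ⟨w, rfl⟩ := hW
    by_contra h
    have h1 : H = C ((ℓ : ℤ) ^ (j + 1)) * (C u' + C ((ℓ : ℤ) ^ t) * (C w * ψ)) := by
      rw [hHψ, pow_add ((ℓ : ℤ)) (j + 1) t]
      simp only [map_mul]
      ring
    refine hno _ (C w * ψ) u' (IsQ.of_C_mul (pow_ne_zero _ hℓ') (h1 ▸ hH)) (fun hd => h ?_) rfl
    rw [pow_succ ((ℓ : ℤ)) (j + 1)]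
    exact mul_dvd_mul_left _ hd

theorem sub_one_dvd_twelve_mul (p : ℕ) (hp : 1 ≤ p) :
    ((p : ℤ) - 1) ∣ 12 * (ModularCurve.eisensteinNumerator p : ℤ) := by
  have h1 : p - 1 ∣ 12 * ModularCurve.eisensteinNumerator p := by
    unfold ModularCurve.eisensteinNumerator
    obtain ⟨c, hc⟩ := Nat.gcd_dvd_right (p - 1) 12
    have h2 := Nat.div_mul_cancel (Nat.gcd_dvd_left (p - 1) 12)
    refine ⟨c, ?_⟩
    calc 12 * ((p - 1) / (p - 1).gcd 12) = ((p - 1).gcd 12 * c) * ((p - 1) / (p - 1).gcd 12) := by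
          rw [← hc]
      _ = ((p - 1) / (p - 1).gcd 12 * (p - 1).gcd 12) * c := by ring
      _ = (p - 1) * c := by rw [h2]
  have h3 : ((p - 1 : ℕ) : ℤ) = (p : ℤ) - 1 := by push_cast [hp]; ring
  rw [← h3]
  exact_mod_cast h1

theorem upper (p : ℕ) [Fact p.Prime] (hp : 5 ≤ p) {φ ψ : PowerSeries ℤ} (hφ : IsQ p 2 φ)
    (m : ℕ) (hm : m ≠ 0) (hcong : deltaZ p - φ = C (m : ℤ) * ψ) :
    m ∣ ModularCurve.eisensteinNumerator p := by
  have hp' : p.Prime := Fact.out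
  set n := ModularCurve.eisensteinNumerator p with hn
  have hn12 : ((p : ℤ) - 1) ∣ 12 * (n : ℤ) := sub_one_dvd_twelve_mul p (by omega)
  have hH : IsQ p 2 (C ((p : ℤ) - 1) + C (24 * (m : ℤ)) * ψ) := by
    have h1 := (isQ_E2Level p).sub (hφ.C_mul 24)
    have h2 : C ((p : ℤ) - 1) + C 24 * deltaZ p - C 24 * φ =
        C ((p : ℤ) - 1) + C (24 * (m : ℤ)) * ψ := by
      rw [map_mul, mul_assoc, ← hcong]; ring
    rwa [h2] at h1
  have hB : 24 * (m : ℤ) ∣ ((p : ℤ) - 1) * (p : ℤ) ^ 11 * ((p : ℤ) + 1) := caseB p hH rfl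
  have hodd : p % 2 = 1 := by
    rcases hp'.eq_two_or_odd with h | h
    · omega
    · exact h
  rw [Nat.dvd_iff_prime_pow_dvd_dvd]
  intro ℓ k hℓ hk
  rcases k with _ | k
  · simp
  have hkZ : (ℓ : ℤ) ^ (k + 1) ∣ (m : ℤ) := by exact_mod_cast hk
  suffices hgoal : (ℓ : ℤ) ^ (k + 1) ∣ (n : ℤ) by exact_mod_cast hgoal
  haveI : Fact ℓ.Prime := ⟨hℓ⟩
  by_cases h2 : ℓ = 2
  · subst h2
    push_cast at hkZ ⊢
    obtain ⟨m', hm'⟩ := hkZ
    have h16 : (2 : ℤ) ^ (k + 4) ∣ ((p : ℤ) - 1) * (p : ℤ) ^ 11 * ((p : ℤ) + 1) := by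
      refine dvd_trans ⟨3 * m', ?_⟩ hB
      rw [hm']; ring
    have hcop2 : ∀ (j : ℕ) (Y : ℤ), Odd Y → IsCoprime ((2 : ℤ) ^ j) Y := by
      rintro j Y ⟨r, rfl⟩
      exact IsCoprime.pow_left ⟨-r, 1, by ring⟩
    have hpodd : Odd (p : ℤ) := by
      rw [Int.odd_iff]; omega
    have hcases : p % 8 = 7 ∨ p % 8 = 3 ∨ p % 4 = 1 := by omega
    rcases hcases with h7 | h3 | h1
    · -- `p ≡ 7 mod 8`
      exfalso
      obtain ⟨c, hc⟩ : ∃ c : ℤ, (p : ℤ) = 8 * c + 7 := ⟨((p / 8 : ℕ) : ℤ), by omega⟩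
      have hG : C ((p : ℤ) - 1) + C (24 * (m : ℤ)) * ψ =
          C 2 * (C (4 * c + 3) + C 8 * (C (3 * 2 ^ k * m') * ψ)) := by
        have e1 : (p : ℤ) - 1 = 2 * (4 * c + 3) := by rw [hc]; ring
        have e2 : 24 * (m : ℤ) = 2 * (8 * (3 * 2 ^ k * m')) := by rw [hm']; ring
        rw [e1, e2, map_mul C 2 (4 * c + 3), map_mul C 2 (8 * (3 * 2 ^ k * m')),
          map_mul C 8 (3 * 2 ^ k * m')]
        ring
      exact caseD p h7 (IsQ.of_C_mul (by norm_num) (hG ▸ hH)) ⟨2 * c + 1, by ring⟩ rfl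
    · -- `p ≡ 3 mod 8`
      exfalso
      obtain ⟨c, hc⟩ : ∃ c : ℤ, (p : ℤ) = 8 * c + 3 := ⟨((p / 8 : ℕ) : ℤ), by omega⟩
      have hY : Odd ((4 * c + 1) * (p : ℤ) ^ 11 * (2 * c + 1)) :=
        ((show Odd (4 * c + 1) from ⟨2 * c, by ring⟩).mul hpodd.pow).mul ⟨c, by ring⟩
      have h8 : ((p : ℤ) - 1) * (p : ℤ) ^ 11 * ((p : ℤ) + 1) =
          2 ^ 3 * ((4 * c + 1) * (p : ℤ) ^ 11 * (2 * c + 1)) := by
        have e1 : (p : ℤ) - 1 = 2 * (4 * c + 1) := by rw [hc]; ring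
        have e2 : (p : ℤ) + 1 = 4 * (2 * c + 1) := by rw [hc]; ring
        rw [e1, e2]; ring
      rw [h8, show k + 4 = 3 + (k + 1) by ring, pow_add] at h16
      have h17 := (mul_dvd_mul_iff_left (by norm_num : (2 : ℤ) ^ 3 ≠ 0)).mp h16
      have h18 : (2 : ℤ) ∣ (4 * c + 1) * (p : ℤ) ^ 11 * (2 * c + 1) :=
        dvd_trans (dvd_pow_self _ (Nat.succ_ne_zero k)) h17
      rw [Int.odd_iff] at hY
      omega
    · -- `p ≡ 1 mod 4`
      obtain ⟨c, hc⟩ : ∃ c : ℤ, (p : ℤ) = 4 * c + 1 := ⟨((p / 4 : ℕ) : ℤ), by omega⟩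
      have hY : Odd ((p : ℤ) ^ 11 * (2 * c + 1)) := hpodd.pow.mul ⟨c, by ring⟩
      have h8 : ((p : ℤ) - 1) * (p : ℤ) ^ 11 * ((p : ℤ) + 1) =
          2 * (((p : ℤ) - 1) * ((p : ℤ) ^ 11 * (2 * c + 1))) := by
        have e2 : (p : ℤ) + 1 = 2 * (2 * c + 1) := by rw [hc]; ring
        rw [e2]; ring
      rw [h8, show k + 4 = (k + 3) + 1 by ring, pow_succ, mul_comm _ (2 : ℤ)] at h16
      have h17 := (mul_dvd_mul_iff_left (by norm_num : (2 : ℤ) ≠ 0)).mp h16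
      have h18 : (2 : ℤ) ^ (k + 3) ∣ (p : ℤ) - 1 := (hcop2 _ _ hY).dvd_of_dvd_mul_right h17
      have h19 : (2 : ℤ) ^ 2 * 2 ^ (k + 1) ∣ 2 ^ 2 * (3 * (n : ℤ)) := by
        have := dvd_trans h18 hn12
        rw [show k + 3 = 2 + (k + 1) by ring, pow_add] at this
        rw [show (2 : ℤ) ^ 2 * (3 * (n : ℤ)) = 12 * n by ring]
        exact this
      have h20 := (mul_dvd_mul_iff_left (by norm_num : (2 : ℤ) ^ 2 ≠ 0)).mp h19
      exact (hcop2 _ 3 ⟨1, by norm_num⟩).dvd_of_dvd_mul_left h20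
  by_cases h3 : ℓ = 3
  · subst h3
    push_cast at hkZ ⊢
    obtain ⟨m', hm'⟩ := hkZ
    have h9 : (3 : ℤ) ^ (k + 1) ∣ (p : ℤ) - 1 := by
      have := pow_dvd_const (N := p) 3 (by norm_num) 2
        (fun H' ψ' u' a b c => not_const_mod_nine a (u := u') (H₁ := ψ') (by simpa using b)
          (by rw [c]; norm_num))
        hH rfl k ⟨8 * m', by rw [hm']; push_cast; ring⟩
      simpa using this
    obtain ⟨c, hc⟩ : ∃ c : ℤ, (p : ℤ) = 3 * c + 1 := by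
      obtain ⟨c, hc⟩ := dvd_trans (dvd_pow_self (3 : ℤ) (Nat.succ_ne_zero k)) h9
      exact ⟨c, by linarith⟩
    have h27 : (3 : ℤ) ^ (k + 2) ∣ ((p : ℤ) - 1) * ((p : ℤ) ^ 11 * ((p : ℤ) + 1)) := by
      have hB' : 24 * (m : ℤ) ∣ ((p : ℤ) - 1) * ((p : ℤ) ^ 11 * ((p : ℤ) + 1)) := by
        rw [← mul_assoc]; exact hB
      exact dvd_trans ⟨8 * m', by rw [hm']; ring⟩ hB'
    have hcop : IsCoprime ((3 : ℤ) ^ (k + 2)) ((p : ℤ) ^ 11 * ((p : ℤ) + 1)) := by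
      apply IsCoprime.pow_left
      apply IsCoprime.mul_right
      · exact IsCoprime.pow_right ⟨-c, 1, by rw [hc]; ring⟩
      · exact ⟨c + 1, -1, by rw [hc]; ring⟩
    have h28 : (3 : ℤ) ^ (k + 2) ∣ (p : ℤ) - 1 := hcop.dvd_of_dvd_mul_right h27
    have h29 : (3 : ℤ) * 3 ^ (k + 1) ∣ 3 * (4 * (n : ℤ)) := by
      have := dvd_trans h28 hn12
      rw [show k + 2 = (k + 1) + 1 by ring, pow_succ, mul_comm _ (3 : ℤ)] at this
      rw [show (3 : ℤ) * (4 * (n : ℤ)) = 12 * n by ring]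
      exact this
    have h30 := (mul_dvd_mul_iff_left (by norm_num : (3 : ℤ) ≠ 0)).mp h29
    have hcop4 : IsCoprime ((3 : ℤ) ^ (k + 1)) 4 := IsCoprime.pow_left ⟨-1, 1, by norm_num⟩
    exact hcop4.dvd_of_dvd_mul_left h30
  · have h5 : 5 ≤ ℓ := by
      have := hℓ.two_le
      rcases Nat.lt_or_ge ℓ 5 with h | h
      · interval_cases ℓ
        · exact absurd rfl h2
        · exact absurd rfl h3
        · norm_num at hℓ
      · exact h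
    have h1 : (ℓ : ℤ) ^ (k + 1) ∣ (p : ℤ) - 1 :=
      pow_dvd_const ℓ hℓ.ne_zero 1
        (fun H' ψ' u' a b c => not_const_mod_prime ℓ h5 a b (by simpa using c)) hH rfl k
        (Dvd.dvd.mul_left hkZ _)
    have hc : IsCoprime ((ℓ : ℤ) ^ (k + 1)) 12 := by
      apply IsCoprime.pow_left
      rw [show (12 : ℤ) = ((12 : ℕ) : ℤ) from rfl, Nat.isCoprime_iff_coprime,
        Nat.Prime.coprime_iff_not_dvd hℓ]
      intro hd
      have := Nat.le_of_dvd (by norm_num) hd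
      interval_cases ℓ <;> first | omega | (norm_num at hℓ)
    exact hc.dvd_of_dvd_mul_left (dvd_trans h1 hn12)

end

end Fermat.Agent.S16
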