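import Fermat.Agent.S16.E2Rec

/-! # (U) for `p = 2, 3` -/

set_option autoImplicit false

namespace Fermat.Agent.S16

open CongruenceSubgroup PowerSeries

noncomputable section

/-- For `p ∈ {2, 3}` a weight two form on `Γ₀(p)` is determined by its constant term. -/
theorem upper_small (p : ℕ) [Fact p.Prime] (hp : p < 5) {φ ψ : PowerSeries ℤ} (hφ : IsQ p 2 φ)
    (m : ℕ) (hcong : deltaZ p - φ = C (m : ℤ) * ψ) : m ∣ 1 := by
  have hp' : p.Prime := Fact.out
  obtain ⟨a, ha⟩ : ∃ a : ℤ, a = (p : ℤ) - 1 := ⟨_, rfl⟩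
  have hX : IsQ p 2 (C a * φ - C (φ.coeff 0) * (C a + C 24 * deltaZ p)) := by
    rw [ha]
    exact (hφ.C_mul _).sub ((isQ_E2Level p).C_mul _)
  have h0 := hX.eq_zero_of_sturm (fun n hn => by
    rw [index_Gamma0_prime] at hn
    have hn0 : n = 0 := by
      have h1 : ((2 : ℤ) * ((p + 1 : ℕ) : ℤ)).toNat = 2 * (p + 1) := by
        rw [show (2 : ℤ) * ((p + 1 : ℕ) : ℤ) = ((2 * (p + 1) : ℕ) : ℤ) by push_cast; ring,
          Int.toNat_natCast]
      rw [h1] at hn
      omega
    subst hn0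
    simp only [map_sub, map_add, coeff_C_mul, coeff_zero_deltaZ, coeff_zero_C]
    ring)
  have h1 := congrArg (fun χ : PowerSeries ℤ => χ.coeff 1) h0
  simp only [map_sub, map_add, coeff_C_mul, coeff_one_deltaZ hp'.one_lt.ne', map_zero,
    coeff_C, one_ne_zero, if_false] at h1
  have c0 := congrArg (fun χ : PowerSeries ℤ => χ.coeff 0) hcong
  have c1 := congrArg (fun χ : PowerSeries ℤ => χ.coeff 1) hcong
  simp only [map_sub, coeff_C_mul, coeff_zero_deltaZ, coeff_one_deltaZ hp'.one_lt.ne'] at c0 c1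
  have hgoal : (m : ℤ) ∣ 1 := by
    have hp23 : p = 2 ∨ p = 3 := by
      have := hp'.two_le
      interval_cases p
      · exact Or.inl rfl
      · exact Or.inr rfl
      · norm_num at hp'
    rcases hp23 with rfl | rfl
    · refine ⟨ψ.coeff 1 - 24 * ψ.coeff 0, ?_⟩
      have ha1 : a = 1 := by rw [ha]; norm_num
      rw [ha1] at h1
      linear_combination c1 + h1 - 24 * c0
    · refine ⟨ψ.coeff 1 - 12 * ψ.coeff 0, ?_⟩
      have ha2 : a = 2 := by rw [ha]; norm_num
      rw [ha2] at h1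
      have h2 : φ.coeff 1 = 12 * φ.coeff 0 := by linarith
      linear_combination c1 + h2 - 12 * c0
  exact_mod_cast hgoal

end

end Fermat.Agent.S16
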