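import Fermat.Agent.S16.VTrick

/-! # Formal operators `U_r`, `V_r` on integral power series: algebraic properties -/

set_option autoImplicit false

namespace Fermat.Agent.S16

open PowerSeries

noncomputable section

theorem psV_eq_expand {r : ℕ} (hr : r ≠ 0) (φ : PowerSeries ℤ) : psV r φ = expand r hr φ := by
  ext n
  rw [coeff_psV, coeff_expand]

theorem psV_mul {r : ℕ} (hr : r ≠ 0) (φ ψ : PowerSeries ℤ) :
    psV r (φ * ψ) = psV r φ * psV r ψ := by
  simp only [psV_eq_expand hr, map_mul]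

theorem psV_pow {r : ℕ} (hr : r ≠ 0) (φ : PowerSeries ℤ) (n : ℕ) :
    psV r (φ ^ n) = psV r φ ^ n := by
  simp only [psV_eq_expand hr, map_pow]

theorem psV_one {r : ℕ} (hr : r ≠ 0) : psV r 1 = 1 := by
  simp only [psV_eq_expand hr, map_one]

theorem psV_C {r : ℕ} (hr : r ≠ 0) (c : ℤ) : psV r (C c) = C c := by
  simp only [psV_eq_expand hr, expand_C]

theorem psU_C {r : ℕ} (hr : r ≠ 0) (c : ℤ) : psU r (C c) = C c := by
  ext n
  rw [coeff_psU, coeff_C, coeff_C]
  simp [hr]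

theorem psU_psV {r : ℕ} (hr : r ≠ 0) (φ : PowerSeries ℤ) : psU r (psV r φ) = φ := by
  ext n
  rw [coeff_psU, coeff_psV, if_pos (Dvd.intro_left n rfl), Nat.mul_div_cancel _ (Nat.pos_of_ne_zero hr)]

/-- projection formula -/
theorem psU_psV_mul {r : ℕ} (hr : r ≠ 0) (φ ψ : PowerSeries ℤ) :
    psU r (psV r φ * ψ) = φ * psU r ψ := by
  ext n
  rw [coeff_psU, coeff_mul, coeff_mul]
  have hinj : Function.Injective (fun x : ℕ × ℕ => (x.1 * r, x.2 * r)) := by
    intro x y hxy
    simp only [Prod.mk.injEq] at hxy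
    exact Prod.ext (Nat.eq_of_mul_eq_mul_right (Nat.pos_of_ne_zero hr) hxy.1)
      (Nat.eq_of_mul_eq_mul_right (Nat.pos_of_ne_zero hr) hxy.2)
  rw [← Finset.sum_subset (s₁ := (Finset.HasAntidiagonal.antidiagonal n).map ⟨_, hinj⟩)]
  · rw [Finset.sum_map]
    refine Finset.sum_congr rfl fun x _ => ?_
    simp [Nat.mul_div_cancel _ (Nat.pos_of_ne_zero hr)]
  · intro x hx
    rw [Finset.mem_map] at hx
    obtain ⟨a, ha, rfl⟩ := hx
    rw [Finset.HasAntidiagonal.mem_antidiagonal] at ha ⊢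
    show a.1 * r + a.2 * r = n * r
    rw [← ha]; ring
  · intro x hx hx'
    rw [coeff_psV]
    split_ifs with hd
    · exfalso
      apply hx'
      obtain ⟨a, ha⟩ := hd
      rw [Finset.HasAntidiagonal.mem_antidiagonal] at hx
      have h2 : r ∣ x.2 := by
        have : r ∣ x.1 + x.2 := hx ▸ Dvd.intro_left n rfl
        rwa [ha, Nat.dvd_add_right (Dvd.intro _ rfl)] at this
      obtain ⟨b, hb⟩ := h2
      rw [Finset.mem_map]
      refine ⟨(a, b), ?_, ?_⟩
      · rw [Finset.HasAntidiagonal.mem_antidiagonal]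
        apply Nat.eq_of_mul_eq_mul_right (Nat.pos_of_ne_zero hr)
        show (a + b) * r = n * r
        rw [← hx, ha, hb]; ring
      · show (a * r, b * r) = x
        ext <;> simp [ha, hb, mul_comm]
    · simp

theorem psU_mul_psV {r : ℕ} (hr : r ≠ 0) (φ ψ : PowerSeries ℤ) :
    psU r (ψ * psV r φ) = psU r ψ * φ := by
  rw [mul_comm, psU_psV_mul hr, mul_comm]

theorem psU_sum {ι : Type*} (r : ℕ) (s : Finset ι) (f : ι → PowerSeries ℤ) :
    psU r (∑ i ∈ s, f i) = ∑ i ∈ s, psU r (f i) := by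
  ext n
  simp [map_sum]

theorem psU_neg (r : ℕ) (φ : PowerSeries ℤ) : psU r (-φ) = -psU r φ := by
  ext n; simp

theorem psU_zero (r : ℕ) : psU r 0 = 0 := by
  ext n; simp

end

end Fermat.Agent.S16
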