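import Fermat.Agent.S16.Trace
import Fermat.Agent.S16.PS

/-! # (B): `H = u + M ψ` of weight two on `Γ₀(p)` forces `M ∣ u p^11 (p+1)`  (WP [B]) -/

set_option autoImplicit false

namespace Fermat.Agent.S16

open CongruenceSubgroup PowerSeries

noncomputable section

/-- `T_p Δ = τ(p) Δ` on `q`-expansions. -/
theorem heckeT_DeltaZ (p : ℕ) (hp : p.Prime) :
    psU p DeltaZ + C ((p : ℤ) ^ 11) * psV p DeltaZ = C (DeltaZ.coeff p) * DeltaZ := by
  have h1 : IsQ 1 (((11 : ℕ) : ℤ) + 1) DeltaZ := (isQ_DeltaZ (N := 1)).congr_weight (by norm_num)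
  have h2 := h1.heckeT hp (by simpa using hp.one_lt.ne')
  have h3 : IsQ 1 12 (psU p DeltaZ + C ((p : ℤ) ^ 11) * psV p DeltaZ - C (DeltaZ.coeff p) * DeltaZ) :=
    (h2.congr_weight (by norm_num)).sub ((isQ_DeltaZ (N := 1)).C_mul _)
  have h4 := h3.eq_zero_of_sturm (fun n hn => by
    rw [index_Gamma0_one] at hn
    have hn' : n ≤ 1 := by simpa using hn
    have hp1 : ¬ p ∣ 1 := by simpa using hp.one_lt.ne'
    interval_cases n
    · rw [map_sub, map_add, coeff_C_mul, coeff_C_mul, coeff_psU, coeff_psV, if_pos (dvd_zero p),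
        Nat.zero_div, zero_mul, coeff_zero_DeltaZ]
      simp
    · rw [map_sub, map_add, coeff_C_mul, coeff_C_mul, coeff_psU, coeff_psV, if_neg hp1,
        coeff_one_DeltaZ]
      simp)
  exact sub_eq_zero.mp h4

/-- `τ(p²) = τ(p)² - p^11` (from `T_p Δ = τ(p) Δ`: `IsQ.heckeT` at level one + `IsQ.eq_zero_of_sturm`
with `index_Gamma0_one`). -/
theorem tau_sq (p : ℕ) (hp : p.Prime) :
    DeltaZ.coeff (p * p) = DeltaZ.coeff p ^ 2 - (p : ℤ) ^ 11 := by
  have h := congrArg (fun φ : PowerSeries ℤ => φ.coeff p) (heckeT_DeltaZ p hp)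
  simp only [map_add, coeff_C_mul, coeff_psU, coeff_psV, dvd_refl, if_true, Nat.div_self hp.pos,
    coeff_one_DeltaZ] at h
  linear_combination h

/-- Compare the coefficients of `q` and `q^p` in `TR_Delta`. -/
theorem caseB (p : ℕ) [Fact p.Prime] {H ψ : PowerSeries ℤ} (hH : IsQ p 2 H) {u M : ℤ}
    (hHψ : H = C u + C M * ψ) : M ∣ u * (p : ℤ) ^ 11 * ((p : ℤ) + 1) := by
  have hp : p.Prime := Fact.out
  have hp1 : ¬ p ∣ 1 := by simpa using hp.one_lt.ne'
  have hT := TR_Delta p hH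
  have hU : psU p H = C u + C M * psU p ψ := by
    rw [hHψ, psU_add, psU_C hp.ne_zero, psU_C_mul]
  have hL : C ((p : ℤ) ^ 12) * (H * psV p DeltaZ) =
      C ((p : ℤ) ^ 12 * u) * psV p DeltaZ + C M * (C ((p : ℤ) ^ 12) * (ψ * psV p DeltaZ)) := by
    rw [hHψ, map_mul]; ring
  have hR : psU p (psU p H * DeltaZ) =
      C u * psU p DeltaZ + C M * psU p (psU p ψ * DeltaZ) := by
    rw [hU, add_mul, psU_add, mul_assoc, psU_C_mul, psU_C_mul]
  rw [hL, hR] at hT
  -- coefficient of `q`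
  have c1 := congrArg (fun φ : PowerSeries ℤ => φ.coeff 1) hT
  simp only [map_add, coeff_C_mul, coeff_psV, if_neg hp1, mul_zero, zero_add] at c1
  rw [coeff_psU, one_mul] at c1
  have d1 : M ∣ u * DeltaZ.coeff p := by
    refine ⟨(C ((p : ℤ) ^ 12) * (ψ * psV p DeltaZ)).coeff 1 -
      (psU p (psU p ψ * DeltaZ)).coeff 1, ?_⟩
    rw [coeff_C_mul]
    linear_combination -c1
  -- coefficient of `q^p`
  have cp := congrArg (fun φ : PowerSeries ℤ => φ.coeff p) hT
  simp only [map_add, coeff_C_mul, coeff_psV, dvd_refl, if_true, Nat.div_self hp.pos,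
    coeff_one_DeltaZ, mul_one] at cp
  rw [coeff_psU, tau_sq p hp] at cp
  obtain ⟨e, he⟩ := d1
  refine ⟨(psU p (psU p ψ * DeltaZ)).coeff p - (p : ℤ) ^ 12 * (ψ * psV p DeltaZ).coeff p +
    e * DeltaZ.coeff p, ?_⟩
  linear_combination cp + DeltaZ.coeff p * he

end

end Fermat.Agent.S16
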