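import Mathlib
import Fermat.Statements.S16
import Fermat.Statements.S21
import Fermat.Prelude.Sol.S_ModularForm_heckeT_slash_eq_self_of_mem_Gamma0

set_option autoImplicit false

open CongruenceSubgroup ModularCurve ModularCurve.Period ModularForm
open scoped MatrixGroups
open Matrix.SpecialLinearGroup (mapGL)
open P2MW.S_ModularForm_heckeT_slash_eq_self_of_mem_Gamma0.ModularForm.HeckeSlashInvariance

namespace Fermat.Agent.S16

noncomputable section

variable (p : ℕ) [Fact p.Prime]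

omit [Fact p.Prime] in
theorem eisensteinNumerator_dvd : eisensteinNumerator p ∣ p - 1 :=
  Nat.div_dvd_of_dvd (Nat.gcd_dvd_left _ _)

theorem eisensteinNumerator_pos : 0 < eisensteinNumerator p := by
  have hp : 0 < p - 1 := Nat.sub_pos_of_lt (Fact.out : p.Prime).one_lt
  exact Nat.div_pos (Nat.le_of_dvd hp (Nat.gcd_dvd_left _ _)) (Nat.gcd_pos_of_pos_left _ hp)

instance neZero_eisensteinNumerator : NeZero (eisensteinNumerator p) :=
  ⟨(eisensteinNumerator_pos p).ne'⟩

theorem card_additive_units : Nat.card (Additive (ZMod p)ˣ) = p - 1 := by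
  have h : Nat.card (Additive (ZMod p)ˣ) = Nat.card (ZMod p)ˣ := rfl
  rw [h, Nat.card_eq_fintype_card]
  exact ZMod.card_units p

theorem eisensteinNumerator_dvd_card :
    eisensteinNumerator p ∣ Nat.card (Additive (ZMod p)ˣ) := by
  rw [card_additive_units]
  exact eisensteinNumerator_dvd p

/-- The discrete logarithm modulo the Eisenstein numerator. -/
def chi : Additive (ZMod p)ˣ →+ ZMod (eisensteinNumerator p) :=
  (ZMod.castHom (eisensteinNumerator_dvd_card p) (ZMod (eisensteinNumerator p))).toAddMonoidHom.comp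
    (zmodAddCyclicAddEquiv (G := Additive (ZMod p)ˣ)
      (isAddCyclic_additive_iff.2 inferInstance)).symm.toAddMonoidHom

theorem chi_surjective : Function.Surjective (chi p) := by
  intro y
  obtain ⟨z, hz⟩ := ZMod.castHom_surjective (eisensteinNumerator_dvd_card p) y
  refine ⟨zmodAddCyclicAddEquiv (G := Additive (ZMod p)ˣ)
      (isAddCyclic_additive_iff.2 inferInstance) z, ?_⟩
  simp [chi, hz]

theorem dvd_of_dvd_twelve_mul (a : ℕ) (h : p - 1 ∣ 12 * a) : eisensteinNumerator p ∣ a := by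
  have hp : 0 < p - 1 := Nat.sub_pos_of_lt (Fact.out : p.Prime).one_lt
  have hg : 0 < Nat.gcd (p - 1) 12 := Nat.gcd_pos_of_pos_left _ hp
  have hcop : Nat.Coprime ((p - 1) / Nat.gcd (p - 1) 12) (12 / Nat.gcd (p - 1) 12) :=
    Nat.coprime_div_gcd_div_gcd hg
  have h1 : (p - 1) / Nat.gcd (p - 1) 12 * Nat.gcd (p - 1) 12 = p - 1 :=
    Nat.div_mul_cancel (Nat.gcd_dvd_left _ _)
  have h2 : 12 / Nat.gcd (p - 1) 12 * Nat.gcd (p - 1) 12 = 12 :=
    Nat.div_mul_cancel (Nat.gcd_dvd_right _ _)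
  have h3 : (p - 1) / Nat.gcd (p - 1) 12 * Nat.gcd (p - 1) 12 ∣
      (12 / Nat.gcd (p - 1) 12 * a) * Nat.gcd (p - 1) 12 := by
    rw [h1]
    calc p - 1 ∣ 12 * a := h
      _ = (12 / Nat.gcd (p - 1) 12 * Nat.gcd (p - 1) 12) * a := by rw [h2]
      _ = (12 / Nat.gcd (p - 1) 12 * a) * Nat.gcd (p - 1) 12 := by ring
  exact hcop.dvd_of_dvd_mul_left (Nat.dvd_of_mul_dvd_mul_right hg h3)

theorem chi_eq_zero_of_pow (u : (ZMod p)ˣ) (hu : u ^ 12 = 1) : chi p (Additive.ofMul u) = 0 := by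
  set e := zmodAddCyclicAddEquiv (G := Additive (ZMod p)ˣ)
      (isAddCyclic_additive_iff.2 inferInstance) with he
  set L := e.symm (Additive.ofMul u) with hL
  have h12 : (12 : ℕ) • L = 0 := by
    rw [hL, ← map_nsmul, ← ofMul_pow, hu, ofMul_one, map_zero]
  have hNZ : NeZero (Nat.card (Additive (ZMod p)ˣ)) := by
    rw [card_additive_units]
    exact ⟨(Nat.sub_pos_of_lt (Fact.out : p.Prime).one_lt).ne'⟩
  have h1 : ((12 * L.val : ℕ) : ZMod (Nat.card (Additive (ZMod p)ˣ))) = 0 := by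
    push_cast
    rw [ZMod.natCast_zmod_val]
    simpa using h12
  rw [ZMod.natCast_eq_zero_iff] at h1
  have h2 := dvd_of_dvd_twelve_mul p _ ((card_additive_units p) ▸ h1 : p - 1 ∣ 12 * L.val)
  show ZMod.castHom (eisensteinNumerator_dvd_card p) (ZMod (eisensteinNumerator p)) L = 0
  rw [ZMod.castHom_apply, ← ZMod.natCast_val, ZMod.natCast_eq_zero_iff]
  exact h2

/-- The upper left entry modulo `p`, as a monoid homomorphism. -/
def aHom : Gamma0 p →* ZMod p where
  toFun γ := (((γ : SL(2, ℤ)) 0 0 : ℤ) : ZMod p)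
  map_one' := by simp
  map_mul' γ δ := by
    have h : ((((δ : SL(2, ℤ)) 1 0 : ℤ)) : ZMod p) = 0 := Gamma0_mem.mp δ.2
    simp only [Subgroup.coe_mul, Matrix.SpecialLinearGroup.coe_mul, Matrix.mul_apply,
      Fin.sum_univ_two]
    push_cast
    rw [h, mul_zero, add_zero]

/-- The homomorphism `γ ↦ log (a mod p)`. -/
def phi : Additive (Gamma0 p) →+ ZMod (eisensteinNumerator p) :=
  (chi p).comp (MonoidHom.toAdditive (aHom p).toHomUnits)

theorem phi_apply (γ : Gamma0 p) :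
    phi p (Additive.ofMul γ) = chi p (Additive.ofMul ((aHom p).toHomUnits γ)) := rfl

theorem phi_eq_zero_of_pow (γ : Gamma0 p) (h : γ ^ 12 = 1) : phi p (Additive.ofMul γ) = 0 := by
  rw [phi_apply]
  apply chi_eq_zero_of_pow
  rw [← map_pow, h, map_one]

theorem coe_toHomUnits_aHom (γ : Gamma0 p) :
    (((aHom p).toHomUnits γ : (ZMod p)ˣ) : ZMod p) = (((γ : SL(2, ℤ)) 0 0 : ℤ) : ZMod p) := rfl

theorem isParabolicHom_phi : IsParabolicHom (Gamma0 p) (phi p) := by
  intro γ hγ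
  rw [phi_apply]
  apply chi_eq_zero_of_pow
  have h2 : ((aHom p).toHomUnits γ) ^ 2 = 1 := by
    ext
    push_cast
    rw [coe_toHomUnits_aHom]
    have hc : ((((γ : SL(2, ℤ)) 1 0 : ℤ)) : ZMod p) = 0 := Gamma0_mem.mp γ.2
    have hdet := congrArg (Int.cast : ℤ → ZMod p) (det_eq (γ : SL(2, ℤ)))
    rw [Matrix.trace_fin_two] at hγ
    have htr := congrArg (Int.cast : ℤ → ZMod p) hγ
    push_cast at hdet htr
    rw [hc, mul_zero, sub_zero] at hdet
    have h3 : ((((γ : SL(2, ℤ)) 0 0 : ℤ) : ZMod p) - (((γ : SL(2, ℤ)) 1 1 : ℤ) : ZMod p)) ^ 2 = 0 := by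
      linear_combination htr - 4 * hdet
    have h4 := sub_eq_zero.mp (pow_eq_zero_iff (two_ne_zero)|>.mp h3)
    rw [← h4] at hdet
    rw [sq, hdet]
  calc ((aHom p).toHomUnits γ) ^ 12 = (((aHom p).toHomUnits γ) ^ 2) ^ 6 := by rw [← pow_mul]
    _ = 1 := by rw [h2, one_pow]

theorem exists_phi_eq_one : ∃ γ : Gamma0 p, phi p (Additive.ofMul γ) = 1 := by
  obtain ⟨u, hu⟩ := chi_surjective p 1
  set a : ℕ := ((Additive.toMul u : (ZMod p)ˣ) : ZMod p).val with ha
  have ha' : (a : ZMod p) = ((Additive.toMul u : (ZMod p)ˣ) : ZMod p) := ZMod.natCast_zmod_val _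
  have hcop : a.Coprime p := by
    rw [← ZMod.isUnit_iff_coprime, ha']
    exact Units.isUnit _
  obtain ⟨x, y, hxy⟩ := Nat.isCoprime_iff_coprime.mpr hcop
  set g : SL(2, ℤ) := ⟨!![(a : ℤ), -y; (p : ℤ), x], by
    rw [Matrix.det_fin_two_of]; linear_combination hxy⟩ with hg
  have h00 : g 0 0 = a := rfl
  have h10 : g 1 0 = p := rfl
  refine ⟨⟨g, by rw [Gamma0_mem, h10]; simp⟩, ?_⟩
  rw [phi_apply, ← hu]
  congr 1
  apply congrArg Additive.ofMul
  ext
  rw [coe_toHomUnits_aHom]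
  show ((g 0 0 : ℤ) : ZMod p) = _
  rw [h00]
  exact_mod_cast ha'

/-- The upper left entry of the Hecke representative. -/
def repA (q : ℕ) (x : OnePoint (ZMod q)) : ℕ := x.elim q (fun _ => 1)

theorem heckeRep_apply_zero_zero {q : ℕ} (hq : q ≠ 0) (x : OnePoint (ZMod q)) :
    (heckeRep q x : Matrix (Fin 2) (Fin 2) ℝ) 0 0 = repA q x := by
  induction x using OnePoint.rec with
  | infty => rw [heckeRep_infty, val_heckeDiagMatrix hq]; simp [repA]
  | coe j => rw [heckeRep_coe, val_heckeMatrix hq]; simp [repA]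

theorem heckeRep_apply_one_zero {q : ℕ} (hq : q ≠ 0) (x : OnePoint (ZMod q)) :
    (heckeRep q x : Matrix (Fin 2) (Fin 2) ℝ) 1 0 = 0 := by
  induction x using OnePoint.rec with
  | infty => rw [heckeRep_infty, val_heckeDiagMatrix hq]; simp
  | coe j => rw [heckeRep_coe, val_heckeMatrix hq]; simp

theorem exists_heckeRep_apply_zero_one {q : ℕ} (hq : q ≠ 0) (x : OnePoint (ZMod q)) :
    ∃ b : ℤ, (heckeRep q x : Matrix (Fin 2) (Fin 2) ℝ) 0 1 = b := by
  induction x using OnePoint.rec with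
  | infty => exact ⟨0, by rw [heckeRep_infty, val_heckeDiagMatrix hq]; simp⟩
  | coe j => exact ⟨j.val, by rw [heckeRep_coe, val_heckeMatrix hq]; simp⟩

theorem aHom_mul_repA {q : ℕ} (hq : q ≠ 0) (γ c : Gamma0 p) (x y : OnePoint (ZMod q))
    (h : heckeRep q x * mapGL ℝ (γ : SL(2, ℤ)) = mapGL ℝ (c : SL(2, ℤ)) * heckeRep q y) :
    aHom p c * (repA q y : ZMod p) = (repA q x : ZMod p) * aHom p γ := by
  have h1 := congrArg (fun M : GL (Fin 2) ℝ => (M : Matrix (Fin 2) (Fin 2) ℝ) 0 0) h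
  obtain ⟨b, hb⟩ := exists_heckeRep_apply_zero_one hq x
  simp only [Units.val_mul, Matrix.mul_apply, Fin.sum_univ_two, heckeRep_apply_zero_zero hq,
    heckeRep_apply_one_zero hq, hb, mapGL_apply, mul_zero, add_zero] at h1
  have h2 : (repA q x : ℤ) * (γ : SL(2, ℤ)) 0 0 + b * (γ : SL(2, ℤ)) 1 0 =
      (c : SL(2, ℤ)) 0 0 * (repA q y : ℤ) := by exact_mod_cast h1
  have h3 := congrArg (Int.cast : ℤ → ZMod p) h2
  have hc : ((((γ : SL(2, ℤ)) 1 0 : ℤ)) : ZMod p) = 0 := Gamma0_mem.mp γ.2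
  push_cast at h3
  rw [hc, mul_zero, add_zero] at h3
  exact h3.symm

/-- `T_q φ = (1 + q) φ`. -/
theorem sum_phi_heckeT {q : ℕ} [NeZero q] (hq : q.Prime) (hqp : ¬ q ∣ p) (γ : Gamma0 p)
    (σ : Equiv.Perm (OnePoint (ZMod q))) (c : OnePoint (ZMod q) → Gamma0 p)
    (h : ∀ x : OnePoint (ZMod q), heckeRep q x * mapGL ℝ (γ : SL(2, ℤ)) =
      mapGL ℝ (c x : SL(2, ℤ)) * heckeRep q (σ x)) :
    ∑ x, phi p (Additive.ofMul (c x)) = (1 + (q : ZMod (eisensteinNumerator p))) *
      phi p (Additive.ofMul γ) := by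
  have hcop : q.Coprime p := (Nat.Prime.coprime_iff_not_dvd hq).mpr hqp
  set U : OnePoint (ZMod q) → (ZMod p)ˣ := fun x => x.elim (ZMod.unitOfCoprime q hcop) (fun _ => 1)
    with hU
  have hUA : ∀ x, ((U x : (ZMod p)ˣ) : ZMod p) = (repA q x : ZMod p) := by
    intro x
    induction x using OnePoint.rec with
    | infty => simp [hU, repA]
    | coe j => simp [hU, repA]
  have h1 : ∀ x, (aHom p).toHomUnits (c x) * U (σ x) = U x * (aHom p).toHomUnits γ := by
    intro x
    ext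
    push_cast
    rw [hUA, hUA]
    exact aHom_mul_repA p (NeZero.ne q) γ (c x) x (σ x) (h x)
  have h2 : ∀ x, phi p (Additive.ofMul (c x)) = chi p (Additive.ofMul (U x)) -
      chi p (Additive.ofMul (U (σ x))) + phi p (Additive.ofMul γ) := by
    intro x
    have := congrArg (fun u => chi p (Additive.ofMul u)) (h1 x)
    simp only [ofMul_mul, map_add] at this
    rw [phi_apply, phi_apply]
    linear_combination this
  simp only [h2, Finset.sum_add_distrib, Finset.sum_sub_distrib]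
  rw [Equiv.sum_comp σ (fun x => chi p (Additive.ofMul (U x))), sub_self, zero_add,
    Finset.sum_const, Finset.card_univ]
  have hcard : Fintype.card (OnePoint (ZMod q)) = q + 1 := by
    have : Fintype.card (OnePoint (ZMod q)) = Fintype.card (Option (ZMod q)) := rfl
    rw [this, Fintype.card_option, ZMod.card]
  rw [hcard, nsmul_eq_mul]
  push_cast
  ring

/-- `U_p φ = φ`. -/
theorem sum_phi_heckeU (γ : Gamma0 p) (σ : Equiv.Perm (ZMod p)) (c : ZMod p → Gamma0 p)
    (h : ∀ x : ZMod p, heckeMatrix p x.val * mapGL ℝ (γ : SL(2, ℤ)) =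
      mapGL ℝ (c x : SL(2, ℤ)) * heckeMatrix p (σ x).val) :
    ∑ x, phi p (Additive.ofMul (c x)) = phi p (Additive.ofMul γ) := by
  have hp0 : p ≠ 0 := (Fact.out : p.Prime).ne_zero
  have h1 : ∀ x, (aHom p).toHomUnits (c x) = (aHom p).toHomUnits γ := by
    intro x
    ext
    have := aHom_mul_repA p hp0 γ (c x) (x : OnePoint (ZMod p)) ((σ x : ZMod p) : OnePoint (ZMod p))
      (h x)
    simpa [repA] using this
  simp only [phi_apply, h1, Finset.sum_const, Finset.card_univ, ZMod.card, nsmul_eq_mul]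
  have hp1 : (p : ZMod (eisensteinNumerator p)) = 1 := by
    have h2 : ((p - 1 : ℕ) : ZMod (eisensteinNumerator p)) = 0 :=
      (ZMod.natCast_eq_zero_iff _ _).mpr (eisensteinNumerator_dvd p)
    rw [Nat.cast_sub (Fact.out : p.Prime).one_lt.le] at h2
    simpa using sub_eq_zero.mp h2
  rw [hp1, one_mul]

end

end Fermat.Agent.S16
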