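import Fermat.Agent.S16.CohLiftSurj

set_option autoImplicit false

open Module CongruenceSubgroup ModularGroup
open scoped MatrixGroups
open Fermat.Agent.S21.Up
open ModularCurve ModularCurve.Period

namespace Fermat.Agent.S16.CohLift

theorem finrank_parabolicHoms_eq (N : ℕ) [NeZero N] :
    (finrank ℂ (parabolicHoms ℂ (Gamma0 N) ℂ) : ℚ) = 2 * genusFormula N := by
  obtain ⟨hinj, hrange⟩ := Fermat.Agent.S21.result N
  haveI := Fermat.Agent.S21.finite_cuspForm N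
  rw [← hrange, LinearMap.finrank_range_of_inj hinj, Module.finrank_prod, ← Fermat.Agent.S20.result N]
  push_cast
  ring

theorem hs_quot (N : ℕ) (x : SL(2, ℤ) ⧸ Gamma0 N) : S • S • x = x := by
  rw [← mul_smul, SS_eq, neg_one_smul_quot]

theorem hu_quot (N : ℕ) (x : SL(2, ℤ) ⧸ Gamma0 N) : (S * T) • (S * T) • (S * T) • x = x := by
  rw [← mul_smul, ← mul_smul, STcube_eq, neg_one_smul_quot]

theorem Psi_surjOn_Gamma0 (N : ℕ) [NeZero N] [Fintype (SL(2, ℤ) ⧸ Gamma0 N)]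
    (q : ((SL(2, ℤ) ⧸ Gamma0 N) → ℂ) × ((SL(2, ℤ) ⧸ Gamma0 N) → ℂ))
    (hq : q ∈ spE (X := SL(2, ℤ) ⧸ Gamma0 N) S T N) :
    ∃ p, Psi (Gamma0 N) (parabolicHoms ℂ (Gamma0 N) ℂ) S T p = q := by
  classical
  haveI := Fermat.Agent.S21.finite_parabolicHoms N
  refine Psi_surjOn (Gamma0 N) S T SpecialLinearGroup.SL2Z_generators (hs_quot N) (hu_quot N) N
    (T_pow_smul_quot N) (parabolicHoms ℂ (Gamma0 N) ℂ) ?_ ?_ q hq
  · intro φ hφ z hz a γ hγ
    apply hφ γ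
    rw [hγ, trace_conj]
    rcases hz with rfl | rfl | rfl
    · rw [SS_eq]; simp
    · rw [STcube_eq]; simp
    · rw [coe_T_pow']; simp
  · have hE := finrank_spE_le (X := SL(2, ℤ) ⧸ Gamma0 N) S T SpecialLinearGroup.SL2Z_generators
      (hs_quot N) (hu_quot N) N (Nat.pos_of_ne_zero (NeZero.ne N))
    have hA := finrank_spA (X := SL(2, ℤ) ⧸ Gamma0 N) S (hs_quot N)
    have hB := finrank_spB (X := SL(2, ℤ) ⧸ Gamma0 N) (S * T) (hu_quot N)
    have hT' : numOrb T (SL(2, ℤ) ⧸ Gamma0 N) = cuspCount N := Fermat.Agent.S20.card_orbits_T N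
    have hd := finrank_parabolicHoms_eq N
    rw [← Nat.card_eq_fintype_card] at hA hB ⊢
    rw [Fermat.Agent.S20.card_fixedBy_S] at hA
    rw [Fermat.Agent.S20.card_fixedBy_ST] at hB
    rw [Fermat.Agent.S20.card_quotient_Gamma0] at hA hB ⊢
    rw [hT'] at hE
    unfold genusFormula at hd
    set μ := dedekindPsi N
    set f2 := nuTwo N
    set f3 := nuThree N
    set c := cuspCount N
    set dA := finrank ℂ (spA (X := SL(2, ℤ) ⧸ Gamma0 N) S)
    set dB := finrank ℂ (spB (X := SL(2, ℤ) ⧸ Gamma0 N) (S * T))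
    set dE := finrank ℂ (spE (X := SL(2, ℤ) ⧸ Gamma0 N) S T N)
    set d := finrank ℂ (parabolicHoms ℂ (Gamma0 N) ℂ)
    have hA' : 2 * (dA : ℚ) = (μ : ℚ) - f2 := by
      have h : ((2 * dA + f2 : ℕ) : ℂ) = (μ : ℂ) := by
        push_cast; rw [hA]; ring
      have h1 : 2 * dA + f2 = μ := by exact_mod_cast h
      have h2 : ((2 * dA + f2 : ℕ) : ℚ) = (μ : ℚ) := by rw [h1]
      push_cast at h2
      linarith
    have hB' : 3 * (dB : ℚ) = 2 * (μ : ℚ) - 2 * f3 := by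
      have h : ((3 * dB + 2 * f3 : ℕ) : ℂ) = ((2 * μ : ℕ) : ℂ) := by
        push_cast; rw [hB]; ring
      have h1 : 3 * dB + 2 * f3 = 2 * μ := by exact_mod_cast h
      have h2 : ((3 * dB + 2 * f3 : ℕ) : ℚ) = ((2 * μ : ℕ) : ℚ) := by rw [h1]
      push_cast at h2
      linarith
    have hE' : (dE : ℚ) + c ≤ (dA : ℚ) + dB + 1 := by exact_mod_cast hE
    have : (dE : ℚ) + 1 ≤ (d : ℚ) + μ := by linarith
    exact_mod_cast this

end Fermat.Agent.S16.CohLift
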