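import Fermat.Agent.S21

set_option autoImplicit false

open Module CongruenceSubgroup ModularGroup
open scoped MatrixGroups
open Fermat.Agent.S21.Up

namespace Fermat.Agent.S16.CohLift

section General

variable {G : Type*} [Group G] (Γ : Subgroup G) [Fintype (G ⧸ Γ)]

theorem Psi_mem_spE (s t : G)
    (hs : ∀ x : G ⧸ Γ, s • s • x = x)
    (hu : ∀ x : G ⧸ Γ, (s * t) • (s * t) • (s * t) • x = x)
    (n : ℕ) (ht : ∀ x : G ⧸ Γ, t ^ n • x = x)
    (Hp : Submodule ℂ (Additive Γ →+ ℂ))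
    (hHp : ∀ φ ∈ Hp, ∀ z ∈ ({s * s, (s * t) * (s * t) * (s * t), t ^ n} : Set G),
      ∀ (a : G) (γ : Γ), (γ : G) = a⁻¹ * z * a → φ (Additive.ofMul γ) = 0) (p) :
    Psi Γ Hp s t p ∈ spE (X := G ⧸ Γ) s t n := by
  have hcoc : ∀ (φ : Additive Γ →+ ℂ) (v : (G ⧸ Γ) → ℂ),
      IsCoc (fun g : G => Phi Γ φ g + (R g v - v)) :=
    fun φ v => (isCoc_Phi Γ φ).add (isCoc_cob v)
  have hvanish : ∀ φ ∈ Hp, ∀ (v : (G ⧸ Γ) → ℂ),
      ∀ z ∈ ({s * s, (s * t) * (s * t) * (s * t), t ^ n} : Set G), (∀ x : G ⧸ Γ, z • x = x) →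
      Phi Γ φ z + (R z v - v) = 0 := by
    intro φ hφ v z hz hfix
    ext x
    simp only [Pi.add_apply, Pi.sub_apply, S21.Up.R_apply, hfix, sub_self, add_zero, Pi.zero_apply, Phi]
    exact hHp φ hφ z hz _ _ (gam_of_fixed Γ z x (hfix x))
  have hfix2 : ∀ x : G ⧸ Γ, (s * s) • x = x := fun x => by rw [mul_smul, hs]
  have hfix3 : ∀ x : G ⧸ Γ, ((s * t) * (s * t) * (s * t)) • x = x := fun x => by
    rw [mul_smul, mul_smul, hu]
  exact (hcoc p.1.1 p.2.1).mem_spE s t n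
    (hvanish _ p.1.2 _ _ (by simp) hfix2) (hvanish _ p.1.2 _ _ (by simp) hfix3)
    (hvanish _ p.1.2 _ _ (by simp) ht)

theorem Psi_injective (s t : G) (hgen : Subgroup.closure {s, t} = ⊤)
    (Hp : Submodule ℂ (Additive Γ →+ ℂ)) : Function.Injective (Psi Γ Hp s t) := by
  set x₀ : G ⧸ Γ := ((1 : G) : G ⧸ Γ) with hx₀
  have hcoc : ∀ (φ : Additive Γ →+ ℂ) (v : (G ⧸ Γ) → ℂ),
      IsCoc (fun g : G => Phi Γ φ g + (R g v - v)) :=
    fun φ v => (isCoc_Phi Γ φ).add (isCoc_cob v)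
  rw [← LinearMap.ker_eq_bot, LinearMap.ker_eq_bot']
  intro p hp
  have hp1 : Phi Γ p.1.1 s + (R s p.2.1 - p.2.1) = 0 := congrArg Prod.fst hp
  have hp2 : Phi Γ p.1.1 (s * t) + (R (s * t) p.2.1 - p.2.1) = 0 := congrArg Prod.snd hp
  have hc := hcoc p.1.1 p.2.1
  have hpt : Phi Γ p.1.1 t + (R t p.2.1 - p.2.1) = 0 := by
    have := hc s t
    simp only [hp1, hp2, map_zero, zero_add] at this
    exact this.symm
  have hall := hc.eq_zero hgen hp1 hpt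
  have hφ : p.1.1 = 0 := by
    refine AddMonoidHom.ext fun γ => ?_
    have h1 := congrFun (hall ((Additive.toMul γ : Γ) : G)) x₀
    have hfix : ((Additive.toMul γ : Γ) : G) • x₀ = x₀ := by
      rw [hx₀, MulAction.Quotient.smul_coe, smul_eq_mul, mul_one, QuotientGroup.eq]
      simp
    simp only [Pi.add_apply, Pi.sub_apply, S21.Up.R_apply, hfix, sub_self, add_zero,
      Pi.zero_apply] at h1
    rw [hx₀, Phi_mem_base] at h1
    simpa using h1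
  have hv : p.2.1 = 0 := by
    ext x
    obtain ⟨g, rfl⟩ := MulAction.exists_smul_eq G x₀ x
    have h1 := congrFun (hall g) x₀
    have hzero : Phi Γ p.1.1 g = 0 := by
      rw [hφ]; rfl
    have h0 : p.2.1 x₀ = 0 := p.2.2
    simp only [hzero, Pi.add_apply, Pi.sub_apply, S21.Up.R_apply, Pi.zero_apply, zero_add, h0,
      sub_zero] at h1
    simpa using h1
  exact Prod.ext (Subtype.ext hφ) (Subtype.ext hv)

theorem Psi_surjOn (s t : G) (hgen : Subgroup.closure {s, t} = ⊤)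
    (hs : ∀ x : G ⧸ Γ, s • s • x = x)
    (hu : ∀ x : G ⧸ Γ, (s * t) • (s * t) • (s * t) • x = x)
    (n : ℕ) (ht : ∀ x : G ⧸ Γ, t ^ n • x = x)
    (Hp : Submodule ℂ (Additive Γ →+ ℂ)) [Module.Finite ℂ Hp]
    (hHp : ∀ φ ∈ Hp, ∀ z ∈ ({s * s, (s * t) * (s * t) * (s * t), t ^ n} : Set G),
      ∀ (a : G) (γ : Γ), (γ : G) = a⁻¹ * z * a → φ (Additive.ofMul γ) = 0)
    (hdim : finrank ℂ (spE (X := G ⧸ Γ) s t n) + 1 ≤ finrank ℂ Hp + Fintype.card (G ⧸ Γ))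
    (q : ((G ⧸ Γ) → ℂ) × ((G ⧸ Γ) → ℂ)) (hq : q ∈ spE (X := G ⧸ Γ) s t n) :
    ∃ p, Psi Γ Hp s t p = q := by
  classical
  set x₀ : G ⧸ Γ := ((1 : G) : G ⧸ Γ) with hx₀
  set V₀ := LinearMap.ker (LinearMap.proj (R := ℂ) (φ := fun _ : G ⧸ Γ => ℂ) x₀) with hV₀
  have hmem := Psi_mem_spE Γ s t hs hu n ht Hp hHp
  have hinj := Psi_injective Γ s t hgen Hp
  let f : (Hp × V₀) →ₗ[ℂ] spE (X := G ⧸ Γ) s t n :=
    LinearMap.codRestrict (spE (X := G ⧸ Γ) s t n) (Psi Γ Hp s t) hmem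
  have hfinj : Function.Injective f := by
    intro p q hpq
    exact hinj (congrArg Subtype.val hpq)
  have h2 := LinearMap.finrank_range_add_finrank_ker
    (LinearMap.proj (R := ℂ) (φ := fun _ : G ⧸ Γ => ℂ) x₀)
  rw [finrank_fintype_fun_eq_card, ← hV₀] at h2
  have h3 : finrank ℂ (LinearMap.range (LinearMap.proj (R := ℂ) (φ := fun _ : G ⧸ Γ => ℂ) x₀))
      ≤ 1 := by
    have := Submodule.finrank_le
      (LinearMap.range (LinearMap.proj (R := ℂ) (φ := fun _ : G ⧸ Γ => ℂ) x₀))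
    simpa using this
  have hle : finrank ℂ (spE (X := G ⧸ Γ) s t n) ≤ finrank ℂ (Hp × V₀) := by
    rw [Module.finrank_prod]
    omega
  have hge : finrank ℂ (Hp × V₀) ≤ finrank ℂ (spE (X := G ⧸ Γ) s t n) :=
    LinearMap.finrank_le_finrank_of_injective hfinj
  have hsurj : Function.Surjective f :=
    (LinearMap.injective_iff_surjective_of_finrank_eq_finrank (le_antisymm hge hle)).1 hfinj
  obtain ⟨p, hp⟩ := hsurj ⟨q, hq⟩
  exact ⟨p, congrArg Subtype.val hp⟩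

end General

end Fermat.Agent.S16.CohLift
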