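import Mathlib
import Fermat.Statements.S16
import Fermat.Agent.S16.CohPeriod
import Fermat.Agent.S16.CohChar
import Fermat.Agent.S21

set_option autoImplicit false

open CongruenceSubgroup ModularCurve ModularCurve.Period ModularForm
open scoped MatrixGroups
open Matrix.SpecialLinearGroup (mapGL)
open P2MW.S_ModularForm_heckeT_slash_eq_self_of_mem_Gamma0.ModularForm.HeckeSlashInvariance

namespace Fermat.Agent.S16

noncomputable section

variable (p : ℕ) [Fact p.Prime]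

instance neZero_of_fact_prime : NeZero p := ⟨(Fact.out : p.Prime).ne_zero⟩

/-- `ψ` is integer valued and congruent to `k φ` modulo the Eisenstein numerator. -/
def IntCong (ψ : Additive (Gamma0 p) →+ ℂ) (k : ZMod (eisensteinNumerator p)) : Prop :=
  ∀ γ : Gamma0 p, ∃ m : ℤ, ψ (Additive.ofMul γ) = m ∧
    (m : ZMod (eisensteinNumerator p)) = k * phi p (Additive.ofMul γ)

variable {p}

theorem IntCong.add {ψ ψ' : Additive (Gamma0 p) →+ ℂ} {k k' : ZMod (eisensteinNumerator p)}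
    (h : IntCong p ψ k) (h' : IntCong p ψ' k') : IntCong p (ψ + ψ') (k + k') := by
  intro γ
  obtain ⟨m, hm, hm'⟩ := h γ
  obtain ⟨m₂, hm₂, hm₂'⟩ := h' γ
  refine ⟨m + m₂, by rw [AddMonoidHom.add_apply, hm, hm₂]; push_cast; ring, ?_⟩
  push_cast
  rw [hm', hm₂']
  ring

theorem IntCong.smul {ψ : Additive (Gamma0 p) →+ ℂ} {k : ZMod (eisensteinNumerator p)}
    (h : IntCong p ψ k) (a : ℤ) : IntCong p ((a : ℂ) • ψ) (a * k) := by
  intro γ
  obtain ⟨m, hm, hm'⟩ := h γ
  refine ⟨a * m, by rw [AddMonoidHom.smul_apply, hm]; push_cast; simp, ?_⟩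
  push_cast
  rw [hm']
  ring

theorem IntCong.sum {ι : Type*} [Fintype ι] {ψ ψ' : Additive (Gamma0 p) →+ ℂ}
    {k e : ZMod (eisensteinNumerator p)} (h : IntCong p ψ k)
    (H : ∀ γ : Gamma0 p, ∃ c : ι → Gamma0 p,
      ψ' (Additive.ofMul γ) = ∑ x, ψ (Additive.ofMul (c x)) ∧
      ∑ x, phi p (Additive.ofMul (c x)) = e * phi p (Additive.ofMul γ)) :
    IntCong p ψ' (e * k) := by
  intro γ
  obtain ⟨c, hc, hc'⟩ := H γ
  choose m hm hm' using fun x => h (c x)
  refine ⟨∑ x, m x, by rw [hc]; push_cast; exact Finset.sum_congr rfl fun x _ => hm x, ?_⟩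
  push_cast
  simp only [hm', ← Finset.mul_sum, hc']
  ring

theorem intCong_heckeT {q : ℕ} (hq : q.Prime) (hqp : ¬ q ∣ p) (f g : CuspForm (Gamma0 p) 2)
    {k : ZMod (eisensteinNumerator p)} (h : IntCong p (periodHomPair p (f, g)) k) :
    IntCong p (periodHomPair p (CuspForm.heckeTLin 2 hq hqp f, CuspForm.heckeTLin 2 hq hqp g))
      ((1 + (q : ZMod (eisensteinNumerator p))) * k) := by
  have : Fact q.Prime := ⟨hq⟩
  refine h.sum (ι := OnePoint (ZMod q)) fun γ => ?_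
  have hcN : (p : ℤ) ∣ (γ : SL(2, ℤ)) 1 0 :=
    (ZMod.intCast_zmod_eq_zero_iff_dvd _ _).mp (Gamma0_mem.mp γ.2)
  choose g' hg' hmul using fun x => heckeRep_mul hqp (γ : SL(2, ℤ)) hcN x
  set c : OnePoint (ZMod q) → Gamma0 p := fun x => ⟨g' x, Gamma0_mem.mpr
    ((ZMod.intCast_zmod_eq_zero_iff_dvd _ _).mpr (hg' x))⟩ with hc
  exact ⟨c, periodHomPair_heckeT hq hqp f g γ (MulAction.toPerm (redMatrix q (γ : SL(2, ℤ)))) c hmul,
    sum_phi_heckeT p hq hqp γ (MulAction.toPerm (redMatrix q (γ : SL(2, ℤ)))) c hmul⟩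

theorem intCong_heckeU (hpp : p ∣ p) (f g : CuspForm (Gamma0 p) 2)
    {k : ZMod (eisensteinNumerator p)} (h : IntCong p (periodHomPair p (f, g)) k) :
    IntCong p (periodHomPair p (CuspForm.heckeULin 2 hpp f, CuspForm.heckeULin 2 hpp g))
      (1 * k) := by
  refine h.sum (ι := ZMod p) fun γ => ?_
  have hcN : (p : ℤ) ∣ (γ : SL(2, ℤ)) 1 0 :=
    (ZMod.intCast_zmod_eq_zero_iff_dvd _ _).mp (Gamma0_mem.mp γ.2)
  choose g' hg' hmul using fun x => heckeMatrix_mul_of_dvd (γ : SL(2, ℤ)) hcN x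
  set c : ZMod p → Gamma0 p := fun x => ⟨g' x, by
    rw [Gamma0_mem, hg']
    push_cast
    rw [Gamma0_mem.mp γ.2, mul_zero]⟩ with hc
  refine ⟨c, periodHomPair_heckeU hpp f g γ _ c hmul, ?_⟩
  rw [one_mul]
  exact sum_phi_heckeU p γ _ c hmul

/-- The endomorphism of cusp forms attached to an abstract Hecke polynomial. -/
abbrev tEnd (P : HeckeAlg) : Module.End ℂ (CuspForm (Gamma0 p) 2) :=
  ((CuspForm.heckeEvalForms p 2 P : CuspForm.heckeAlgebra p 2 ∅) :
    Module.End ℂ (CuspForm (Gamma0 p) 2))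

theorem intCong_gen (ℓ : Nat.Primes) (f g : CuspForm (Gamma0 p) 2)
    {k : ZMod (eisensteinNumerator p)} (h : IntCong p (periodHomPair p (f, g)) k) :
    IntCong p (periodHomPair p (tEnd (MvPolynomial.X ℓ) f, tEnd (MvPolynomial.X ℓ) g))
      (((eisensteinSystem p ℓ : ℤ) : ZMod (eisensteinNumerator p)) * k) := by
  by_cases hℓ : (ℓ : ℕ) ∣ p
  · have e1 : (tEnd (MvPolynomial.X ℓ) : Module.End ℂ (CuspForm (Gamma0 p) 2)) =
        CuspForm.heckeULin 2 hℓ := by
      have := CuspForm.heckeEvalForms_heckeGen_of_dvd (k := 2) hℓ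
      rw [heckeGen] at this
      rw [tEnd, this, CuspForm.heckeAlgebra.coe_U]
    rw [e1, eisensteinSystem_of_dvd hℓ]
    have hqp : (ℓ : ℕ) = p := (Nat.prime_dvd_prime_iff_eq ℓ.2 Fact.out).mp hℓ
    obtain ⟨q, hq⟩ := ℓ
    simp only at hqp hℓ ⊢
    subst hqp
    simpa using intCong_heckeU hℓ f g h
  · have e1 : (tEnd (MvPolynomial.X ℓ) : Module.End ℂ (CuspForm (Gamma0 p) 2)) =
        CuspForm.heckeTLin 2 ℓ.2 hℓ := by
      have := CuspForm.heckeEvalForms_heckeGen_of_not_dvd (k := 2) hℓ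
      rw [heckeGen] at this
      rw [tEnd, this, CuspForm.heckeAlgebra.coe_T]
    rw [e1, eisensteinSystem_of_not_dvd hℓ]
    simpa using intCong_heckeT ℓ.2 hℓ f g h

theorem intCong_tEnd (P : HeckeAlg) : ∀ (f g : CuspForm (Gamma0 p) 2)
    (k : ZMod (eisensteinNumerator p)), IntCong p (periodHomPair p (f, g)) k →
    IntCong p (periodHomPair p (tEnd P f, tEnd P g))
      (((MvPolynomial.eval (eisensteinSystem p) P : ℤ) : ZMod (eisensteinNumerator p)) * k) := by
  induction P using MvPolynomial.induction_on with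
  | C a =>
    intro f g k h
    have e1 : (tEnd (MvPolynomial.C a) : Module.End ℂ (CuspForm (Gamma0 p) 2)) =
        (a : ℂ) • LinearMap.id := by
      rw [tEnd, CuspForm.heckeEvalForms_C]
      ext f z
      simp
    have e2 : periodHomPair p (tEnd (MvPolynomial.C a) f, tEnd (MvPolynomial.C a) g) =
        (a : ℂ) • periodHomPair p (f, g) := by
      rw [e1, ← map_smul]
      rfl
    rw [e2, MvPolynomial.eval_C]
    exact h.smul a
  | add P Q hP hQ =>
    intro f g k h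
    have e2 : periodHomPair p (tEnd (P + Q) f, tEnd (P + Q) g) =
        periodHomPair p (tEnd P f, tEnd P g) + periodHomPair p (tEnd Q f, tEnd Q g) := by
      rw [← map_add]
      simp [tEnd]
    rw [e2, map_add]
    push_cast
    rw [add_mul]
    exact (hP f g k h).add (hQ f g k h)
  | mul_X P ℓ hP =>
    intro f g k h
    have e2 : ∀ f : CuspForm (Gamma0 p) 2,
        tEnd (P * MvPolynomial.X ℓ) f = tEnd P (tEnd (MvPolynomial.X ℓ) f) := by
      intro f
      simp [tEnd]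
    rw [e2, e2, map_mul, MvPolynomial.eval_X]
    push_cast
    rw [mul_assoc]
    exact hP _ _ _ (intCong_gen ℓ f g h)

/-- The lower bound, assuming the existence of an integral parabolic lift of `φ`. -/
theorem eis_dvd_of_lift
    (hlift : ∃ ψ ∈ parabolicHoms ℂ (Gamma0 p) ℂ,
      ∀ γ, ∃ m : ℤ, ψ γ = (m : ℂ) ∧ (m : ZMod (eisensteinNumerator p)) = phi p γ)
    (P : HeckeAlg) (hP : CuspForm.heckeEvalForms p 2 P = 0) :
    ((eisensteinNumerator p : ℕ) : ℤ) ∣ MvPolynomial.eval (eisensteinSystem p) P := by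
  obtain ⟨ψ, hψ, hint⟩ := hlift
  rw [← (S21.result p).2] at hψ
  obtain ⟨⟨f, g⟩, rfl⟩ := hψ
  have h1 : IntCong p (periodHomPair p (f, g)) 1 := by
    intro γ
    obtain ⟨m, hm, hm'⟩ := hint (Additive.ofMul γ)
    exact ⟨m, hm, by rw [hm', one_mul]⟩
  have h2 := intCong_tEnd P f g 1 h1
  have h3 : (tEnd P : Module.End ℂ (CuspForm (Gamma0 p) 2)) = 0 := by
    rw [tEnd, hP]; rfl
  obtain ⟨γ, hγ⟩ := exists_phi_eq_one p
  obtain ⟨m, hm, hm'⟩ := h2 γ
  rw [h3] at hm
  have h4 : periodHomPair p ((0 : Module.End ℂ (CuspForm (Gamma0 p) 2)) f,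
      (0 : Module.End ℂ (CuspForm (Gamma0 p) 2)) g) = 0 := by
    have : ((0 : Module.End ℂ (CuspForm (Gamma0 p) 2)) f,
      (0 : Module.End ℂ (CuspForm (Gamma0 p) 2)) g) = 0 := rfl
    rw [this, map_zero]
  rw [h4] at hm
  have hm0 : m = 0 := by
    have : (m : ℂ) = 0 := hm.symm
    exact_mod_cast this
  rw [hm0, hγ, mul_one, mul_one, Int.cast_zero] at hm'
  exact (ZMod.intCast_zmod_eq_zero_iff_dvd _ _).mp hm'.symm

end

end Fermat.Agent.S16
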