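import Fermat.Agent.S16.IsQ

/-! # The sharp Sturm bound modulo a prime, at level `Γ₀(N)`, by counting -/

set_option autoImplicit false

namespace Fermat.Agent.S16

open CongruenceSubgroup UpperHalfPlane ModularForm
open scoped MatrixGroups ModularForm Manifold

noncomputable section

/-- reduction of integral power series modulo `ℓ` -/
abbrev red (ℓ : ℕ) : PowerSeries ℤ →+* PowerSeries (ZMod ℓ) :=
  PowerSeries.map (Int.castRingHom (ZMod ℓ))

variable {N : ℕ} [NeZero N]

/-- the `n`-th `q`-expansion coefficient as a linear functional -/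
def coeffLin (N : ℕ) (K : ℤ) (n : ℕ) : ModularForm (Gamma0 N) K →ₗ[ℂ] ℂ where
  toFun F := (qExpansion 1 F).coeff n
  map_add' F G := by
    rw [FunLike.coe_add, ModularForm.qExpansion_add one_pos (one_mem_strictPeriods_Gamma0 N) F G,
      map_add]
  map_smul' c F := by
    rw [FunLike.coe_smul, ModularForm.qExpansion_smul one_pos (one_mem_strictPeriods_Gamma0 N)]
    simp

/-- the first `r` coefficients -/
def coeffsLin (N : ℕ) (K : ℤ) (r : ℕ) : ModularForm (Gamma0 N) K →ₗ[ℂ] (Fin r → ℂ) :=
  LinearMap.pi fun j => coeffLin N K j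

theorem coeffsLin_injective (K : ℤ) :
    Function.Injective (coeffsLin N K ((K * (Gamma0 N).index).toNat / 12 + 1)) := by
  rw [← LinearMap.ker_eq_bot, LinearMap.ker_eq_bot']
  intro F hF
  refine ModularForm.sturm_bound_Gamma0 N F fun n hn => ?_
  exact congrFun hF ⟨n, Nat.lt_succ_of_le hn⟩

/-- **Triangular families**: `r` integral forms of weight `K` whose reductions mod `ℓ` have orders
`0, 1, …, r - 1` force `r ≤ ⌊K · index / 12⌋ + 1`. -/
theorem card_le_of_triangular (ℓ : ℕ) [Fact ℓ.Prime] (K : ℤ) (r : ℕ) (Φ : Fin r → PowerSeries ℤ)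
    (hΦ : ∀ i, IsQ N K (Φ i)) (hord : ∀ i, (red ℓ (Φ i)).order = (i : ℕ)) :
    r ≤ (K * (Gamma0 N).index).toNat / 12 + 1 := by
  choose F hF using hΦ
  -- the coefficient matrix
  set A : Matrix (Fin r) (Fin r) ℤ := Matrix.of fun i j => (Φ i).coeff (j : ℕ) with hA
  have hdet : A.det ≠ 0 := by
    intro h0
    have h1 : (A.map (Int.castRingHom (ZMod ℓ))).det = 0 := by
      rw [← RingHom.mapMatrix_apply, ← RingHom.map_det, h0, map_zero]
    have htri : (A.map (Int.castRingHom (ZMod ℓ))).BlockTriangular id := by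
      intro i j hij
      have : (red ℓ (Φ i)).coeff (j : ℕ) = 0 := by
        apply PowerSeries.coeff_of_lt_order
        rw [hord i]
        exact_mod_cast hij
      simpa [hA] using this
    rw [Matrix.det_of_isUpperTriangular htri, Finset.prod_eq_zero_iff] at h1
    obtain ⟨i, -, hi⟩ := h1
    have h2 : (red ℓ (Φ i)).coeff (i : ℕ) ≠ 0 := by
      have h3 : (red ℓ (Φ i)) ≠ 0 := by
        intro h4
        have := hord i
        rw [h4, PowerSeries.order_zero] at this
        exact ENat.top_ne_natCast _ this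
      have h5 := PowerSeries.coeff_order h3
      have h6 : (red ℓ (Φ i)).order.toNat = i := by rw [hord i]; rfl
      rwa [h6] at h5
    apply h2
    simpa [hA] using hi
  have hdetC : (A.map (Int.castRingHom ℂ)).det ≠ 0 := by
    rw [← RingHom.mapMatrix_apply, ← RingHom.map_det]
    simpa using hdet
  have hrows : LinearIndependent ℂ (A.map (Int.castRingHom ℂ)).row :=
    Matrix.linearIndependent_rows_of_det_ne_zero hdetC
  have hcomp : (coeffsLin N K r) ∘ F = (A.map (Int.castRingHom ℂ)).row := by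
    funext i
    funext j
    simp [coeffsLin, coeffLin, hF, hA, Matrix.row]
  have hF_li : LinearIndependent ℂ F := by
    apply LinearIndependent.of_comp (coeffsLin N K r)
    rw [hcomp]
    exact hrows
  have h2 := (hF_li.map' _ (LinearMap.ker_eq_bot.mpr (coeffsLin_injective (N := N) K)))
  have h3 := h2.fintype_card_le_finrank
  simpa using h3

theorem order_red_DeltaZ (ℓ : ℕ) [Fact ℓ.Prime] : (red ℓ DeltaZ).order = 1 := by
  have h1 : (red ℓ ModularCurve.dedekindEtaUnit).order = 0 := by
    apply PowerSeries.order_zero_of_unit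
    rw [PowerSeries.isUnit_iff_constantCoeff, ← PowerSeries.coeff_zero_eq_constantCoeff_apply,
      PowerSeries.coeff_map, PowerSeries.coeff_zero_eq_constantCoeff_apply,
      ModularCurve.constantCoeff_dedekindEtaUnit]
    simp
  rw [DeltaZ, map_mul, PowerSeries.map_X, PowerSeries.order_mul, PowerSeries.order_X, h1, add_zero]

/-- **Sharp Sturm bound modulo `ℓ`** on `Γ₀(N)`, given a padding form `π` of weight `w ∣ gcd(k,12)`
which is a unit mod `ℓ`. -/
theorem sturm_mod (ℓ : ℕ) [Fact ℓ.Prime] {k w o : ℕ} {φ π : PowerSeries ℤ}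
    (hφ : IsQ N (k : ℤ) φ) (hπ : IsQ N (w : ℤ) π) (hwk : w ∣ k) (hw12 : w ∣ 12)
    (hπ0 : (red ℓ π).order = 0) (ho : (red ℓ φ).order = o) :
    12 * o ≤ k * (Gamma0 N).index := by
  by_contra hcon
  push Not at hcon
  set d := (Gamma0 N).index with hd
  have ho_pos : 0 < o := by
    rcases Nat.eq_zero_or_pos o with h | h
    · simp [h] at hcon
    · exact h
  set A := 12 * o * d + 13 with hA
  set K := k * A + 12 * o with hK
  have key := card_le_of_triangular (N := N) ℓ (K : ℤ) (o * A)
    (fun i => φ ^ ((i : ℕ) / o) * DeltaZ ^ ((i : ℕ) % o) *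
      π ^ ((K - k * ((i : ℕ) / o) - 12 * ((i : ℕ) % o)) / w)) ?_ ?_
  · rw [← hd] at key
    have h1 : ((K : ℤ) * (d : ℤ)).toNat = K * d := by
      rw [← Nat.cast_mul, Int.toNat_natCast]
    rw [h1] at key
    have h2 : 12 * (K * d / 12) ≤ K * d := Nat.mul_div_le _ _
    have h3 : 12 * (o * A) ≤ K * d + 12 := by omega
    have h4 : (k * d + 1) * A ≤ 12 * o * A := Nat.mul_le_mul_right _ hcon
    have h5 : K * d = k * d * A + 12 * o * d := by rw [hK]; ring
    have h6 : 12 * (o * A) = 12 * o * A := by ring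
    have h7 : (k * d + 1) * A = k * d * A + A := by ring
    omega
  · intro i
    have ha : (i : ℕ) / o < A := by
      rw [Nat.div_lt_iff_lt_mul ho_pos]
      exact lt_of_lt_of_eq i.2 (mul_comm _ _)
    have hb : (i : ℕ) % o < o := Nat.mod_lt _ ho_pos
    set a := (i : ℕ) / o
    set b := (i : ℕ) % o
    have hle : k * a + 12 * b ≤ K := by
      have : k * a ≤ k * A := Nat.mul_le_mul_left _ ha.le
      omega
    have hdvd : w ∣ K - k * a - 12 * b := by
      apply Nat.dvd_sub
      · apply Nat.dvd_sub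
        · exact Dvd.dvd.add (Dvd.dvd.mul_right hwk _) (Dvd.dvd.mul_right hw12 _)
        · exact Dvd.dvd.mul_right hwk _
      · exact Dvd.dvd.mul_right hw12 _
    obtain ⟨c, hc⟩ := hdvd
    have hw_pos : 0 < w := Nat.pos_of_dvd_of_pos hw12 (by norm_num)
    have hcdiv : (K - k * a - 12 * b) / w = c := by
      rw [hc, Nat.mul_div_cancel_left _ hw_pos]
    rw [hcdiv]
    refine (((hφ.pow a).mul (isQ_DeltaZ.pow b)).mul (hπ.pow c)).congr_weight ?_
    have : K = k * a + 12 * b + w * c := by omega
    rw [this]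
    push_cast
    ring
  · intro i
    have hdm : o * ((i : ℕ) / o) + (i : ℕ) % o = i := Nat.div_add_mod _ _
    rw [map_mul, map_mul, map_pow, map_pow, map_pow, PowerSeries.order_mul, PowerSeries.order_mul,
      PowerSeries.order_pow, PowerSeries.order_pow, PowerSeries.order_pow, ho, hπ0,
      order_red_DeltaZ]
    simp only [nsmul_eq_mul, mul_zero, add_zero, mul_one]
    have h8 : (((o * ((i : ℕ) / o) + (i : ℕ) % o : ℕ)) : ℕ∞) = ((i : ℕ) : ℕ∞) := by rw [hdm]
    rw [← h8]
    push_cast
    ring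

end

end Fermat.Agent.S16
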