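import Fermat.Agent.S16.PS
import Fermat.Agent.S20.P1Index

/-! # More API for `IsQ`: change of level, Sturm bound, indices -/

set_option autoImplicit false

namespace Fermat.Agent.S16

open CongruenceSubgroup UpperHalfPlane ModularForm PowerSeries
open scoped MatrixGroups ModularForm Manifold

noncomputable section

theorem Gamma0_le_of_dvd {M N : ℕ} (h : M ∣ N) : Gamma0 N ≤ Gamma0 M := by
  intro γ hγ
  rw [Gamma0_mem] at hγ ⊢
  rw [ZMod.intCast_zmod_eq_zero_iff_dvd] at hγ ⊢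
  exact dvd_trans (by exact_mod_cast h) hγ

/-- a form on `Γ₀(M)`, seen as a form on `Γ₀(N)` for `M ∣ N`. -/
def ofLevelDvd {M N : ℕ} [NeZero M] [NeZero N] (h : M ∣ N) {k : ℤ}
    (f : ModularForm (Gamma0 M) k) : ModularForm (Gamma0 N) k where
  toFun := f
  slash_action_eq' := by
    rintro _ ⟨γ, hγ, rfl⟩
    exact SlashInvariantFormClass.slash_action_eq f _ ⟨γ, Gamma0_le_of_dvd h hγ, rfl⟩
  holo' := ModularFormClass.holo f
  bdd_at_cusps' := fun hc => ModularFormClass.bdd_at_cusps f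
    ((Subgroup.IsArithmetic.isCusp_iff_isCusp_SL2Z _).mpr
      ((Subgroup.IsArithmetic.isCusp_iff_isCusp_SL2Z _).mp hc))

theorem IsQ.mono {M N : ℕ} [NeZero M] [NeZero N] (h : M ∣ N) {k : ℤ} {φ : PowerSeries ℤ}
    (hφ : IsQ M k φ) : IsQ N k φ := by
  obtain ⟨F, hF⟩ := hφ
  exact ⟨ofLevelDvd h F, hF⟩

/-- Sturm bound (characteristic zero) in `IsQ` form. -/
theorem IsQ.eq_zero_of_sturm {N : ℕ} [NeZero N] {k : ℤ} {φ : PowerSeries ℤ} (hφ : IsQ N k φ)
    (h : ∀ n : ℕ, n ≤ (k * (Gamma0 N).index).toNat / 12 → φ.coeff n = 0) : φ = 0 := by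
  obtain ⟨F, hF⟩ := hφ
  have hF0 : F = 0 := ModularForm.sturm_bound_Gamma0 N F fun n hn => by
    rw [hF, PowerSeries.coeff_map, h n hn]; simp
  apply toC_injective
  rw [← hF, hF0, map_zero]
  simp [qExpansion_zero]

theorem index_Gamma0_prime (p : ℕ) [hp : Fact p.Prime] : (Gamma0 p).index = p + 1 := by
  haveI : NeZero p := ⟨hp.out.ne_zero⟩
  rw [Fermat.Agent.S20.P1.index_Gamma0, ModularCurve.dedekindPsi, hp.out.divisors]
  rw [Finset.filter_true_of_mem]
  · rw [Finset.sum_pair hp.out.one_lt.ne, Nat.div_one, Nat.div_self hp.out.pos]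
  · intro d hd
    simp only [Finset.mem_insert, Finset.mem_singleton] at hd
    rcases hd with rfl | rfl
    · exact squarefree_one
    · exact hp.out.prime.squarefree

theorem index_Gamma0_one : (Gamma0 1).index = 1 := by
  rw [Fermat.Agent.S20.P1.index_Gamma0, ModularCurve.dedekindPsi_one]

theorem index_Gamma0_three : (Gamma0 3).index = 4 := by
  haveI : Fact (Nat.Prime 3) := ⟨by norm_num⟩
  exact index_Gamma0_prime 3

end

end Fermat.Agent.S16
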