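import Fermat.Agent.S16.IsQ2
import Fermat.Prelude.Sol.S_ModularFormClass_isBoundedAt_heckeT

/-! # The trace from `Γ₀(p)` to level one, on `q`-expansions -/

set_option autoImplicit false

namespace Fermat.Agent.S16

open CongruenceSubgroup UpperHalfPlane ModularForm PowerSeries
open Matrix.SpecialLinearGroup
open scoped MatrixGroups ModularForm Manifold

noncomputable section

/-! ### scalar multiples of matrices -/

theorem slash_of_val_eq_smul (k : ℤ) (F : ℍ → ℂ) (g h : GL (Fin 2) ℝ) (r : ℝ) (hr : 0 < r)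
    (hgh : (g : Matrix (Fin 2) (Fin 2) ℝ) = r • (h : Matrix (Fin 2) (Fin 2) ℝ)) :
    F ∣[k] g = ((r : ℂ) ^ (k - 2)) • F ∣[k] h := by
  have hdet : (g.det : ℝ) = r ^ 2 * (h.det : ℝ) := by
    rw [Matrix.GeneralLinearGroup.val_det_apply, Matrix.GeneralLinearGroup.val_det_apply, hgh,
      Matrix.det_smul]
    simp
  have hσ : σ g = σ h := by
    unfold UpperHalfPlane.σ
    have : (0 < (g.det : ℝ)) ↔ (0 < (h.det : ℝ)) := by
      rw [hdet]
      constructor
      · intro h1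
        exact (pos_iff_pos_of_mul_pos h1).mp (by positivity)
      · intro h1
        positivity
    simp only [this]
  have hnum : ∀ τ : ℍ, num g τ = r * num h τ := by
    intro τ
    simp only [num, hgh, Matrix.smul_apply, smul_eq_mul]
    push_cast
    ring
  have hden : ∀ τ : ℍ, denom g τ = r * denom h τ := by
    intro τ
    simp only [denom, hgh, Matrix.smul_apply, smul_eq_mul]
    push_cast
    ring
  have hrC : (r : ℂ) ≠ 0 := by exact_mod_cast hr.ne'
  have hsmul : ∀ τ : ℍ, g • τ = h • τ := by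
    intro τ
    apply UpperHalfPlane.ext
    rw [UpperHalfPlane.coe_smul, UpperHalfPlane.coe_smul, hσ, hnum, hden,
      mul_div_mul_left _ _ hrC]
  ext τ
  rw [Pi.smul_apply, slash_apply, slash_apply, hσ, hsmul, hden, hdet, abs_mul,
    abs_of_pos (by positivity : 0 < r ^ 2), smul_eq_mul]
  push_cast
  rw [mul_zpow, mul_zpow, ← zpow_natCast (r : ℂ) 2, ← zpow_mul]
  have : (r : ℂ) ^ (k - 2) = (r : ℂ) ^ (((2 : ℕ) : ℤ) * (k - 1)) * (r : ℂ) ^ (-k) := by
    rw [← zpow_add₀ hrC]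
    congr 1
    push_cast
    ring
  rw [this]
  ring

/-! ### the Fricke matrix -/

variable (p : ℕ) [hp : Fact p.Prime]

/-- the rational Fricke matrix -/
def frickeQ : GL (Fin 2) ℚ :=
  Matrix.GeneralLinearGroup.mkOfDetNeZero !![0, -1; (p : ℚ), 0] (by
    rw [Matrix.det_fin_two_of]
    have := hp.out.ne_zero
    simp [this])

/-- the Fricke matrix `[[0,-1],[p,0]]` -/
def fricke : GL (Fin 2) ℝ := Matrix.GeneralLinearGroup.map (Rat.castHom ℝ) (frickeQ p)

theorem val_fricke :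
    ((fricke p : GL (Fin 2) ℝ) : Matrix (Fin 2) (Fin 2) ℝ) = !![0, -1; (p : ℝ), 0] := by
  ext i j
  fin_cases i <;> fin_cases j <;>
    simp [fricke, frickeQ, Matrix.GeneralLinearGroup.mkOfDetNeZero]

theorem det_fricke : ((fricke p).det : ℝ) = p := by
  rw [Matrix.GeneralLinearGroup.val_det_apply, val_fricke, Matrix.det_fin_two_of]
  ring

theorem mapGL_val (g : SL(2, ℤ)) :
    ((mapGL ℝ g : GL (Fin 2) ℝ) : Matrix (Fin 2) (Fin 2) ℝ) =
      !![((g 0 0 : ℤ) : ℝ), ((g 0 1 : ℤ) : ℝ); ((g 1 0 : ℤ) : ℝ), ((g 1 1 : ℤ) : ℝ)] := by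
  ext i j
  fin_cases i <;> fin_cases j <;> simp

theorem mem_Gamma0_iff_dvd' (N : ℕ) (A : SL(2, ℤ)) : A ∈ Gamma0 N ↔ (N : ℤ) ∣ A 1 0 := by
  rw [Gamma0_mem, ZMod.intCast_zmod_eq_zero_iff_dvd]

theorem exists_SL2_entries (a b c d : ℤ) (h : a * d - b * c = 1) :
    ∃ g : SL(2, ℤ), g 0 0 = a ∧ g 0 1 = b ∧ g 1 0 = c ∧ g 1 1 = d :=
  ⟨⟨!![a, b; c, d], by rw [Matrix.det_fin_two_of]; exact h⟩, rfl, rfl, rfl, rfl⟩

theorem SL2_det_eq (g : SL(2, ℤ)) : g 0 0 * g 1 1 - g 0 1 * g 1 0 = 1 := by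
  have h := g.det_coe
  rwa [Matrix.det_fin_two] at h

/-- the Fricke matrix normalises `Γ₀(p)` -/
theorem fricke_mul_mapGL (γ : SL(2, ℤ)) (hγ : γ ∈ Gamma0 p) :
    ∃ γ' ∈ Gamma0 p, fricke p * mapGL ℝ γ = mapGL ℝ γ' * fricke p := by
  obtain ⟨c, hc⟩ := (mem_Gamma0_iff_dvd' p γ).mp hγ
  have hdet := SL2_det_eq γ
  obtain ⟨γ', h00, h01, h10, h11⟩ := exists_SL2_entries (γ 1 1) (-c) (-(p : ℤ) * γ 0 1) (γ 0 0) (by
    rw [hc] at hdet
    linear_combination hdet)
  refine ⟨γ', ?_, ?_⟩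
  · rw [mem_Gamma0_iff_dvd', h10]
    exact ⟨-γ 0 1, by ring⟩
  · apply Units.ext
    rw [Units.val_mul, Units.val_mul, val_fricke, mapGL_val, mapGL_val, h00, h01, h10, h11]
    have hcr : ((γ 1 0 : ℤ) : ℝ) = p * c := by rw [hc]; push_cast; ring
    rw [hcr]
    ext i j
    fin_cases i <;> fin_cases j <;> simp [Matrix.mul_apply, Fin.sum_univ_two] <;> ring

variable {p}

/-- `F ∣[k] W` as a modular form on `Γ₀(p)` -/
def frickeForm {k : ℤ} (F : ModularForm (Gamma0 p) k) : ModularForm (Gamma0 p) k where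
  toFun := ⇑F ∣[k] fricke p
  slash_action_eq' := by
    rintro _ ⟨γ, hγ, rfl⟩
    obtain ⟨γ', hγ', h⟩ := fricke_mul_mapGL p γ hγ
    show (⇑F ∣[k] fricke p) ∣[k] (mapGL ℝ γ) = ⇑F ∣[k] fricke p
    rw [← SlashAction.slash_mul, h, SlashAction.slash_mul,
      SlashInvariantFormClass.slash_action_eq F _ (Subgroup.mem_map_of_mem _ hγ')]
  holo' := (ModularForm.translate F (fricke p)).holo'
  bdd_at_cusps' := fun hc =>
    P2MW.S_ModularFormClass_isBoundedAt_heckeT.ModularForm.S06W2.isBoundedAt_slash_ratCast F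
      (frickeQ p) hc

theorem coe_frickeForm {k : ℤ} (F : ModularForm (Gamma0 p) k) :
    ⇑(frickeForm F) = ⇑F ∣[k] fricke p := rfl

/-! ### invariance of the trace under `S` -/

/-- `j ↦ -1/j` on `{1, …, p-1}` -/
def negInv (p j : ℕ) : ℕ := (-((j : ZMod p))⁻¹).val

theorem negInv_props {j : ℕ} (hj0 : j ≠ 0) (hjp : j < p) :
    negInv p j ≠ 0 ∧ negInv p j < p ∧ negInv p (negInv p j) = j ∧
      (p : ℤ) ∣ (j : ℤ) * negInv p j + 1 := by
  have hx : (j : ZMod p) ≠ 0 := by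
    rw [Ne, ZMod.natCast_eq_zero_iff]
    intro h
    exact absurd (Nat.le_of_dvd (Nat.pos_of_ne_zero hj0) h) (by omega)
  have hcast : ((negInv p j : ℕ) : ZMod p) = -((j : ZMod p))⁻¹ := by
    rw [negInv, ZMod.natCast_zmod_val]
  refine ⟨?_, ZMod.val_lt _, ?_, ?_⟩
  · rw [negInv, Ne, ZMod.val_eq_zero, neg_eq_zero, _root_.inv_eq_zero]
    exact hx
  · rw [negInv, hcast, inv_neg, inv_inv, neg_neg, ZMod.val_natCast_of_lt hjp]
  · rw [← ZMod.intCast_zmod_eq_zero_iff_dvd]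
    push_cast
    rw [hcast, mul_neg, mul_inv_cancel₀ hx]
    ring

theorem heckeMatrix_mul_S {j : ℕ} (hj0 : j ≠ 0) (hjp : j < p) :
    ∃ δ ∈ Gamma0 p, heckeMatrix p j * mapGL ℝ ModularGroup.S =
      mapGL ℝ δ * heckeMatrix p (negInv p j) := by
  obtain ⟨-, -, -, e, he⟩ := negInv_props hj0 hjp
  obtain ⟨δ, h00, h01, h10, h11⟩ := exists_SL2_entries (j : ℤ) (-e) (p : ℤ) (-(negInv p j : ℤ)) (by
    linear_combination -he)
  refine ⟨δ, ?_, ?_⟩
  · rw [mem_Gamma0_iff_dvd', h10]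
  · apply Units.ext
    rw [Units.val_mul, Units.val_mul, val_heckeMatrix hp.out.ne_zero,
      val_heckeMatrix hp.out.ne_zero, mapGL_val, mapGL_val, h00, h01, h10, h11]
    have her : (j : ℝ) * (negInv p j : ℝ) + 1 = p * e := by exact_mod_cast he
    ext a b
    fin_cases a <;> fin_cases b <;>
      simp [Matrix.mul_apply, Fin.sum_univ_two, ModularGroup.S]
    · linear_combination -her
    · ring

theorem pC_ne_zero : (p : ℂ) ≠ 0 := by exact_mod_cast hp.out.ne_zero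

theorem slash_fricke_heckeMatrix_zero {k : ℤ} (F : ℍ → ℂ) :
    (F ∣[k] fricke p) ∣[k] heckeMatrix p 0 = ((p : ℂ) ^ (k - 2)) • F ∣[k] ModularGroup.S := by
  rw [← SlashAction.slash_mul, SL_slash]
  have := slash_of_val_eq_smul k F (fricke p * heckeMatrix p 0) (mapGL ℝ ModularGroup.S) (p : ℝ)
    (by exact_mod_cast hp.out.pos) (by
      rw [Units.val_mul, val_fricke, val_heckeMatrix hp.out.ne_zero, mapGL_val]
      ext a b
      fin_cases a <;> fin_cases b <;>
        simp [Matrix.mul_apply, Fin.sum_univ_two, ModularGroup.S])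
  rw [this]
  simp only [Complex.ofReal_natCast]
  rfl

theorem slash_fricke_fricke {k : ℤ} (F : ModularForm (Gamma0 p) k) :
    (⇑F ∣[k] fricke p) ∣[k] fricke p = ((p : ℂ) ^ (k - 2)) • ⇑F := by
  rw [← SlashAction.slash_mul]
  have := slash_of_val_eq_smul k F (fricke p * fricke p) (mapGL ℝ (-1)) (p : ℝ)
    (by exact_mod_cast hp.out.pos) (by
      rw [Units.val_mul, val_fricke, mapGL_val]
      ext a b
      fin_cases a <;> fin_cases b <;>
        simp [Matrix.mul_apply, Fin.sum_univ_two])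
  rw [this, SlashInvariantFormClass.slash_action_eq F _ (Subgroup.mem_map_of_mem _ (by
    rw [mem_Gamma0_iff_dvd']; simp))]
  simp

theorem heckeMatrix_zero_mul_S : heckeMatrix p 0 * mapGL ℝ ModularGroup.S = fricke p := by
  apply Units.ext
  rw [Units.val_mul, val_fricke, val_heckeMatrix hp.out.ne_zero, mapGL_val]
  ext a b
  fin_cases a <;> fin_cases b <;>
    simp [Matrix.mul_apply, Fin.sum_univ_two, ModularGroup.S]

/-- the function underlying the trace -/
def trFun {k : ℤ} (F : ModularForm (Gamma0 p) k) : ℍ → ℂ :=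
  ⇑F + ((p : ℂ) ^ (2 - k)) • heckeU k p (⇑F ∣[k] fricke p)

theorem trFun_slash_S {k : ℤ} (F : ModularForm (Gamma0 p) k) :
    trFun F ∣[k] ModularGroup.S = trFun F := by
  set Φ : ℍ → ℂ := ⇑F ∣[k] fricke p with hΦ
  have hc : (p : ℂ) ^ (2 - k) * (p : ℂ) ^ (k - 2) = 1 := by
    rw [← zpow_add₀ pC_ne_zero]
    simp
  have h0 : 0 ∈ Finset.range p := Finset.mem_range.mpr hp.out.pos
  have hsplit : heckeU k p Φ = Φ ∣[k] heckeMatrix p 0 +
      ∑ j ∈ (Finset.range p).erase 0, Φ ∣[k] heckeMatrix p j := by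
    rw [heckeU_def]
    exact (Finset.add_sum_erase _ (fun j => Φ ∣[k] heckeMatrix p j) h0).symm
  have hA : ((p : ℂ) ^ (2 - k)) • Φ ∣[k] heckeMatrix p 0 = ⇑F ∣[k] ModularGroup.S := by
    rw [hΦ, slash_fricke_heckeMatrix_zero, smul_smul, hc, one_smul]
  have hB : ((p : ℂ) ^ (2 - k)) • (Φ ∣[k] heckeMatrix p 0) ∣[k] ModularGroup.S = ⇑F := by
    rw [SL_slash, ← SlashAction.slash_mul]
    show ((p : ℂ) ^ (2 - k)) • Φ ∣[k] (heckeMatrix p 0 * mapGL ℝ ModularGroup.S) = ⇑F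
    rw [heckeMatrix_zero_mul_S, hΦ, slash_fricke_fricke, smul_smul, hc, one_smul]
  have hC : (∑ j ∈ (Finset.range p).erase 0, Φ ∣[k] heckeMatrix p j) ∣[k] ModularGroup.S =
      ∑ j ∈ (Finset.range p).erase 0, Φ ∣[k] heckeMatrix p j := by
    rw [SlashAction.sum_slash]
    have hmem : ∀ j ∈ (Finset.range p).erase 0, j ≠ 0 ∧ j < p := by
      intro j hj
      rw [Finset.mem_erase, Finset.mem_range] at hj
      exact hj
    refine Finset.sum_nbij' (negInv p) (negInv p) ?_ ?_ ?_ ?_ ?_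
    · intro j hj
      obtain ⟨h1, h2⟩ := hmem j hj
      obtain ⟨h3, h4, -, -⟩ := negInv_props h1 h2
      rw [Finset.mem_erase, Finset.mem_range]
      exact ⟨h3, h4⟩
    · intro j hj
      obtain ⟨h1, h2⟩ := hmem j hj
      obtain ⟨h3, h4, -, -⟩ := negInv_props h1 h2
      rw [Finset.mem_erase, Finset.mem_range]
      exact ⟨h3, h4⟩
    · intro j hj
      obtain ⟨h1, h2⟩ := hmem j hj
      exact (negInv_props h1 h2).2.2.1
    · intro j hj
      obtain ⟨h1, h2⟩ := hmem j hj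
      exact (negInv_props h1 h2).2.2.1
    · intro j hj
      obtain ⟨h1, h2⟩ := hmem j hj
      obtain ⟨δ, hδ, h⟩ := heckeMatrix_mul_S h1 h2
      rw [SL_slash, ← SlashAction.slash_mul]
      show Φ ∣[k] (heckeMatrix p j * mapGL ℝ ModularGroup.S) = _
      rw [h, SlashAction.slash_mul]
      congr 1
      exact SlashInvariantFormClass.slash_action_eq (frickeForm F) _ (Subgroup.mem_map_of_mem _ hδ)
  rw [trFun, ← hΦ, hsplit, smul_add, SlashAction.add_slash, SlashAction.add_slash, SL_smul_slash,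
    SL_smul_slash, hB, hC, hA]
  abel

/-! ### the trace as a modular form of level one -/

instance neZero_of_fact_prime : NeZero p := ⟨hp.out.ne_zero⟩

/-- the trace, still seen as a form on `Γ₀(p)` -/
def trForm0 {k : ℤ} (F : ModularForm (Gamma0 p) k) : ModularForm (Gamma0 p) k :=
  F + ((p : ℂ) ^ (2 - k)) • heckeULin k (dvd_refl p) (frickeForm F)

theorem coe_trForm0 {k : ℤ} (F : ModularForm (Gamma0 p) k) : ⇑(trForm0 F) = trFun F := rfl

/-- the trace of a form on `Γ₀(p)` -/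
def tr {k : ℤ} (F : ModularForm (Gamma0 p) k) : ModularForm 𝒮ℒ k where
  toFun := trFun F
  slash_action_eq' := by
    rintro _ ⟨γ, rfl⟩
    refine SlashInvariantForm.slash_action_generators_SL2Z (trFun_slash_S F) ?_ γ
    rw [← coe_trForm0]
    exact SlashInvariantFormClass.slash_action_eq (trForm0 F) _ (Subgroup.mem_map_of_mem _ (by
      rw [mem_Gamma0_iff_dvd']; simp [ModularGroup.T]))
  holo' := (trForm0 F).holo'
  bdd_at_cusps' := fun hc => (trForm0 F).bdd_at_cusps'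
    ((Subgroup.IsArithmetic.isCusp_iff_isCusp_SL2Z _).mpr hc)

theorem coe_tr {k : ℤ} (F : ModularForm (Gamma0 p) k) : ⇑(tr F) = trFun F := rfl

/-- the formal operator `U_r` on complex power series -/
def psUC (r : ℕ) (φ : PowerSeries ℂ) : PowerSeries ℂ := PowerSeries.mk fun n => φ.coeff (n * r)

/-- the formal operator `V_r` on complex power series -/
def psVC (r : ℕ) (φ : PowerSeries ℂ) : PowerSeries ℂ :=
  PowerSeries.mk fun n => if r ∣ n then φ.coeff (n / r) else 0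

@[simp] theorem coeff_psUC (r : ℕ) (φ : PowerSeries ℂ) (n : ℕ) :
    (psUC r φ).coeff n = φ.coeff (n * r) := by simp [psUC]

@[simp] theorem coeff_psVC (r : ℕ) (φ : PowerSeries ℂ) (n : ℕ) :
    (psVC r φ).coeff n = if r ∣ n then φ.coeff (n / r) else 0 := by simp [psVC]

theorem qExpansion_heckeULin {k : ℤ} (F : ModularForm (Gamma0 p) k) :
    qExpansion 1 (heckeULin k (dvd_refl p) F) = psUC p (qExpansion 1 F) := by
  ext n
  have h1 := ModularFormClass.qCoeff_heckeU F (one_mem_strictPeriods_Gamma0 p) hp.out.ne_zero n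
  rw [ModularForm.coe_heckeULin_apply]
  unfold ModularFormClass.qCoeff at h1
  rw [h1, ModularForm.coeffHeckeU_apply]
  simp

theorem qExpansion_tr {k : ℤ} (F : ModularForm (Gamma0 p) k) :
    qExpansion 1 (tr F) = qExpansion 1 F +
      ((p : ℂ) ^ (2 - k)) • psUC p (qExpansion 1 (frickeForm F)) := by
  rw [coe_tr, ← coe_trForm0, trForm0, FunLike.coe_add,
    ModularForm.qExpansion_add one_pos (one_mem_strictPeriods_Gamma0 p), FunLike.coe_smul,
    ModularForm.qExpansion_smul one_pos (one_mem_strictPeriods_Gamma0 p), qExpansion_heckeULin]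

/-! ### pairs (`q`-expansion at `∞`, `q`-expansion at `0`) -/

theorem σ_fricke : UpperHalfPlane.σ (fricke p) = .refl ℝ ℂ := by
  rw [UpperHalfPlane.σ, if_pos (by rw [det_fricke]; exact_mod_cast hp.out.pos)]

variable (p) in
/-- `φ` is the `q`-expansion of a form `F` of weight `k` on `Γ₀(p)` and `ψ` is the `q`-expansion of
`F^♯ (z) = (p z)^{-k} F (-1 / (p z))`. -/
def IsSharp (k : ℤ) (φ ψ : PowerSeries ℂ) : Prop :=
  ∃ F G : ModularForm (Gamma0 p) k, qExpansion 1 F = φ ∧ qExpansion 1 G = ψ ∧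
    ⇑G = ((p : ℂ) ^ (1 - k)) • (⇑F ∣[k] fricke p)

theorem IsSharp.congr_weight {k k' : ℤ} {φ ψ : PowerSeries ℂ} (h : IsSharp p k φ ψ) (hk : k = k') :
    IsSharp p k' φ ψ := hk ▸ h

theorem exists_isSharp {k : ℤ} (F : ModularForm (Gamma0 p) k) :
    ∃ ψ, IsSharp p k (qExpansion 1 F) ψ :=
  ⟨_, F, ((p : ℂ) ^ (1 - k)) • frickeForm F, rfl, rfl, rfl⟩

theorem IsSharp.one : IsSharp p 0 1 1 := by
  refine ⟨1, 1, ModularForm.qExpansion_one, ModularForm.qExpansion_one, ?_⟩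
  ext τ
  rw [Pi.smul_apply, slash_apply, σ_fricke, det_fricke]
  simp

theorem IsSharp.mul {k k' : ℤ} {φ ψ φ' ψ' : PowerSeries ℂ} (h : IsSharp p k φ ψ)
    (h' : IsSharp p k' φ' ψ') : IsSharp p (k + k') (φ * φ') (ψ * ψ') := by
  obtain ⟨F, G, hF, hG, hFG⟩ := h
  obtain ⟨F', G', hF', hG', hFG'⟩ := h'
  refine ⟨F.mul F', G.mul G', ?_, ?_, ?_⟩
  · rw [ModularForm.qExpansion_mul one_pos (one_mem_strictPeriods_Gamma0 p) F F', hF, hF']
  · rw [ModularForm.qExpansion_mul one_pos (one_mem_strictPeriods_Gamma0 p) G G', hG, hG']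
  · rw [ModularForm.coe_mul, ModularForm.coe_mul, mul_slash, hFG, hFG', det_fricke]
    have h1 : (p : ℂ) ^ (1 - (k + k')) * (p : ℂ) = (p : ℂ) ^ (1 - k) * (p : ℂ) ^ (1 - k') := by
      rw [← zpow_add₀ pC_ne_zero, ← zpow_add_one₀ pC_ne_zero]
      congr 1
      ring
    ext τ
    simp only [Pi.smul_apply, Pi.mul_apply, smul_eq_mul, Complex.real_smul, Nat.abs_cast,
      Complex.ofReal_natCast]
    linear_combination ((⇑F ∣[k] fricke p) τ * (⇑F' ∣[k'] fricke p) τ) * h1.symm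

theorem IsSharp.pow {k : ℤ} {φ ψ : PowerSeries ℂ} (h : IsSharp p k φ ψ) (n : ℕ) :
    IsSharp p (n * k) (φ ^ n) (ψ ^ n) := by
  induction n with
  | zero => simpa using IsSharp.one
  | succ n ih =>
    rw [pow_succ, pow_succ]
    exact (ih.mul h).congr_weight (by push_cast; ring)

theorem IsSharp.symm {k : ℤ} {φ ψ : PowerSeries ℂ} (h : IsSharp p k φ ψ) :
    IsSharp p k ψ (((p : ℂ) ^ (-k)) • φ) := by
  obtain ⟨F, G, hF, hG, hFG⟩ := h
  refine ⟨G, ((p : ℂ) ^ (-k)) • F, hG, ?_, ?_⟩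
  · rw [FunLike.coe_smul, ModularForm.qExpansion_smul one_pos (one_mem_strictPeriods_Gamma0 p), hF]
  · rw [hFG, smul_slash, σ_fricke, slash_fricke_fricke, FunLike.coe_smul]
    simp only [ContinuousAlgEquiv.refl_apply, smul_smul]
    congr 1
    rw [← zpow_add₀ pC_ne_zero, ← zpow_add₀ pC_ne_zero]
    congr 1
    ring

theorem IsSharp.trace {k : ℤ} {φ ψ : PowerSeries ℂ} (h : IsSharp p k φ ψ) :
    ∃ T : ModularForm 𝒮ℒ k, qExpansion 1 T = φ + (p : ℂ) • psUC p ψ := by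
  obtain ⟨F, G, hF, hG, hFG⟩ := h
  refine ⟨tr F, ?_⟩
  have h1 : qExpansion 1 G = ((p : ℂ) ^ (1 - k)) • qExpansion 1 (frickeForm F) := by
    rw [hFG, ← coe_frickeForm, ← FunLike.coe_smul,
      FunLike.coe_smul, ModularForm.qExpansion_smul one_pos (one_mem_strictPeriods_Gamma0 p)]
  rw [qExpansion_tr, hF, ← hG, h1]
  congr 1
  ext n
  simp only [PowerSeries.coeff_smul, coeff_psUC, smul_eq_mul]
  rw [← mul_assoc, ← zpow_one_add₀ pC_ne_zero]
  congr 2
  ring

/-! ### level one forms -/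

theorem mem_Gamma0_one (γ : SL(2, ℤ)) : γ ∈ Gamma0 1 := by
  rw [mem_Gamma0_iff_dvd']
  simp

variable (p) in
/-- a form on `Γ₀(1)` seen as a form on `Γ₀(p)` -/
def restrictOne {k : ℤ} (h : ModularForm (Gamma0 1) k) : ModularForm (Gamma0 p) k where
  toFun := h
  slash_action_eq' := by
    rintro _ ⟨γ, -, rfl⟩
    exact SlashInvariantFormClass.slash_action_eq h _ (Subgroup.mem_map_of_mem _ (mem_Gamma0_one γ))
  holo' := h.holo'
  bdd_at_cusps' := fun hc => h.bdd_at_cusps'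
    ((Subgroup.IsArithmetic.isCusp_iff_isCusp_SL2Z _).mpr
      ((Subgroup.IsArithmetic.isCusp_iff_isCusp_SL2Z _).mp hc))

theorem coe_restrictOne {k : ℤ} (h : ModularForm (Gamma0 1) k) : ⇑(restrictOne p h) = ⇑h := rfl

theorem fricke_eq_S_mul : fricke p = mapGL ℝ ModularGroup.S * heckeDiagMatrix p := by
  apply Units.ext
  rw [Units.val_mul, val_fricke, val_heckeDiagMatrix hp.out.ne_zero, mapGL_val]
  ext a b
  fin_cases a <;> fin_cases b <;>
    simp [Matrix.mul_apply, Fin.sum_univ_two, ModularGroup.S]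

theorem qExpansion_frickeForm_restrictOne {k : ℤ} (h : ModularForm (Gamma0 1) k) :
    qExpansion 1 (frickeForm (restrictOne p h)) = ((p : ℂ) ^ (k - 1)) • psVC p (qExpansion 1 h) := by
  set F := restrictOne p h with hF
  have h1 : ⇑(frickeForm F) = ⇑F ∣[k] heckeDiagMatrix p := by
    rw [coe_frickeForm, fricke_eq_S_mul, SlashAction.slash_mul]
    congr 1
    exact SlashInvariantFormClass.slash_action_eq h _
      (Subgroup.mem_map_of_mem _ (mem_Gamma0_one ModularGroup.S))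
  have h2 : heckeT k p ⇑F = ⇑(heckeULin k (dvd_refl p) F + frickeForm F) := by
    rw [heckeT_eq_heckeU_add, FunLike.coe_add, h1, coe_heckeULin_apply]
  ext n
  have h3 := ModularFormClass.qCoeff_heckeT F (one_mem_strictPeriods_Gamma0 p) hp.out.ne_zero n
  unfold ModularFormClass.qCoeff at h3
  rw [h2, FunLike.coe_add, ModularForm.qExpansion_add one_pos (one_mem_strictPeriods_Gamma0 p),
    qExpansion_heckeULin, map_add, coeff_psUC, ModularForm.coeffHeckeT_apply] at h3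
  have h4 := add_left_cancel h3
  rw [h4, PowerSeries.coeff_smul, coeff_psVC, hF, coe_restrictOne]
  split_ifs <;> simp

theorem IsSharp.of_levelOne {k : ℤ} (h : ModularForm (Gamma0 1) k) :
    IsSharp p k (qExpansion 1 h) (psVC p (qExpansion 1 h)) := by
  refine ⟨restrictOne p h, ((p : ℂ) ^ (1 - k)) • frickeForm (restrictOne p h), rfl, ?_, rfl⟩
  rw [FunLike.coe_smul, ModularForm.qExpansion_smul one_pos (one_mem_strictPeriods_Gamma0 p),
    qExpansion_frickeForm_restrictOne, smul_smul, ← zpow_add₀ pC_ne_zero]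
  simp

/-! ### weight two -/

theorem levelOne_weight_two_eq_zero {k : ℤ} (hk : k = 2) (T : ModularForm 𝒮ℒ k) : T = 0 := by
  subst hk
  exact rank_zero_iff_forall_zero.mp ModularForm.levelOne_weight_two_rank_zero T

theorem IsSharp.weight_two (H : ModularForm (Gamma0 p) 2) :
    IsSharp p 2 (qExpansion 1 H) ((-(p : ℂ)⁻¹) • psUC p (qExpansion 1 H)) := by
  obtain ⟨ψ, hψ⟩ := exists_isSharp H
  obtain ⟨T, hT⟩ := hψ.symm.trace
  rw [levelOne_weight_two_eq_zero rfl T] at hT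
  have h0 : qExpansion 1 (⇑(0 : ModularForm 𝒮ℒ 2)) = 0 := by
    rw [FunLike.coe_zero, qExpansion_zero]
  rw [h0] at hT
  have : ψ = (-(p : ℂ)⁻¹) • psUC p (qExpansion 1 H) := by
    have h5 := eq_neg_of_add_eq_zero_left hT.symm
    rw [h5]
    ext n
    simp only [map_neg, PowerSeries.coeff_smul, coeff_psUC, smul_eq_mul]
    have h6 : (p : ℂ) * (p : ℂ) ^ (-2 : ℤ) = (p : ℂ)⁻¹ := by
      rw [← zpow_one_add₀ pC_ne_zero]
      norm_num
    rw [← mul_assoc, h6]
    ring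
  rwa [this] at hψ

/-! ### integral statements -/

theorem toC_psU (r : ℕ) (φ : PowerSeries ℤ) : toC (psU r φ) = psUC r (toC φ) := by
  ext n; simp

theorem toC_psV (r : ℕ) (φ : PowerSeries ℤ) : toC (psV r φ) = psVC r (toC φ) := by
  ext n
  simp only [PowerSeries.coeff_map, coeff_psV, coeff_psVC]
  split_ifs <;> simp

theorem psUC_smul (r : ℕ) (c : ℂ) (φ : PowerSeries ℂ) : psUC r (c • φ) = c • psUC r φ := by
  ext n; simp

/-- `p ^ (s + k) Tr (H ^ s V_p h)` for `H` of weight two on `Γ₀(p)` and `h` of level one. -/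
theorem isQ_trace {H h : PowerSeries ℤ} {k : ℕ} (hH : IsQ p 2 H) (hh : IsQ 1 k h) (s : ℕ) :
    IsQ 1 (2 * s + k) (C ((p : ℤ) ^ (s + k)) * (H ^ s * psV p h) +
      C ((-1) ^ s * (p : ℤ)) * psU p ((psU p H) ^ s * h)) := by
  obtain ⟨Hf, hHf⟩ := hH
  obtain ⟨hf, hhf⟩ := hh
  have hA := IsSharp.weight_two Hf
  have hB := (IsSharp.of_levelOne (p := p) hf).symm
  obtain ⟨T, hT⟩ := ((hA.pow s).mul hB).trace
  refine IsQ.congr_weight ⟨((p : ℂ) ^ (s + k)) • ofLevelOne 1 T, ?_⟩ (by ring)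
  have h1 : (p : ℂ) ^ (s + k) * (p : ℂ) * ((-(p : ℂ)⁻¹) ^ s * (p : ℂ) ^ (-(k : ℤ))) =
      (-1) ^ s * (p : ℂ) := by
    have hp0 : (p : ℂ) ≠ 0 := pC_ne_zero
    rw [neg_pow, zpow_neg, zpow_natCast, pow_add, inv_pow]
    field_simp
  rw [FunLike.coe_smul, ModularForm.qExpansion_smul one_pos (one_mem_strictPeriods_Gamma0 1),
    coe_ofLevelOne, hT, hHf, hhf, smul_pow, smul_mul_smul_comm, psUC_smul, smul_add, smul_smul,
    smul_smul, h1, PowerSeries.smul_eq_C_mul, PowerSeries.smul_eq_C_mul]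
  simp [toC_psU, toC_psV]

/-- `p ^ s Tr (H ^ (s + 1))` for `H` of weight two on `Γ₀(p)`. -/
theorem isQ_trace_pow {H : PowerSeries ℤ} (hH : IsQ p 2 H) (s : ℕ) :
    IsQ 1 (2 * (s + 1)) (C ((p : ℤ) ^ s) * H ^ (s + 1) +
      C ((-1) ^ (s + 1)) * psU p ((psU p H) ^ (s + 1))) := by
  have h1 := isQ_trace (k := 0) hH (IsQ.one.congr_weight (by simp)) (s + 1)
  rw [psV_one hp.out.ne_zero, mul_one, mul_one] at h1
  have h2 : C ((p : ℤ) ^ (s + 1 + 0)) * H ^ (s + 1) +
      C ((-1) ^ (s + 1) * (p : ℤ)) * psU p (psU p H ^ (s + 1)) =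
      C (p : ℤ) * (C ((p : ℤ) ^ s) * H ^ (s + 1) +
        C ((-1) ^ (s + 1)) * psU p ((psU p H) ^ (s + 1))) := by
    rw [add_zero, pow_succ (p : ℤ) s, map_mul, map_mul]
    ring
  rw [h2] at h1
  exact (h1.of_C_mul (by exact_mod_cast hp.out.ne_zero)).congr_weight (by push_cast; ring)

/-- a form on `Γ₀(1)` as a form on `SL(2,ℤ)` -/
def toSL {k : ℤ} (h : ModularForm (Gamma0 1) k) : ModularForm 𝒮ℒ k where
  toFun := h
  slash_action_eq' := by
    rintro _ ⟨γ, rfl⟩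
    exact SlashInvariantFormClass.slash_action_eq h _ (Subgroup.mem_map_of_mem _ (mem_Gamma0_one γ))
  holo' := h.holo'
  bdd_at_cusps' := fun hc => h.bdd_at_cusps'
    ((Subgroup.IsArithmetic.isCusp_iff_isCusp_SL2Z _).mpr hc)

theorem coe_toSL {k : ℤ} (h : ModularForm (Gamma0 1) k) : ⇑(toSL h) = ⇑h := rfl

/-- there are no cusp forms of weight `14` and level one -/
theorem eq_zero_of_isQ_fourteen {X : PowerSeries ℤ} (hX : IsQ 1 14 X) (h0 : X.coeff 0 = 0) :
    X = 0 := by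
  obtain ⟨F, hF⟩ := hX
  have hcusp : (qExpansion 1 (toSL F)).coeff 0 = 0 := by
    rw [coe_toSL, hF]
    simp [h0]
  have h1 := ModularForm.qExpansion_eq_qExpansion_discriminant_mul (toSL F) hcusp
  rw [levelOne_weight_two_eq_zero (by norm_num) (CuspForm.discriminantEquiv _), FunLike.coe_zero,
    qExpansion_zero, mul_zero, coe_toSL, hF] at h1
  exact toC_injective (by rw [h1, map_zero])

/-- helper16's identity (B): `Tr (H V_p Δ) ∈ S₁₄(SL₂ ℤ) = 0`. -/
theorem trace_B {H : PowerSeries ℤ} (hH : IsQ p 2 H) :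
    C ((p : ℤ) ^ 12) * (H * psV p DeltaZ) = psU p (psU p H * DeltaZ) := by
  have h1 := isQ_trace (k := 12) hH (isQ_DeltaZ (N := 1)) 1
  have h2 : C ((p : ℤ) ^ (1 + 12)) * (H ^ 1 * psV p DeltaZ) +
      C ((-1) ^ 1 * (p : ℤ)) * psU p (psU p H ^ 1 * DeltaZ) =
      C (p : ℤ) * (C ((p : ℤ) ^ 12) * (H * psV p DeltaZ) - psU p (psU p H * DeltaZ)) := by
    rw [pow_one, pow_one, pow_one, pow_add, pow_one, map_mul, map_mul, map_neg, map_one]
    ring
  rw [h2] at h1
  have h3 := (h1.of_C_mul (by exact_mod_cast hp.out.ne_zero)).congr_weight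
    (show (2 * ((1 : ℕ) : ℤ) + ((12 : ℕ) : ℤ)) = 14 by norm_num)
  have h4 := eq_zero_of_isQ_fourteen h3 (by
    rw [map_sub, coeff_C_mul, coeff_psU, zero_mul, PowerSeries.coeff_zero_eq_constantCoeff_apply,
      PowerSeries.coeff_zero_eq_constantCoeff_apply, map_mul, map_mul,
      ← PowerSeries.coeff_zero_eq_constantCoeff_apply, ← PowerSeries.coeff_zero_eq_constantCoeff_apply,
      ← PowerSeries.coeff_zero_eq_constantCoeff_apply, ← PowerSeries.coeff_zero_eq_constantCoeff_apply,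
      coeff_psV, coeff_zero_DeltaZ]
    simp [coeff_zero_DeltaZ])
  exact sub_eq_zero.mp h4

/-! ### the interface used by `CaseB`, `CaseD` -/

/-- `p^s Tr(G^s) = p^s G^s + p (-1)^s U_p((U_p G)^s)` is a level one form of weight `2 s`. -/
theorem TR_pow (p : ℕ) [Fact p.Prime] {G : PowerSeries ℤ} (hG : IsQ p 2 G) (s : ℕ) :
    IsQ 1 (2 * (s : ℤ))
      (C ((p : ℤ) ^ s) * G ^ s + C ((p : ℤ) * (-1) ^ s) * psU p ((psU p G) ^ s)) := by
  have h1 := isQ_trace (k := 0) hG (IsQ.one.congr_weight (by simp)) s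
  rw [psV_one (Fact.out : p.Prime).ne_zero, mul_one, mul_one, add_zero, mul_comm ((-1 : ℤ) ^ s)] at h1
  exact h1.congr_weight (by simp)

/-- `Tr(G · V_p Δ) ∈ S_14(SL₂(ℤ)) = 0`. -/
theorem TR_Delta (p : ℕ) [Fact p.Prime] {G : PowerSeries ℤ} (hG : IsQ p 2 G) :
    C ((p : ℤ) ^ 12) * (G * psV p DeltaZ) = psU p (psU p G * DeltaZ) :=
  trace_B hG

end

end Fermat.Agent.S16
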