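import Mathlib
import Fermat.Agent.Common.JPoly

/-!
# S16: the trace from `Γ₀(p)` to level one, core lemma (function level)

For a function `F` invariant under `Γ₀(p)` (weight `k` slash action) the function
`F + ∑_{j < p} F ∣[k] (S T^j)` is invariant under `SL₂(ℤ)`.
-/

set_option autoImplicit false

namespace Fermat.Agent.S16.TC

open UpperHalfPlane ModularForm CongruenceSubgroup ModularGroup Matrix.SpecialLinearGroup
open scoped MatrixGroups ModularForm Manifold

noncomputable section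

variable {p : ℕ} {k : ℤ} {F : ℍ → ℂ}

/-- `a n = F ∣ S T^n`. -/
def aux (k : ℤ) (F : ℍ → ℂ) (n : ℤ) : ℍ → ℂ := F ∣[k] (S * T ^ n)

theorem mem_Gamma0_iff_dvd {p : ℕ} {γ : SL(2, ℤ)} : γ ∈ Gamma0 p ↔ (p : ℤ) ∣ γ 1 0 := by
  rw [Gamma0_mem, ZMod.intCast_zmod_eq_zero_iff_dvd]

/-- `S T^{n + m} = (S T^m S⁻¹) (S T^n)`, and `S T^m S⁻¹ = [[1,0],[-m,1]]`. -/
theorem aux_congr (hF : ∀ γ ∈ Gamma0 p, F ∣[k] γ = F) {n n' : ℤ} (h : (p : ℤ) ∣ n' - n) :
    aux k F n' = aux k F n := by
  have h1 : S * T ^ n' = (S * T ^ (n' - n) * S⁻¹) * (S * T ^ n) := by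
    rw [mul_assoc, mul_assoc, inv_mul_cancel_left, ← mul_assoc, mul_assoc S, ← zpow_add]
    simp
  have h2 : S * T ^ (n' - n) * S⁻¹ ∈ Gamma0 p := by
    rw [mem_Gamma0_iff_dvd]
    have : (S * T ^ (n' - n) * S⁻¹ : SL(2, ℤ)) 1 0 = -(n' - n) := by
      simp [coe_T_zpow, coe_S, Matrix.mul_apply, Fin.sum_univ_two, Matrix.adjugate_fin_two]
    rw [this]
    exact (dvd_neg).mpr h
  unfold aux
  rw [h1, SlashAction.slash_mul, hF _ h2]

theorem aux_slash_T (n : ℤ) : aux k F n ∣[k] T = aux k F (n + 1) := by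
  unfold aux
  rw [← SlashAction.slash_mul, mul_assoc, ← zpow_add_one]

theorem slash_S (F : ℍ → ℂ) : F ∣[k] S = aux k F 0 := by
  unfold aux
  simp

theorem aux_zero_slash_S (hF : ∀ γ ∈ Gamma0 p, F ∣[k] γ = F) : aux k F 0 ∣[k] S = F := by
  unfold aux
  rw [← SlashAction.slash_mul]
  apply hF
  rw [mem_Gamma0_iff_dvd]
  have : (S * T ^ (0 : ℤ) * S : SL(2, ℤ)) 1 0 = 0 := by
    simp [coe_S, Matrix.mul_apply, Fin.sum_univ_two]
  rw [this]
  exact dvd_zero _

/-- `γ = [[-n', -1], [n n' + 1, n]]`. -/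
def gam (n n' : ℤ) : SL(2, ℤ) :=
  ⟨!![-n', -1; n * n' + 1, n], by rw [Matrix.det_fin_two_of]; ring⟩

theorem coe_gam (n n' : ℤ) :
    (gam n n' : Matrix (Fin 2) (Fin 2) ℤ) = !![-n', -1; n * n' + 1, n] := rfl

theorem S_T_S (n n' : ℤ) : S * T ^ n * S = gam n n' * (S * T ^ n') := by
  apply Subtype.ext
  rw [Matrix.SpecialLinearGroup.coe_mul, Matrix.SpecialLinearGroup.coe_mul,
    Matrix.SpecialLinearGroup.coe_mul, Matrix.SpecialLinearGroup.coe_mul, coe_T_zpow, coe_T_zpow,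
    coe_S, coe_gam]
  ext i j
  fin_cases i <;> fin_cases j <;> simp [Matrix.mul_apply, Fin.sum_univ_two]

/-- `S T^n S = γ S T^{n'}` with `γ = [[-n', -1], [n n' + 1, n]]`. -/
theorem aux_slash_S (hF : ∀ γ ∈ Gamma0 p, F ∣[k] γ = F) {n n' : ℤ} (h : (p : ℤ) ∣ n * n' + 1) :
    aux k F n ∣[k] S = aux k F n' := by
  have h2 : gam n n' ∈ Gamma0 p := by
    rw [mem_Gamma0_iff_dvd]
    exact h
  unfold aux
  rw [← SlashAction.slash_mul, S_T_S n n', SlashAction.slash_mul, hF _ h2]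

/-- the trace function. -/
def trFun (p : ℕ) (k : ℤ) (F : ℍ → ℂ) : ℍ → ℂ :=
  F + ∑ j ∈ Finset.range p, F ∣[k] (S * T ^ j)

theorem trFun_eq (p : ℕ) (k : ℤ) (F : ℍ → ℂ) :
    trFun p k F = F + ∑ j ∈ Finset.range p, aux k F (j : ℤ) := by
  unfold trFun aux
  simp only [zpow_natCast]

theorem sum_range_eq_sum_zmod [NeZero p] (a : ℤ → ℍ → ℂ) :
    ∑ j ∈ Finset.range p, a (j : ℤ) = ∑ x : ZMod p, a (x.val : ℤ) := by
  symm
  refine Finset.sum_nbij' (fun x => x.val) (fun j => (j : ZMod p)) ?_ ?_ ?_ ?_ ?_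
  · intro x _
    exact Finset.mem_range.mpr (ZMod.val_lt x)
  · intro j _
    exact Finset.mem_univ _
  · intro x _
    exact ZMod.natCast_zmod_val x
  · intro j hj
    exact ZMod.val_cast_of_lt (Finset.mem_range.mp hj)
  · intro x _
    rfl

theorem trFun_slash_T (hF : ∀ γ ∈ Gamma0 p, F ∣[k] γ = F) : trFun p k F ∣[k] T = trFun p k F := by
  have hT : T ∈ Gamma0 p := by
    rw [mem_Gamma0_iff_dvd]
    simp [coe_T]
  rw [trFun_eq, SlashAction.add_slash, hF T hT]
  congr 1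
  rw [SlashAction.sum_slash]
  simp only [aux_slash_T]
  have h1 : ∀ j : ℕ, aux k F ((j : ℤ) + 1) = aux k F ((j + 1 : ℕ) : ℤ) := fun j => by push_cast; rfl
  simp only [h1]
  have h2 := Finset.sum_range_succ' (fun j : ℕ => aux k F (j : ℤ)) p
  have h3 := Finset.sum_range_succ (fun j : ℕ => aux k F (j : ℤ)) p
  have h4 : aux k F ((p : ℕ) : ℤ) = aux k F ((0 : ℕ) : ℤ) := aux_congr hF (by simp)
  rw [h3, h4] at h2
  exact (add_right_cancel h2).symm

theorem trFun_slash_S [Fact p.Prime] (hF : ∀ γ ∈ Gamma0 p, F ∣[k] γ = F) :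
    trFun p k F ∣[k] S = trFun p k F := by
  rw [trFun_eq, sum_range_eq_sum_zmod, SlashAction.add_slash, SlashAction.sum_slash, slash_S]
  have key : ∀ x : ZMod p, aux k F (x.val : ℤ) ∣[k] S =
      aux k F (((-x⁻¹ : ZMod p)).val : ℤ) + (if x = 0 then F - aux k F 0 else 0) := by
    intro x
    by_cases hx : x = 0
    · subst hx
      simp only [ZMod.val_zero, Nat.cast_zero, inv_zero, neg_zero, if_true]
      rw [aux_zero_slash_S hF]
      abel
    · rw [if_neg hx, add_zero]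
      apply aux_slash_S hF
      rw [← ZMod.intCast_zmod_eq_zero_iff_dvd]
      push_cast
      rw [ZMod.natCast_zmod_val, ZMod.natCast_zmod_val]
      field_simp
      ring
  simp only [key]
  rw [Finset.sum_add_distrib, Finset.sum_ite_eq' Finset.univ (0 : ZMod p)]
  simp only [Finset.mem_univ, if_true]
  have hperm : ∑ x : ZMod p, aux k F (((-x⁻¹ : ZMod p)).val : ℤ) =
      ∑ x : ZMod p, aux k F (x.val : ℤ) := by
    have hinv : Function.Involutive (fun x : ZMod p => -x⁻¹) := by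
      intro x
      simp
    exact Equiv.sum_comp hinv.toPerm (fun x : ZMod p => aux k F (x.val : ℤ))
  rw [hperm]
  abel

theorem trFun_slash [Fact p.Prime] (hF : ∀ γ ∈ Gamma0 p, F ∣[k] γ = F) (γ : SL(2, ℤ)) :
    trFun p k F ∣[k] γ = trFun p k F :=
  SlashInvariantForm.slash_action_generators_SL2Z (trFun_slash_S hF) (trFun_slash_T hF) γ

/-- **the trace of a modular form on `Γ₀(p)` is a modular form of level one.** -/
theorem exists_levelOne (p : ℕ) [Fact p.Prime] (k : ℤ) (F : ModularForm (Gamma0 p) k) :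
    ∃ K : ModularForm 𝒮ℒ k, ⇑K = trFun p k F := by
  have hF : ∀ γ ∈ Gamma0 p, (F : ℍ → ℂ) ∣[k] γ = F := fun γ hγ => by
    rw [SL_slash]
    exact SlashInvariantFormClass.slash_action_eq F _ (Subgroup.mem_map_of_mem _ hγ)
  refine Fermat.Agent.Common.JPoly.exists_modularForm k _ ?_ (trFun_slash hF) ?_
  · unfold trFun
    refine (ModularFormClass.holo F).add ?_
    have : ∀ s : Finset ℕ, MDiff (∑ j ∈ s, (F : ℍ → ℂ) ∣[k] (S * T ^ j)) := by
      intro s
      induction s using Finset.induction_on with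
      | empty =>
        rw [Finset.sum_empty]
        exact (mdifferentiable_const : MDiff (fun _ : ℍ => (0 : ℂ)))
      | insert a s ha ih =>
        rw [Finset.sum_insert ha]
        exact ((ModularFormClass.holo F).slash k _).add ih
    exact this _
  · unfold trFun
    have h0 : IsBoundedAtImInfty (F : ℍ → ℂ) := by
      simpa using ModularFormClass.bdd_at_infty_slash F (1 : SL(2, ℤ))
    refine h0.add ?_
    have : ∀ s : Finset ℕ, IsBoundedAtImInfty (∑ j ∈ s, (F : ℍ → ℂ) ∣[k] (S * T ^ j)) := by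
      intro s
      induction s using Finset.induction_on with
      | empty =>
        rw [Finset.sum_empty]
        exact Filter.const_boundedAtFilter atImInfty (0 : ℂ)
      | insert a s ha ih =>
        rw [Finset.sum_insert ha]
        exact (ModularFormClass.bdd_at_infty_slash F _).add ih
    exact this _

end

end Fermat.Agent.S16.TC
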