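import Fermat.Agent.S16.TraceCore
import Fermat.Agent.Common.E4Level
import Fermat.Prelude.Def_ModularForm_HeckeOperatorForms

set_option autoImplicit false

namespace Fermat.Agent.S16.TC

open UpperHalfPlane ModularForm CongruenceSubgroup ModularGroup Matrix.SpecialLinearGroup
open Fermat.Agent.Common
open scoped MatrixGroups ModularForm Manifold

noncomputable section

variable {p : ℕ} {k : ℤ} {F : ℍ → ℂ}

theorem S_apply : (S 0 0 = 0) ∧ (S 0 1 = -1) ∧ (S 1 0 = 1) ∧ (S 1 1 = 0) := by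
  refine ⟨?_, ?_, ?_, ?_⟩ <;> simp [coe_S]

theorem fricke_conj [NeZero p] (γ : SL(2, ℤ)) (hγ : γ ∈ Gamma0 p) :
    ∃ γ' ∈ Gamma0 p, mapGL ℝ S * heckeDiagMatrix p * mapGL ℝ γ =
      mapGL ℝ γ' * (mapGL ℝ S * heckeDiagMatrix p) := by
  obtain ⟨e, he⟩ : (p : ℤ) ∣ γ 1 0 := mem_Gamma0_iff_dvd.mp hγ
  have hdet := det_eq' γ
  obtain ⟨γ', h00, h01, h10, h11⟩ := exists_SL2 (γ 1 1) (-e) (-(p * γ 0 1)) (γ 0 0)
    (by rw [he] at hdet; linear_combination hdet)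
  refine ⟨γ', ?_, ?_⟩
  · rw [mem_Gamma0_iff_dvd, h10]
    exact ⟨-γ 0 1, by ring⟩
  have her : ((γ 1 0 : ℤ) : ℝ) = p * e := by exact_mod_cast he
  obtain ⟨s00, s01, s10, s11⟩ := S_apply
  ext i j
  fin_cases i <;> fin_cases j <;>
    simp only [Fin.zero_eta, Fin.mk_one, Fin.isValue, Units.val_mul, Matrix.mul_apply,
      Fin.sum_univ_two, val_heckeDiagMatrix (NeZero.ne p), mapGL_apply',
      h00, h01, h10, h11, s00, s01, s10, s11, Matrix.of_apply, Matrix.cons_val', Matrix.cons_val_zero,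
      Matrix.cons_val_one, Matrix.cons_val_fin_one] <;> push_cast
  · rw [her]; ring
  · ring
  · ring
  · ring

theorem SL_slash' (f : ℍ → ℂ) (γ : SL(2, ℤ)) : f ∣[k] γ = f ∣[k] (mapGL ℝ γ) := rfl

/-- the (unnormalised) Fricke operator. -/
def sh (p : ℕ) (k : ℤ) (F : ℍ → ℂ) : ℍ → ℂ := (F ∣[k] S) ∣[k] heckeDiagMatrix p

theorem sh_eq (p : ℕ) (k : ℤ) (F : ℍ → ℂ) :
    sh p k F = F ∣[k] (mapGL ℝ S * heckeDiagMatrix p) := by
  rw [sh, SL_slash', SlashAction.slash_mul]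

theorem sh_slash [NeZero p] (hF : ∀ γ ∈ Gamma0 p, F ∣[k] γ = F) (γ : SL(2, ℤ)) (hγ : γ ∈ Gamma0 p) :
    sh p k F ∣[k] γ = sh p k F := by
  obtain ⟨γ', hγ', h⟩ := fricke_conj γ hγ
  rw [sh_eq, SL_slash', ← SlashAction.slash_mul, h, SlashAction.slash_mul, ← SL_slash', hF γ' hγ']

theorem ST_apply (j : ℕ) : ((S * T ^ j : SL(2, ℤ)) 0 0 = 0) ∧ ((S * T ^ j : SL(2, ℤ)) 0 1 = -1) ∧
    ((S * T ^ j : SL(2, ℤ)) 1 0 = 1) ∧ ((S * T ^ j : SL(2, ℤ)) 1 1 = j) := by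
  have h : ((S * T ^ j : SL(2, ℤ)) : Matrix (Fin 2) (Fin 2) ℤ) = !![0, -1; 1, (j : ℤ)] := by
    rw [Matrix.SpecialLinearGroup.coe_mul, coe_S, ← zpow_natCast, coe_T_zpow]
    ext a b
    fin_cases a <;> fin_cases b <;> simp [Matrix.mul_apply, Fin.sum_univ_two]
  refine ⟨?_, ?_, ?_, ?_⟩ <;> rw [h] <;> simp

theorem neg_one_apply : ((-1 : SL(2, ℤ)) 0 0 = -1) ∧ ((-1 : SL(2, ℤ)) 0 1 = 0) ∧
    ((-1 : SL(2, ℤ)) 1 0 = 0) ∧ ((-1 : SL(2, ℤ)) 1 1 = -1) := by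
  refine ⟨?_, ?_, ?_, ?_⟩ <;> simp

theorem fricke_ST [NeZero p] (j : ℕ) :
    mapGL ℝ S * heckeDiagMatrix p * mapGL ℝ (S * T ^ j) =
      mapGL ℝ (-1 : SL(2, ℤ)) * heckeMatrix p j := by
  obtain ⟨s00, s01, s10, s11⟩ := S_apply
  obtain ⟨t00, t01, t10, t11⟩ := ST_apply j
  obtain ⟨n00, n01, n10, n11⟩ := neg_one_apply
  ext a b
  fin_cases a <;> fin_cases b <;>
    simp only [Fin.zero_eta, Fin.mk_one, Fin.isValue, Units.val_mul, Matrix.mul_apply,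
      Fin.sum_univ_two, val_heckeDiagMatrix (NeZero.ne p), val_heckeMatrix (NeZero.ne p),
      mapGL_apply', t00, t01, t10, t11, s00, s01, s10, s11, n00, n01, n10, n11, Matrix.of_apply,
      Matrix.cons_val', Matrix.cons_val_zero,
      Matrix.cons_val_one, Matrix.cons_val_fin_one] <;> push_cast <;> ring

theorem sh_slash_ST [NeZero p] (hF : ∀ γ ∈ Gamma0 p, F ∣[k] γ = F) (j : ℕ) :
    sh p k F ∣[k] (S * T ^ j) = F ∣[k] heckeMatrix p j := by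
  have hneg : (-1 : SL(2, ℤ)) ∈ Gamma0 p := by
    rw [mem_Gamma0_iff_dvd, neg_one_apply.2.2.1]
    exact dvd_zero _
  rw [sh_eq, SL_slash', ← SlashAction.slash_mul, fricke_ST, SlashAction.slash_mul, ← SL_slash',
    hF _ hneg]

theorem diag_ST [NeZero p] (j : ℕ) :
    heckeDiagMatrix p * mapGL ℝ (S * T ^ j) = mapGL ℝ S * heckeMatrix p j := by
  obtain ⟨s00, s01, s10, s11⟩ := S_apply
  obtain ⟨t00, t01, t10, t11⟩ := ST_apply j
  ext a b
  fin_cases a <;> fin_cases b <;>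
    simp only [Fin.zero_eta, Fin.mk_one, Fin.isValue, Units.val_mul, Matrix.mul_apply,
      Fin.sum_univ_two, val_heckeDiagMatrix (NeZero.ne p), val_heckeMatrix (NeZero.ne p),
      mapGL_apply', t00, t01, t10, t11, s00, s01, s10, s11, Matrix.of_apply,
      Matrix.cons_val', Matrix.cons_val_zero,
      Matrix.cons_val_one, Matrix.cons_val_fin_one] <;> push_cast <;> ring

theorem diag_slash_ST [NeZero p] {K : ℍ → ℂ} (hK : ∀ γ : SL(2, ℤ), K ∣[k] γ = K) (j : ℕ) :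
    (K ∣[k] heckeDiagMatrix p) ∣[k] (S * T ^ j) = K ∣[k] heckeMatrix p j := by
  rw [SL_slash', ← SlashAction.slash_mul, diag_ST, SlashAction.slash_mul, ← SL_slash', hK]

theorem diag_smul_heckeMatrix_smul [NeZero p] (j : ℕ) (τ : ℍ) :
    heckeDiagMatrix p • (heckeMatrix p j • τ) = (T ^ j : SL(2, ℤ)) • τ := by
  have hp : (p : ℂ) ≠ 0 := by exact_mod_cast NeZero.ne p
  apply UpperHalfPlane.ext
  rw [coe_heckeDiagMatrix_smul (NeZero.ne p), coe_heckeMatrix_smul (NeZero.ne p), ← zpow_natCast,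
    modular_T_zpow_smul, coe_vadd]
  field_simp
  push_cast
  ring

theorem slash_T_pow_apply (g : ℍ → ℂ) (j : ℕ) (τ : ℍ) :
    (g ∣[k] (T ^ j : SL(2, ℤ))) τ = g ((T ^ j : SL(2, ℤ)) • τ) := by
  rw [SL_slash_apply]
  have : denom (T ^ j : SL(2, ℤ)) τ = 1 := by
    have h : ((T ^ j : SL(2, ℤ)) : Matrix (Fin 2) (Fin 2) ℤ) = !![1, (j : ℤ); 0, 1] := by
      rw [← zpow_natCast, coe_T_zpow]
    rw [ModularGroup.denom_apply, h]
    simp
  rw [this]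
  simp

theorem sh_slash_heckeMatrix [NeZero p] (F : ℍ → ℂ) (j : ℕ) :
    sh p k F ∣[k] heckeMatrix p j = ((p : ℂ) ^ (k - 2)) • (F ∣[k] (S * T ^ j)) := by
  have hp : (p : ℂ) ≠ 0 := by exact_mod_cast NeZero.ne p
  ext τ
  rw [slash_heckeMatrix_apply k (NeZero.ne p), sh, slash_heckeDiagMatrix_apply k (NeZero.ne p),
    diag_smul_heckeMatrix_smul, Pi.smul_apply, SlashAction.slash_mul, slash_T_pow_apply, smul_eq_mul,
    ← mul_assoc]
  congr 1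
  rw [← zpow_neg_one, ← zpow_add₀ hp]
  congr 1
  ring

/-- `tr (sh F) = sh F + U_p F`. -/
theorem trFun_sh [NeZero p] (hF : ∀ γ ∈ Gamma0 p, F ∣[k] γ = F) :
    trFun p k (sh p k F) = sh p k F + heckeU k p F := by
  unfold trFun
  rw [heckeU_def]
  congr 1
  exact Finset.sum_congr rfl fun j _ => sh_slash_ST hF j

end
end Fermat.Agent.S16.TC
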