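import Fermat.Agent.S16.IsQ2
import Fermat.Agent.S20.Basic
import Fermat.Agent.S20.Bridge
import Fermat.Agent.Common.E4Level

/-! # The Fricke operator on `Γ₀(p)` and the trace to level one (hedge for WP [TR]) -/

set_option autoImplicit false

namespace Fermat.Agent.S16.TS

open CongruenceSubgroup UpperHalfPlane ModularForm Matrix.SpecialLinearGroup
open scoped MatrixGroups ModularForm Manifold

noncomputable section

/-- slash by a positive multiple of a matrix -/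
theorem slash_of_smul {g g' : GL (Fin 2) ℝ} {c : ℝ} (hc : 0 < c) (hg : 0 < g.det.val)
    (h : (g' : Matrix (Fin 2) (Fin 2) ℝ) = c • (g : Matrix (Fin 2) (Fin 2) ℝ)) (k : ℤ)
    (f : ℍ → ℂ) : f ∣[k] g' = ((c : ℂ) ^ (k - 2)) • (f ∣[k] g) := by
  have hdet : g'.det.val = c ^ 2 * g.det.val := by
    rw [Matrix.GeneralLinearGroup.val_det_apply, h, Matrix.det_smul,
      Matrix.GeneralLinearGroup.val_det_apply]
    simp
  have hg' : 0 < g'.det.val := by rw [hdet]; positivity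
  have hcc : (c : ℂ) ≠ 0 := by exact_mod_cast hc.ne'
  ext τ
  have hden : denom g' τ = c * denom g τ := by
    simp only [denom, h, Matrix.smul_apply, smul_eq_mul]
    push_cast
    ring
  have hnum : num g' τ = c * num g τ := by
    simp only [num, h, Matrix.smul_apply, smul_eq_mul]
    push_cast
    ring
  have hsm : g' • τ = g • τ := by
    apply UpperHalfPlane.ext
    rw [coe_smul_of_det_pos hg', coe_smul_of_det_pos hg, hden, hnum,
      mul_div_mul_left _ _ hcc]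
  rw [Pi.smul_apply, slash_apply, slash_apply, hsm, hden, hdet, σ, σ, if_pos hg, if_pos hg']
  have habs : |c ^ 2 * g.det.val| = c ^ 2 * |g.det.val| := by
    rw [abs_mul, abs_of_pos (by positivity : (0:ℝ) < c ^ 2)]
  rw [habs, smul_eq_mul]
  push_cast
  rw [mul_zpow, mul_zpow, ← zpow_natCast (c : ℂ) 2, ← zpow_mul]
  have : (c : ℂ) ^ (k - 2) = (c : ℂ) ^ (((2 : ℕ) : ℤ) * (k - 1)) * (c : ℂ) ^ (-k) := by
    rw [← zpow_add₀ hcc]
    congr 1
    push_cast
    ring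
  rw [this]
  ring

open Fermat.Agent.Common

section Fricke

variable (p : ℕ) [NeZero p]

/-- the Fricke matrix, over `ℚ` -/
def Wq : GL (Fin 2) ℚ :=
  Matrix.GeneralLinearGroup.mkOfDetNeZero !![0, -1; (p : ℚ), 0] (by
    rw [Matrix.det_fin_two_of]
    simpa using NeZero.ne p)

/-- the Fricke matrix -/
def W : GL (Fin 2) ℝ := Matrix.GeneralLinearGroup.map (Rat.castHom ℝ) (Wq p)

theorem val_W : ((W p : GL (Fin 2) ℝ) : Matrix (Fin 2) (Fin 2) ℝ) = !![0, -1; (p : ℝ), 0] := by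
  ext i j
  fin_cases i <;> fin_cases j <;>
    simp [W, Wq, Matrix.GeneralLinearGroup.mkOfDetNeZero]

theorem det_W : (W p).det.val = p := by
  rw [Matrix.GeneralLinearGroup.val_det_apply, val_W, Matrix.det_fin_two_of]
  ring

theorem det_W_pos : 0 < (W p).det.val := by
  rw [det_W]
  exact_mod_cast Nat.pos_of_ne_zero (NeZero.ne p)

theorem W_mul_Gamma0 (γ : SL(2, ℤ)) (hγ : γ ∈ Gamma0 p) :
    ∃ γ' ∈ Gamma0 p, W p * mapGL ℝ γ = mapGL ℝ γ' * W p := by
  obtain ⟨e, he⟩ : (p : ℤ) ∣ γ 1 0 :=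
    (ZMod.intCast_zmod_eq_zero_iff_dvd _ _).mp (Gamma0_mem.mp hγ)
  have hdet := det_eq' γ
  obtain ⟨γ', h00, h01, h10, h11⟩ := exists_SL2 (γ 1 1) (-e) (-(p * γ 0 1)) (γ 0 0)
    (by rw [he] at hdet; linear_combination hdet)
  refine ⟨γ', ?_, ?_⟩
  · rw [Gamma0_mem, h10]
    simp
  · have her : ((γ 1 0 : ℤ) : ℝ) = p * e := by exact_mod_cast he
    ext i j
    fin_cases i <;> fin_cases j <;>
      simp only [Fin.zero_eta, Fin.mk_one, Fin.isValue, Units.val_mul, Matrix.mul_apply,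
        Fin.sum_univ_two, val_W, mapGL_apply',
        h00, h01, h10, h11, Matrix.of_apply, Matrix.cons_val', Matrix.cons_val_zero,
        Matrix.cons_val_one, Matrix.cons_val_fin_one] <;> push_cast
    · rw [her]; ring
    · ring
    · ring
    · ring

variable {p}

/-- the Fricke involution (unnormalised) `F ↦ F ∣[k] W` on `M_k(Γ₀(p))` -/
def fricke {k : ℤ} (F : ModularForm (Gamma0 p) k) : ModularForm (Gamma0 p) k where
  toFun := ⇑F ∣[k] W p
  slash_action_eq' := by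
    rintro _ ⟨γ, hγ, rfl⟩
    obtain ⟨γ', hγ', h⟩ := W_mul_Gamma0 p γ hγ
    have h2 : ⇑F ∣[k] mapGL ℝ γ' = ⇑F :=
      SlashInvariantFormClass.slash_action_eq F _ ⟨γ', hγ', rfl⟩
    rw [← SlashAction.slash_mul, h, SlashAction.slash_mul, h2]
  holo' := (ModularFormClass.holo F).slash k _
  bdd_at_cusps' := by
    intro c hc
    exact P2MW.S_ModularFormClass_isBoundedAt_heckeT.ModularForm.S06W2.isBoundedAt_slash_ratCast
      F (Wq p) hc

@[simp] theorem coe_fricke {k : ℤ} (F : ModularForm (Gamma0 p) k) :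
    ⇑(fricke F) = ⇑F ∣[k] W p := rfl

/-- the matrix `S T^j = [[0,-1],[1,j]]` -/
def stj (j : ℤ) : SL(2, ℤ) := ⟨!![0, -1; 1, j], by rw [Matrix.det_fin_two_of]; ring⟩

theorem W_mul_W : ((W p * W p : GL (Fin 2) ℝ) : Matrix (Fin 2) (Fin 2) ℝ) =
    (p : ℝ) • ((mapGL ℝ (-1 : SL(2, ℤ)) : GL (Fin 2) ℝ) : Matrix (Fin 2) (Fin 2) ℝ) := by
  ext i j
  fin_cases i <;> fin_cases j <;>
    simp [val_W, Matrix.mul_apply, Fin.sum_univ_two]

theorem W_mul_heckeMatrix (j : ℕ) :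
    ((W p * heckeMatrix p j : GL (Fin 2) ℝ) : Matrix (Fin 2) (Fin 2) ℝ) =
    (p : ℝ) • ((mapGL ℝ (stj j) : GL (Fin 2) ℝ) : Matrix (Fin 2) (Fin 2) ℝ) := by
  ext i j
  fin_cases i <;> fin_cases j <;>
    simp [val_W, val_heckeMatrix (NeZero.ne p), Matrix.mul_apply, Fin.sum_univ_two, stj]

theorem heckeDiagMatrix_mul_W :
    ((heckeDiagMatrix p * W p : GL (Fin 2) ℝ) : Matrix (Fin 2) (Fin 2) ℝ) =
    (p : ℝ) • ((mapGL ℝ (stj 0) : GL (Fin 2) ℝ) : Matrix (Fin 2) (Fin 2) ℝ) := by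
  ext i j
  fin_cases i <;> fin_cases j <;>
    simp [val_W, val_heckeDiagMatrix (NeZero.ne p), Matrix.mul_apply, Fin.sum_univ_two, stj]

theorem det_mapGL_pos (γ : SL(2, ℤ)) : 0 < (mapGL ℝ γ : GL (Fin 2) ℝ).det.val := by
  simp

theorem p_pos' : (0 : ℝ) < (p : ℝ) := by exact_mod_cast Nat.pos_of_ne_zero (NeZero.ne p)

theorem fricke_fricke {k : ℤ} (F : ModularForm (Gamma0 p) k) :
    ⇑(fricke (fricke F)) = ((p : ℂ) ^ (k - 2)) • ⇑F := by
  rw [coe_fricke, coe_fricke, ← SlashAction.slash_mul,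
    slash_of_smul p_pos' (det_mapGL_pos _) W_mul_W]
  have h2 : ⇑F ∣[k] mapGL ℝ (-1 : SL(2, ℤ)) = ⇑F :=
    SlashInvariantFormClass.slash_action_eq F _ ⟨-1, Fermat.Agent.S20.neg_one_mem_Gamma0 p, rfl⟩
  rw [h2]
  simp

theorem heckeU_slash_W {k : ℤ} (f : ℍ → ℂ) :
    heckeU k p (f ∣[k] W p) =
      ((p : ℂ) ^ (k - 2)) • ∑ j ∈ Finset.range p, f ∣[k] mapGL ℝ (stj (j : ℤ)) := by
  rw [heckeU_def, Finset.smul_sum]
  refine Finset.sum_congr rfl fun j _ => ?_
  rw [← SlashAction.slash_mul, slash_of_smul p_pos' (det_mapGL_pos _) (W_mul_heckeMatrix j)]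
  simp

end Fricke

end

end Fermat.Agent.S16.TS
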