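import Fermat.Agent.S16.TraceSharp
import Fermat.Agent.S16.TraceCore

/-! # The trace to level one in terms of the Fricke operator; weight two -/

set_option autoImplicit false

namespace Fermat.Agent.S16.TS

open CongruenceSubgroup UpperHalfPlane ModularForm Matrix.SpecialLinearGroup
open scoped MatrixGroups ModularForm Manifold

noncomputable section

theorem stj_eq (j : ℕ) : stj (j : ℤ) = ModularGroup.S * ModularGroup.T ^ j := by
  rw [← zpow_natCast ModularGroup.T j]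
  apply Subtype.ext
  rw [Matrix.SpecialLinearGroup.coe_mul, ModularGroup.coe_T_zpow, ModularGroup.coe_S]
  ext a b
  fin_cases a <;> fin_cases b <;>
    simp [stj, Matrix.mul_apply, Fin.sum_univ_two]

variable {p : ℕ} [hp : Fact p.Prime]

instance : NeZero p := ⟨hp.out.ne_zero⟩

/-- `Tr F = F + p^(2-k) U_p (F ∣ W)`. -/
theorem trFun_eq_heckeU {k : ℤ} (f : ℍ → ℂ) :
    TC.trFun p k f = f + ((p : ℂ) ^ (2 - k)) • heckeU k p (f ∣[k] W p) := by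
  have hp0 : (p : ℂ) ≠ 0 := by exact_mod_cast hp.out.ne_zero
  rw [heckeU_slash_W, smul_smul, ← zpow_add₀ hp0, show 2 - k + (k - 2) = 0 by ring, zpow_zero,
    one_smul, TC.trFun]
  congr 1
  refine Finset.sum_congr rfl fun j _ => ?_
  rw [stj_eq]
  rfl

theorem trace_mem_M1 {k : ℤ} (F : ModularForm (Gamma0 p) k) :
    (⇑F + ((p : ℂ) ^ (2 - k)) • heckeU k p (⇑F ∣[k] W p)) ∈ Fermat.Agent.S20.M1 k := by
  obtain ⟨K, hK⟩ := TC.exists_levelOne p k F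
  rw [← trFun_eq_heckeU, ← hK]
  exact Fermat.Agent.S20.coe_mem_M1 K

/-- In weight two, `G ∣ W = - U_p G`. -/
theorem slash_W_weight_two (G : ModularForm (Gamma0 p) 2) :
    ⇑G ∣[(2 : ℤ)] W p = - heckeU 2 p ⇑G := by
  have h1 := Fermat.Agent.S20.M1_two_eq_zero (trace_mem_M1 (fricke G))
  rw [← coe_fricke, fricke_fricke] at h1
  simp only [sub_self, zpow_zero, one_smul] at h1
  rw [← coe_fricke]
  exact eq_neg_of_add_eq_zero_left h1

theorem one_slash_W : (1 : ℍ → ℂ) ∣[(0 : ℤ)] W p = ((p : ℂ)⁻¹) • (1 : ℍ → ℂ) := by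
  ext τ
  rw [slash_apply, σ, if_pos (det_W_pos p), det_W]
  simp

theorem slash_pow_mul (g r : ℍ → ℂ) (k : ℤ) (s : ℕ) :
    (g ^ s * r) ∣[2 * (s : ℤ) + k] W p =
      ((p : ℂ) ^ s) • ((g ∣[(2 : ℤ)] W p) ^ s * (r ∣[k] W p)) := by
  induction s with
  | zero => simp
  | succ s ih =>
    have h1 : g ^ (s + 1) * r = g * (g ^ s * r) := by rw [pow_succ]; ring
    have h2 : 2 * ((s + 1 : ℕ) : ℤ) + k = 2 + (2 * (s : ℤ) + k) := by push_cast; ring
    rw [h1, h2, mul_slash, ih, det_W]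
    ext τ
    simp only [Pi.smul_apply, Pi.mul_apply, Pi.pow_apply, Complex.real_smul, smul_eq_mul,
      Nat.abs_cast, Complex.ofReal_natCast]
    ring

/-- `φ` is the `q`-expansion of the modular form `f` of weight `k` on `Γ₀(N)`. -/
def IsQF (N : ℕ) (k : ℤ) (φ : PowerSeries ℤ) (f : ℍ → ℂ) : Prop :=
  ∃ F : ModularForm (Gamma0 N) k, ⇑F = f ∧ qExpansion 1 F = toC φ

section IsQF

variable {N : ℕ} {k k' : ℤ} {φ ψ : PowerSeries ℤ} {f g : ℍ → ℂ}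

theorem IsQF.add (h : IsQF N k φ f) (h' : IsQF N k ψ g) : IsQF N k (φ + ψ) (f + g) := by
  obtain ⟨F, rfl, hF⟩ := h
  obtain ⟨G, rfl, hG⟩ := h'
  refine ⟨F + G, rfl, ?_⟩
  rw [FunLike.coe_add, ModularForm.qExpansion_add one_pos (one_mem_strictPeriods_Gamma0 N) F G,
    hF, hG, map_add]

theorem IsQF.mul (h : IsQF N k φ f) (h' : IsQF N k' ψ g) : IsQF N (k + k') (φ * ψ) (f * g) := by
  obtain ⟨F, rfl, hF⟩ := h
  obtain ⟨G, rfl, hG⟩ := h'
  refine ⟨F.mul G, rfl, ?_⟩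
  rw [ModularForm.qExpansion_mul one_pos (one_mem_strictPeriods_Gamma0 N) F G, hF, hG, map_mul]

theorem IsQF.pow (h : IsQF N k φ f) (n : ℕ) : IsQF N (n * k) (φ ^ n) (f ^ n) := by
  obtain ⟨F, rfl, hF⟩ := h
  refine ⟨F.pow n, ModularForm.coe_pow F n, ?_⟩
  rw [ModularForm.qExpansion_pow one_pos (one_mem_strictPeriods_Gamma0 N) F n, hF, map_pow]

theorem IsQF.C_mul (h : IsQF N k φ f) (c : ℤ) :
    IsQF N k (PowerSeries.C c * φ) ((c : ℂ) • f) := by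
  obtain ⟨F, rfl, hF⟩ := h
  refine ⟨(c : ℂ) • F, rfl, ?_⟩
  rw [FunLike.coe_smul, ModularForm.qExpansion_smul one_pos (one_mem_strictPeriods_Gamma0 N), hF]
  ext n
  rw [map_mul, PowerSeries.map_C, PowerSeries.coeff_smul, PowerSeries.coeff_C_mul]
  simp

theorem IsQF.heckeU [NeZero N] {r : ℕ} (h : IsQF N k φ f) (hr : r ≠ 0) (hrN : r ∣ N) :
    IsQF N k (psU r φ) (heckeU k r f) := by
  obtain ⟨F, rfl, hF⟩ := h
  refine ⟨ModularForm.heckeULin _ hrN F, rfl, ?_⟩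
  ext n
  have h1 := ModularFormClass.qCoeff_heckeU F (one_mem_strictPeriods_Gamma0 N) hr n
  rw [ModularForm.coe_heckeULin_apply]
  unfold ModularFormClass.qCoeff at h1
  rw [h1, ModularForm.coeffHeckeU_apply, hF]
  simp

theorem IsQF.congr_weight (h : IsQF N k φ f) (hk : k = k') : IsQF N k' φ f := hk ▸ h

theorem IsQF.isQ_one (h : IsQF N k φ f) (hf : f ∈ Fermat.Agent.S20.M1 k) : IsQ 1 k φ := by
  obtain ⟨F, rfl, hF⟩ := h
  exact IsQ.of_levelOne (Fermat.Agent.S20.ofM1 _ hf) hF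

theorem IsQ.isQF (h : IsQ N k φ) : ∃ f, IsQF N k φ f := by
  obtain ⟨F, hF⟩ := h
  exact ⟨F, F, rfl, hF⟩

end IsQF

/-- `p^s Tr(G^s) = p^s G^s + p (-1)^s U_p((U_p G)^s)` is a level one form of weight `2 s`. -/
theorem TR_pow' {G : PowerSeries ℤ} (hG : IsQ p 2 G) (s : ℕ) :
    IsQ 1 (2 * (s : ℤ))
      (PowerSeries.C ((p : ℤ) ^ s) * G ^ s +
        PowerSeries.C ((p : ℤ) * (-1) ^ s) * psU p ((psU p G) ^ s)) := by
  have hp0 : (p : ℂ) ≠ 0 := by exact_mod_cast hp.out.ne_zero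
  obtain ⟨𝒢, h𝒢⟩ := hG
  have hg : IsQF p 2 G ⇑𝒢 := ⟨𝒢, rfl, h𝒢⟩
  have h1 : IsQF p (2 * (s : ℤ)) (G ^ s) (⇑𝒢 ^ s) := (hg.pow s).congr_weight (by ring)
  have h2 : IsQF p (2 * (s : ℤ)) (psU p ((psU p G) ^ s)) (heckeU (2 * (s : ℤ)) p ((heckeU 2 p ⇑𝒢) ^ s)) :=
    (((hg.heckeU hp.out.ne_zero dvd_rfl).pow s).congr_weight (by ring)).heckeU hp.out.ne_zero dvd_rfl
  have h3 := (h1.C_mul ((p : ℤ) ^ s)).add (h2.C_mul ((p : ℤ) * (-1) ^ s))
  refine h3.isQ_one ?_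
  obtain ⟨F, hF, -⟩ := h1
  have h4 := trace_mem_M1 F
  have h5 : ⇑F ∣[2 * (s : ℤ)] W p =
      ((p : ℂ) ^ s * (p : ℂ)⁻¹ * (-1) ^ s) • (heckeU 2 p ⇑𝒢) ^ s := by
    have := slash_pow_mul (p := p) ⇑𝒢 1 0 s
    rw [mul_one, add_zero, one_slash_W, slash_W_weight_two] at this
    rw [hF, this]
    ext τ
    simp only [Pi.smul_apply, Pi.mul_apply, Pi.pow_apply, Pi.neg_apply, Pi.one_apply, smul_eq_mul]
    rw [neg_pow]
    ring
  rw [h5, heckeU_smul, hF] at h4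
  have h6 := (Fermat.Agent.S20.M1 (2 * (s : ℤ))).smul_mem ((p : ℂ) ^ s) h4
  convert h6 using 1
  rw [smul_add, smul_smul, smul_smul]
  congr 2
  · push_cast; rfl
  · push_cast
    have : (p : ℂ) ^ (2 - 2 * (s : ℤ)) = (p : ℂ) ^ 2 * ((p : ℂ) ^ s)⁻¹ * ((p : ℂ) ^ s)⁻¹ := by
      rw [zpow_sub₀ hp0, two_mul, zpow_add₀ hp0]
      simp only [zpow_natCast, zpow_ofNat]
      field_simp
    rw [this]
    field_simp

end

end Fermat.Agent.S16.TS
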