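import Fermat.Agent.S16.Count

/-! # The weight obstruction: a weight two form on `Γ₀(N)` is not constant modulo `ℓ` (`ℓ ≥ 5`),
modulo `9`, modulo `16`. -/

set_option autoImplicit false

namespace Fermat.Agent.S16

open CongruenceSubgroup UpperHalfPlane ModularForm PowerSeries
open scoped MatrixGroups ModularForm Manifold

noncomputable section

theorem psU_add (r : ℕ) (φ ψ : PowerSeries ℤ) : psU r (φ + ψ) = psU r φ + psU r ψ := by
  ext n; simp

theorem psU_sub (r : ℕ) (φ ψ : PowerSeries ℤ) : psU r (φ - ψ) = psU r φ - psU r ψ := by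
  ext n; simp

theorem psU_C_mul (r : ℕ) (c : ℤ) (φ : PowerSeries ℤ) : psU r (C c * φ) = C c * psU r φ := by
  ext n; rw [coeff_psU, coeff_C_mul, coeff_C_mul, coeff_psU]

theorem psV_add (r : ℕ) (φ ψ : PowerSeries ℤ) : psV r (φ + ψ) = psV r φ + psV r ψ := by
  ext n; simp only [coeff_psV, map_add]; split_ifs <;> simp

theorem psV_sub (r : ℕ) (φ ψ : PowerSeries ℤ) : psV r (φ - ψ) = psV r φ - psV r ψ := by
  ext n; simp only [coeff_psV, map_sub]; split_ifs <;> simp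

theorem psV_C_mul (r : ℕ) (c : ℤ) (φ : PowerSeries ℤ) : psV r (C c * φ) = C c * psV r φ := by
  ext n; simp only [coeff_psV, coeff_C_mul]; split_ifs <;> simp

variable {N : ℕ} [NeZero N]

/-- core of the `V`-trick -/
theorem vtrick_core (ℓ s : ℕ) [Fact ℓ.Prime] {H H₁ : PowerSeries ℤ} (hH : IsQ N 2 H) {u e : ℤ}
    (hu : ¬ (ℓ : ℤ) ∣ u) (hH₁ : H = C u + C ((ℓ : ℤ) ^ (s + 1)) * H₁)
    {r : ℕ} (hr : r.Prime) (hrN : ¬ r ∣ N) (hrℓ : ¬ (ℓ : ℤ) ∣ r)
    (hre : (r : ℤ) ^ 2 - 1 = (ℓ : ℤ) ^ s * e) (he : ¬ (ℓ : ℤ) ∣ e)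
    (hbig : 14 * (Gamma0 N).index < 12 * r) : False := by
  have hℓ : (ℓ : ℤ) ≠ 0 := by exact_mod_cast (Fact.out : ℓ.Prime).ne_zero
  have hℓp : Prime (ℓ : ℤ) := Nat.prime_iff_prime_int.mp Fact.out
  have hD : IsQ N 12 DeltaZ := isQ_DeltaZ
  have h14 : IsQ N ((13 : ℕ) + 1 : ℤ) (DeltaZ * H) := (hD.mul hH).congr_weight (by norm_num)
  have h12 : IsQ N ((11 : ℕ) + 1 : ℤ) DeltaZ := hD.congr_weight (by norm_num)
  have hX : IsQ N 14 ((psU r (DeltaZ * H) + C ((r : ℤ) ^ 13) * psV r (DeltaZ * H)) -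
      H * (psU r DeltaZ + C ((r : ℤ) ^ 11) * psV r DeltaZ)) :=
    ((h14.heckeT hr hrN).congr_weight (by norm_num)).sub
      ((hH.mul (h12.heckeT hr hrN)).congr_weight (by norm_num))
  set Y : PowerSeries ℤ := psU r (DeltaZ * H₁) + C ((r : ℤ) ^ 13) * psV r (DeltaZ * H₁) -
    H₁ * (psU r DeltaZ + C ((r : ℤ) ^ 11) * psV r DeltaZ) with hY
  set X' : PowerSeries ℤ := C (u * (r : ℤ) ^ 11 * e) * psV r DeltaZ + C (ℓ : ℤ) * Y with hX'
  have hDH : DeltaZ * H = C u * DeltaZ + C ((ℓ : ℤ) ^ (s + 1)) * (DeltaZ * H₁) := by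
    rw [hH₁]; ring
  have hXX' : (psU r (DeltaZ * H) + C ((r : ℤ) ^ 13) * psV r (DeltaZ * H)) -
      H * (psU r DeltaZ + C ((r : ℤ) ^ 11) * psV r DeltaZ) = C ((ℓ : ℤ) ^ s) * X' := by
    rw [hDH, psU_add, psV_add, psU_C_mul, psU_C_mul, psV_C_mul, psV_C_mul, hX', hY, hH₁]
    have h1 : (C ((r : ℤ) ^ 13) : PowerSeries ℤ) =
        C ((r : ℤ) ^ 11) + C ((r : ℤ) ^ 11) * (C ((ℓ : ℤ) ^ s) * C e) := by
      rw [← map_mul, ← map_mul, ← map_add, ← hre]
      congr 1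
      ring
    rw [h1, pow_succ, map_mul, map_mul, map_mul]
    ring
  rw [hXX'] at hX
  have hX'Q : IsQ N ((14 : ℕ) : ℤ) X' := (hX.of_C_mul (pow_ne_zero _ hℓ)).congr_weight (by norm_num)
  -- order of `X'` modulo `ℓ`
  have hcast : ∀ z : ℤ, ((z : ZMod ℓ) = 0 ↔ (ℓ : ℤ) ∣ z) := fun z =>
    ZMod.intCast_zmod_eq_zero_iff_dvd z ℓ
  have hord : (red ℓ X').order = (r : ℕ) := by
    rw [PowerSeries.order_eq_nat]
    have hco : ∀ n, (red ℓ X').coeff n =
        ((u * (r : ℤ) ^ 11 * e : ℤ) : ZMod ℓ) * (((psV r DeltaZ).coeff n : ℤ) : ZMod ℓ) := by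
      intro n
      rw [PowerSeries.coeff_map, hX', map_add, coeff_C_mul, coeff_C_mul]
      simp
    constructor
    · rw [hco, coeff_psV, if_pos dvd_rfl, Nat.div_self hr.pos, coeff_one_DeltaZ]
      rw [Int.cast_one, mul_one, Ne, hcast]
      intro hdvd
      rcases hℓp.dvd_or_dvd hdvd with h | h
      · rcases hℓp.dvd_or_dvd h with h | h
        · exact hu h
        · exact hrℓ (hℓp.dvd_of_dvd_pow h)
      · exact he h
    · intro i hi
      rw [hco, coeff_psV]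
      split_ifs with hdvd
      · have : i = 0 := Nat.eq_zero_of_dvd_of_lt hdvd hi
        subst this
        simp [coeff_zero_DeltaZ]
      · simp
  have hHord : (red ℓ H).order = 0 := by
    apply PowerSeries.order_zero_of_unit
    rw [PowerSeries.isUnit_iff_constantCoeff, ← PowerSeries.coeff_zero_eq_constantCoeff_apply,
      PowerSeries.coeff_map, hH₁]
    rw [map_add, coeff_zero_C, coeff_C_mul, isUnit_iff_ne_zero, Ne, eq_intCast, hcast]
    intro hdvd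
    apply hu
    have h2 : (ℓ : ℤ) ∣ (ℓ : ℤ) ^ (s + 1) * (coeff 0) H₁ :=
      Dvd.dvd.mul_right (dvd_pow_self _ (Nat.succ_ne_zero s)) _
    exact (dvd_add_left h2).mp hdvd
  have := sturm_mod (N := N) ℓ (k := 14) (w := 2) hX'Q (hH.congr_weight (by norm_num))
    (by norm_num) (by norm_num) hHord hord
  omega

/-- a large prime in a given residue class, prime to the level -/
theorem exists_good_prime (N : ℕ) [NeZero N] (B q a : ℕ) (hq : q ≠ 0) (h : a.Coprime q) :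
    ∃ r : ℕ, r.Prime ∧ ¬ r ∣ N ∧ B < r ∧ ∃ c : ℤ, (r : ℤ) = a + q * c := by
  obtain ⟨r, hgt, hr, hmod⟩ := Nat.forall_exists_prime_gt_and_modEq (max B N) hq h
  refine ⟨r, hr, fun hd => ?_, lt_of_le_of_lt (le_max_left _ _) hgt, ?_⟩
  · have := Nat.le_of_dvd (Nat.pos_of_ne_zero (NeZero.ne N)) hd
    have h2 : N < r := lt_of_le_of_lt (le_max_right _ _) hgt
    omega
  · have h1 : (a : ℤ) ≡ r [ZMOD q] := by exact_mod_cast hmod.symm
    obtain ⟨c, hc⟩ := Int.modEq_iff_dvd.mp h1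
    exact ⟨c, by linarith⟩

/-- A weight two form on `Γ₀(N)` with integral `q`-expansion is not congruent to a unit constant
modulo a prime `ℓ ≥ 5`. -/
theorem not_const_mod_prime (ℓ : ℕ) [Fact ℓ.Prime] (hℓ5 : 5 ≤ ℓ) {H H₁ : PowerSeries ℤ}
    (hH : IsQ N 2 H) {u : ℤ} (hu : ¬ (ℓ : ℤ) ∣ u) (hH₁ : H = C u + C (ℓ : ℤ) * H₁) : False := by
  have hp : ℓ.Prime := Fact.out
  have hcop : Nat.Coprime 2 ℓ := by
    rw [Nat.coprime_comm, Nat.Prime.coprime_iff_not_dvd hp]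
    intro h
    have := Nat.le_of_dvd (by norm_num) h
    omega
  obtain ⟨r, hr, hrN, hbig, c, hc⟩ := exists_good_prime N (14 * (Gamma0 N).index) ℓ 2 hp.ne_zero hcop
  refine vtrick_core (N := N) ℓ 0 hH (e := (r : ℤ) ^ 2 - 1) hu (by simpa using hH₁) hr hrN ?_
    (by simp) ?_ (by omega)
  · intro hd
    have h2 : (ℓ : ℤ) ∣ 2 := by
      have : (ℓ : ℤ) ∣ (r : ℤ) - ℓ * c := dvd_sub hd (Dvd.intro _ rfl)
      rw [hc] at this
      simpa using this
    have := Int.le_of_dvd (by norm_num) h2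
    omega
  · intro hd
    have h3 : (ℓ : ℤ) ∣ 3 := by
      have h4 : (r : ℤ) ^ 2 - 1 - ℓ * (4 * c + ℓ * c ^ 2) = 3 := by rw [hc]; push_cast; ring
      rw [← h4]
      exact dvd_sub hd (Dvd.intro _ rfl)
    have := Int.le_of_dvd (by norm_num) h3
    omega

/-- A weight two form on `Γ₀(N)` with integral `q`-expansion is not congruent to a constant
prime to `3` modulo `9`. -/
theorem not_const_mod_nine {H H₁ : PowerSeries ℤ}
    (hH : IsQ N 2 H) {u : ℤ} (hu : ¬ (3 : ℤ) ∣ u) (hH₁ : H = C u + C 9 * H₁) : False := by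
  haveI : Fact (Nat.Prime 3) := ⟨by norm_num⟩
  obtain ⟨r, hr, hrN, hbig, c, hc⟩ := exists_good_prime N (14 * (Gamma0 N).index) 9 2 (by norm_num)
    (by norm_num)
  refine vtrick_core (N := N) 3 1 hH (H₁ := H₁) (e := 1 + 12 * c + 27 * c ^ 2) (by simpa using hu)
    (by rw [hH₁]; norm_num) hr hrN ?_ (by rw [hc]; push_cast; ring) ?_ (by omega)
  · rw [hc]
    push_cast
    omega
  · push_cast
    generalize c ^ 2 = x
    omega

/-- A weight two form on `Γ₀(N)` with integral `q`-expansion is not congruent to an odd constant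
modulo `16`. -/
theorem not_const_mod_sixteen {H H₁ : PowerSeries ℤ}
    (hH : IsQ N 2 H) {u : ℤ} (hu : ¬ (2 : ℤ) ∣ u) (hH₁ : H = C u + C 16 * H₁) : False := by
  haveI : Fact (Nat.Prime 2) := ⟨by norm_num⟩
  obtain ⟨r, hr, hrN, hbig, c, hc⟩ := exists_good_prime N (14 * (Gamma0 N).index) 16 3 (by norm_num)
    (by norm_num)
  refine vtrick_core (N := N) 2 3 hH (H₁ := H₁) (e := 1 + 12 * c + 32 * c ^ 2) (by simpa using hu)
    (by rw [hH₁]; norm_num) hr hrN ?_ (by rw [hc]; push_cast; ring) ?_ (by omega)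
  · rw [hc]
    push_cast
    omega
  · push_cast
    generalize c ^ 2 = x
    omega

end

end Fermat.Agent.S16
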